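import Mathlib
import Fermat.Prelude.Def_GaloisRep_Flat
import Fermat.Prelude.Def_GaloisRep_CompletionBridge

/-!
# P-S56, block (A): bridge from the Prelude flatness condition to the local side

The Prelude condition `GaloisRepAdic.IsFlatAt ρ p` gives, for every finite level `V/IV`, a finite
flat cocommutative Hopf algebra `H` over `ℤ_(p) = GaloisRep.ratLocalizedAt p` whose `Qbar`-points
are `V/IV`, equivariantly for `Gal(Qbar/ℚ)`.  Fontaine's theorem lives over `ℤ_p` and the local
Galois group `Gal(PadicAlgCl p/ℚ_p)`.  This file transports the datum: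

* `liftConv` : the base change adjunction `(H →ₐ[R] Ω') ≃ (R' ⊗[R] H →ₐ[R'] Ω')` is multiplicative
  for the convolution products (generic, any bialgebra `H`);
* `postComp` : post-composition with an algebra hom is a monoid hom for convolution;
* `algZplocPadicInt` : the algebra structure `ℤ_(p) → ℤ_p` (a def, not a global instance);
* `exists_padicEmbedding_eq` : elements of `PadicAlgCl p` integral over `ℚ` come from `Qbar`;
* `pointsEquiv` : `H(Qbar) ≃* (ℤ_p ⊗ H)(PadicAlgCl p)` for `H` integral over `ℤ_(p)`, with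
  `pointsEquiv_apply_one_tmul`, `padicEmbedding_pointsEquiv_symm`, `pointsEquiv_symm_galois`;
* `pointsEquivZ` : `H(Qbar) ≃* H(PadicAlgCl p)` (the Hopf algebra stays over `ℤ_(p)`), with
  `pointsEquivZ_apply`, `pointsEquivZ_symm_galois`; `exists_hopf_padicPoints_of_isFlatAt`;
* `exists_local_hopf_of_isFlatAt` : the bridge, in the same shape as `IsFlatAt` itself but over
  `ℤ_p`, with points in `PadicAlgCl p` and equivariance for `localGaloisToGlobal p`;
* `pow_eq_one_of_additive_equiv` : points of a group killed by `n` satisfy `g ^ n = 1`.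
-/

set_option autoImplicit false

open TensorProduct Coalgebra WithConv

namespace Fermat.Agent.S56x.Fontaine.LocalPoints


/-- If the points of a convolution monoid are identified additively with a group killed by `n`,
every point satisfies `g ^ n = 1`. -/
theorem pow_eq_one_of_additive_equiv {M X : Type*} [Monoid M] [AddCommGroup X] (e : M ≃ X)
    (hadd : ∀ f g : M, e (f * g) = e f + e g) (n : ℕ) (hn : ∀ x : X, n • x = 0) (g : M) :
    g ^ n = 1 := by
  have h1 : e 1 = 0 := by
    have := hadd 1 1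
    rw [mul_one] at this
    exact left_eq_add.mp this
  have hpow : ∀ k : ℕ, e (g ^ k) = k • e g := by
    intro k
    induction k with
    | zero => simp [h1]
    | succ k ih => rw [pow_succ, hadd, ih, succ_nsmul]
  apply e.injective
  rw [hpow, hn, h1]

section Generic

variable {R R' H Ω Ω' : Type*} [CommRing R] [CommRing R'] [Algebra R R']
  [CommRing H] [Bialgebra R H] [CommRing Ω] [Algebra R Ω]
  [CommRing Ω'] [Algebra R Ω'] [Algebra R' Ω'] [IsScalarTower R R' Ω']

/-- Post-composition with an algebra hom is a monoid hom for convolution. -/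
noncomputable def postComp (ι : Ω →ₐ[R] Ω') :
    WithConv (H →ₐ[R] Ω) →* WithConv (H →ₐ[R] Ω') where
  toFun f := toConv (ι.comp f.ofConv)
  map_one' := by
    apply WithConv.ofConv_injective
    ext x
    simp [AlgHom.convOne_def]
  map_mul' f g := by
    apply WithConv.ofConv_injective
    simpa using AlgHom.comp_convMul_distrib ι f g

@[simp] lemma postComp_apply (ι : Ω →ₐ[R] Ω') (f : WithConv (H →ₐ[R] Ω)) (x : H) :
    (postComp ι f).ofConv x = ι (f.ofConv x) := rfl

/-- The base change adjunction is multiplicative for convolution. -/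
noncomputable def liftConv :
    WithConv (H →ₐ[R] Ω') ≃* WithConv (R' ⊗[R] H →ₐ[R'] Ω') where
  toFun f := toConv (AlgHom.liftEquiv R R' H Ω' f.ofConv)
  invFun F := toConv ((AlgHom.liftEquiv R R' H Ω').symm F.ofConv)
  left_inv f := by simp
  right_inv F := by simp
  map_mul' f g := by
    apply WithConv.ofConv_injective
    apply Algebra.TensorProduct.ext_ring
    ext x
    simp only [AlgHom.coe_comp, AlgHom.coe_restrictScalars', Function.comp_apply,
      Algebra.TensorProduct.includeRight_apply, AlgHom.liftEquiv_tmul, one_smul]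
    rw [AlgHom.convMul_apply, AlgHom.convMul_apply]
    simp only [TensorProduct.comul_tmul, CommSemiring.comul_apply]
    induction comul (R := R) x with
    | zero => simp
    | add a b ha hb => simp only [tmul_add, map_add, ha, hb]
    | tmul a b => simp

end Generic

section Arith

variable (p : ℕ) [Fact p.Prime]

local notation "Qbar" => AlgebraicClosure ℚ
local notation "Zploc" => GaloisRep.ratLocalizedAt p

lemma not_dvd_den (x : Zploc) : ¬ p ∣ (x : ℚ).den := by
  have hx : (x : ℚ).den.Coprime p := x.2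
  intro h
  have := Nat.eq_one_of_dvd_coprimes hx h (dvd_refl p)
  exact (Fact.out : p.Prime).one_lt.ne' this

/-- The canonical ring hom `ℤ_(p) → ℤ_p`. -/
noncomputable def ratLocToPadicInt : Zploc →+* ℤ_[p] :=
  ((Rat.castHom ℚ_[p]).comp (Subring.subtype _)).codRestrict (PadicInt.subring p)
    (fun x => Padic.norm_rat_le_one (not_dvd_den p x))

@[simp] lemma coe_ratLocToPadicInt (x : Zploc) :
    ((ratLocToPadicInt p x : ℤ_[p]) : ℚ_[p]) = ((x : ℚ) : ℚ_[p]) := rfl

/-- `ℤ_p` as an algebra over `ℤ_(p)` (not a global instance). -/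
@[instance_reducible] noncomputable def algZplocPadicInt : Algebra Zploc ℤ_[p] := (ratLocToPadicInt p).toAlgebra

attribute [local instance] algZplocPadicInt

lemma algebraMap_zploc_padicInt (x : Zploc) :
    ((algebraMap Zploc ℤ_[p] x : ℤ_[p]) : ℚ_[p]) = ((x : ℚ) : ℚ_[p]) := rfl


lemma algebraMap_zploc_padicAlgCl (x : Zploc) :
    algebraMap Zploc (PadicAlgCl p) x = algebraMap ℚ_[p] (PadicAlgCl p) ((x : ℚ) : ℚ_[p]) := by
  rw [IsScalarTower.algebraMap_apply Zploc ℚ_[p] (PadicAlgCl p)]
  congr 1

instance towerZplocPadic : IsScalarTower Zploc ℤ_[p] (PadicAlgCl p) :=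
  IsScalarTower.of_algebraMap_eq' <| by
    ext x
    rw [algebraMap_zploc_padicAlgCl, RingHom.comp_apply,
      IsScalarTower.algebraMap_apply ℤ_[p] ℚ_[p] (PadicAlgCl p)]
    rfl


/-- `Qbar → PadicAlgCl p` as a `ℤ_(p)`-algebra hom. -/
noncomputable def iotaZ : Qbar →ₐ[Zploc] PadicAlgCl p :=
  { (padicEmbedding p).toRingHom with
    commutes' := fun x => by
      rw [IsScalarTower.algebraMap_apply Zploc ℚ Qbar]
      simp only [AlgHom.toRingHom_eq_coe, RingHom.toMonoidHom_eq_coe, OneHom.toFun_eq_coe,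
        MonoidHom.toOneHom_coe, MonoidHom.coe_coe, RingHom.coe_coe, AlgHom.commutes]
      rw [algebraMap_zploc_padicAlgCl]
      change algebraMap ℚ (PadicAlgCl p) (x : ℚ) = _
      rw [eq_ratCast, map_ratCast] }

@[simp] lemma iotaZ_apply (y : Qbar) : iotaZ p y = padicEmbedding p y := rfl

lemma iotaZ_injective : Function.Injective (iotaZ p) := (padicEmbedding p).toRingHom.injective

/-- Elements of `PadicAlgCl p` integral over `ℚ` come from `Qbar`. -/
lemma exists_padicEmbedding_eq (x : PadicAlgCl p) (hx : IsIntegral ℚ x) :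
    ∃ y : Qbar, padicEmbedding p y = x := by
  let _ : Algebra Qbar (PadicAlgCl p) := (padicEmbedding p).toRingHom.toAlgebra
  have : IsScalarTower ℚ Qbar (PadicAlgCl p) :=
    IsScalarTower.of_algebraMap_eq' (Subsingleton.elim _ _)
  have hx' : IsIntegral Qbar x := hx.tower_top
  have hdeg : (minpoly Qbar x).degree = 1 :=
    IsAlgClosed.degree_eq_one_of_irreducible Qbar (minpoly.irreducible hx')
  obtain ⟨y, hy⟩ := minpoly.mem_range_of_degree_eq_one Qbar x hdeg
  exact ⟨y, hy⟩


lemma algebraMap_zploc_padicAlgCl' (x : Zploc) :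
    algebraMap Zploc (PadicAlgCl p) x = algebraMap ℚ (PadicAlgCl p) (x : ℚ) := by
  rw [algebraMap_zploc_padicAlgCl, eq_ratCast, map_ratCast]

instance towerZplocRatPadic : IsScalarTower Zploc ℚ (PadicAlgCl p) :=
  IsScalarTower.of_algebraMap_eq' <| by
    ext x
    rw [algebraMap_zploc_padicAlgCl', RingHom.comp_apply]
    rfl

section Points

variable {H : Type*} [CommRing H] [Bialgebra (GaloisRep.ratLocalizedAt p) H]

lemma postComp_iotaZ_injective :
    Function.Injective (postComp (H := H) (iotaZ p)) := by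
  intro f g hfg
  apply WithConv.ofConv_injective
  ext x
  apply iotaZ_injective p
  have := congrArg (fun F => F.ofConv x) hfg
  simpa using this

lemma postComp_iotaZ_surjective [Algebra.IsIntegral Zploc H] :
    Function.Surjective (postComp (H := H) (iotaZ p)) := by
  intro g
  have hmem : ∀ x : H, g.ofConv x ∈ (iotaZ p).range := by
    intro x
    have h1 : IsIntegral Zploc (g.ofConv x) := (Algebra.IsIntegral.isIntegral x).map g.ofConv
    have h2 : IsIntegral ℚ (g.ofConv x) := h1.tower_top
    obtain ⟨y, hy⟩ := exists_padicEmbedding_eq p _ h2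
    exact ⟨y, hy⟩
  let e := AlgEquiv.ofInjective (iotaZ p) (iotaZ_injective p)
  refine ⟨toConv ((e.symm : (iotaZ p).range →ₐ[Zploc] Qbar).comp
    (g.ofConv.codRestrict (iotaZ p).range hmem)), ?_⟩
  apply WithConv.ofConv_injective
  ext x
  simp only [postComp_apply, AlgHom.coe_comp, Function.comp_apply]
  have := e.apply_symm_apply (g.ofConv.codRestrict (iotaZ p).range hmem x)
  exact congrArg Subtype.val this

/-- `H(Qbar) ≃* H(PadicAlgCl p)` for `H` integral over `ℤ_(p)` (no base change of `H`). -/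
noncomputable def pointsEquivZ [Algebra.IsIntegral (GaloisRep.ratLocalizedAt p) H] :
    WithConv (H →ₐ[GaloisRep.ratLocalizedAt p] Qbar) ≃*
      WithConv (H →ₐ[GaloisRep.ratLocalizedAt p] PadicAlgCl p) :=
  MulEquiv.ofBijective (postComp (H := H) (iotaZ p))
    ⟨postComp_iotaZ_injective p, postComp_iotaZ_surjective p⟩

@[simp] lemma pointsEquivZ_apply [Algebra.IsIntegral (GaloisRep.ratLocalizedAt p) H]
    (f : WithConv (H →ₐ[GaloisRep.ratLocalizedAt p] Qbar)) (x : H) :
    (pointsEquivZ p f).ofConv x = padicEmbedding p (f.ofConv x) := rfl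

lemma padicEmbedding_pointsEquivZ_symm [Algebra.IsIntegral (GaloisRep.ratLocalizedAt p) H]
    (F : WithConv (H →ₐ[GaloisRep.ratLocalizedAt p] PadicAlgCl p)) (x : H) :
    padicEmbedding p (((pointsEquivZ p).symm F).ofConv x) = F.ofConv x := by
  rw [← pointsEquivZ_apply, MulEquiv.apply_symm_apply]

/-- Galois equivariance of `pointsEquivZ`. -/
lemma pointsEquivZ_symm_galois [Algebra.IsIntegral (GaloisRep.ratLocalizedAt p) H]
    (τ : PadicAlgCl p ≃ₐ[ℚ_[p]] PadicAlgCl p)
    (F G : WithConv (H →ₐ[GaloisRep.ratLocalizedAt p] PadicAlgCl p))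
    (hFG : ∀ y, G.ofConv y = τ (F.ofConv y)) (x : H) :
    ((pointsEquivZ p).symm G).ofConv x =
      localGaloisToGlobal p τ (((pointsEquivZ p).symm F).ofConv x) := by
  apply (padicEmbedding p).toRingHom.injective
  change padicEmbedding p _ = padicEmbedding p _
  rw [padicEmbedding_localGaloisToGlobal, padicEmbedding_pointsEquivZ_symm,
    padicEmbedding_pointsEquivZ_symm, hFG]

/-- **Points of the base change.**  For a bialgebra `H` integral over `ℤ_(p)`, the `Qbar`-points
of `H` and the `PadicAlgCl p`-points of `ℤ_p ⊗ H` are the same convolution monoid. -/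
noncomputable def pointsEquiv [Algebra.IsIntegral Zploc H] :
    WithConv (H →ₐ[Zploc] Qbar) ≃* WithConv (ℤ_[p] ⊗[Zploc] H →ₐ[ℤ_[p]] PadicAlgCl p) :=
  (MulEquiv.ofBijective (postComp (H := H) (iotaZ p))
    ⟨postComp_iotaZ_injective p, postComp_iotaZ_surjective p⟩).trans liftConv

lemma pointsEquiv_apply_one_tmul [Algebra.IsIntegral Zploc H]
    (f : WithConv (H →ₐ[Zploc] Qbar)) (x : H) :
    (pointsEquiv p f).ofConv (1 ⊗ₜ x) = padicEmbedding p (f.ofConv x) := by
  simp only [pointsEquiv, liftConv, MulEquiv.trans_apply, MulEquiv.coe_mk, Equiv.coe_fn_mk,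
    ofConv_toConv, AlgHom.liftEquiv_tmul, one_smul]
  rfl

lemma padicEmbedding_pointsEquiv_symm [Algebra.IsIntegral Zploc H]
    (F : WithConv (ℤ_[p] ⊗[Zploc] H →ₐ[ℤ_[p]] PadicAlgCl p)) (x : H) :
    padicEmbedding p (((pointsEquiv p).symm F).ofConv x) = F.ofConv (1 ⊗ₜ x) := by
  rw [← pointsEquiv_apply_one_tmul, MulEquiv.apply_symm_apply]

/-- Galois equivariance of `pointsEquiv`. -/
lemma pointsEquiv_symm_galois [Algebra.IsIntegral Zploc H]
    (τ : PadicAlgCl p ≃ₐ[ℚ_[p]] PadicAlgCl p)
    (F G : WithConv (ℤ_[p] ⊗[Zploc] H →ₐ[ℤ_[p]] PadicAlgCl p))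
    (hFG : ∀ y, G.ofConv y = τ (F.ofConv y)) (x : H) :
    ((pointsEquiv p).symm G).ofConv x =
      localGaloisToGlobal p τ (((pointsEquiv p).symm F).ofConv x) := by
  apply (padicEmbedding p).toRingHom.injective
  change padicEmbedding p _ = padicEmbedding p _
  rw [padicEmbedding_localGaloisToGlobal, padicEmbedding_pointsEquiv_symm,
    padicEmbedding_pointsEquiv_symm, hFG]

end Points


section Main

open GaloisRepAdic

variable {p}
variable {A : Type} [CommRing A] [IsLocalRing A]

/-- **Bridge from the Prelude flatness condition to the local side.**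
If `ρ` is flat at `p` then every finite level `V/IV` is, as a module over the local Galois group
`Gal(PadicAlgCl p / ℚ_p)` (acting through `localGaloisToGlobal p`), the group of
`PadicAlgCl p`-points of a finite free commutative cocommutative Hopf algebra over `ℤ_p`. -/
theorem exists_local_hopf_of_isFlatAt (ρ : GaloisRepAdic A) (hρ : ρ.IsFlatAt p)
    (I : Ideal A) (hI : Finite (A ⧸ I)) :
    ∃ (Hp : Type) (_ : CommRing Hp) (_ : HopfAlgebra ℤ_[p] Hp),
      Module.Finite ℤ_[p] Hp ∧ Module.Free ℤ_[p] Hp ∧ Coalgebra.IsCocomm ℤ_[p] Hp ∧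
      ∃ e : WithConv (Hp →ₐ[ℤ_[p]] PadicAlgCl p) ≃ (ρ.V ⧸ (I • (⊤ : Submodule A ρ.V))),
        (∀ f g : WithConv (Hp →ₐ[ℤ_[p]] PadicAlgCl p), e (f * g) = e f + e g) ∧
        ∀ (τ : PadicAlgCl p ≃ₐ[ℚ_[p]] PadicAlgCl p)
          (f g : WithConv (Hp →ₐ[ℤ_[p]] PadicAlgCl p)),
          (∀ h : Hp, g h = τ (f h)) →
            e g = ρ.levelAction I (localGaloisToGlobal p τ) (e f) := by
  obtain ⟨H, _, _, hfin, hflat, hcocomm, e, hadd, hgal⟩ := hρ.2 I hI
  have : Algebra.IsIntegral (GaloisRep.ratLocalizedAt p) H := inferInstance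
  refine ⟨ℤ_[p] ⊗[GaloisRep.ratLocalizedAt p] H, inferInstance, inferInstance, inferInstance,
    ?_, inferInstance, (pointsEquiv p).symm.toEquiv.trans e, ?_, ?_⟩
  · have : Module.Flat ℤ_[p] (ℤ_[p] ⊗[GaloisRep.ratLocalizedAt p] H) := inferInstance
    exact Module.free_of_flat_of_isLocalRing
  · intro f g
    change e ((pointsEquiv p).symm (f * g)) = e ((pointsEquiv p).symm f) + e ((pointsEquiv p).symm g)
    rw [map_mul, hadd]
  · intro τ f g hfg
    change e ((pointsEquiv p).symm g) = _
    apply hgal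
    intro h
    exact pointsEquiv_symm_galois p τ f g hfg h

/-- **Bridge, version without base change of the Hopf algebra**: the Hopf algebra stays over
`ℤ_(p) = GaloisRep.ratLocalizedAt p`, only the points move from `Qbar` to `PadicAlgCl p`
(`PadicAlgCl p` is a `ℤ_(p)`-algebra through `ℚ_p`) and the Galois group from `Gal(Qbar/ℚ)` to
`Gal(PadicAlgCl p/ℚ_p)`. -/
theorem exists_hopf_padicPoints_of_isFlatAt (ρ : GaloisRepAdic A) (hρ : ρ.IsFlatAt p)
    (I : Ideal A) (hI : Finite (A ⧸ I)) :
    ∃ (H : Type) (_ : CommRing H) (_ : HopfAlgebra (GaloisRep.ratLocalizedAt p) H),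
      Module.Finite (GaloisRep.ratLocalizedAt p) H ∧
      Module.Flat (GaloisRep.ratLocalizedAt p) H ∧
      Coalgebra.IsCocomm (GaloisRep.ratLocalizedAt p) H ∧
      ∃ e : WithConv (H →ₐ[GaloisRep.ratLocalizedAt p] PadicAlgCl p) ≃
          (ρ.V ⧸ (I • (⊤ : Submodule A ρ.V))),
        (∀ f g : WithConv (H →ₐ[GaloisRep.ratLocalizedAt p] PadicAlgCl p),
          e (f * g) = e f + e g) ∧
        ∀ (τ : PadicAlgCl p ≃ₐ[ℚ_[p]] PadicAlgCl p)
          (f g : WithConv (H →ₐ[GaloisRep.ratLocalizedAt p] PadicAlgCl p)),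
          (∀ h : H, g h = τ (f h)) →
            e g = ρ.levelAction I (localGaloisToGlobal p τ) (e f) := by
  obtain ⟨H, _, _, hfin, hflat, hcocomm, e, hadd, hgal⟩ := hρ.2 I hI
  have : Algebra.IsIntegral (GaloisRep.ratLocalizedAt p) H := inferInstance
  refine ⟨H, inferInstance, inferInstance, hfin, hflat, hcocomm,
    (pointsEquivZ p).symm.toEquiv.trans e, ?_, ?_⟩
  · intro f g
    change e ((pointsEquivZ p).symm (f * g)) =
      e ((pointsEquivZ p).symm f) + e ((pointsEquivZ p).symm g)
    rw [map_mul, hadd]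
  · intro τ f g hfg
    change e ((pointsEquivZ p).symm g) = _
    apply hgal
    intro h
    exact pointsEquivZ_symm_galois p τ f g hfg h

end Main

end Arith

end Fermat.Agent.S56x.Fontaine.LocalPoints
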