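import Mathlib
import Fermat.Agent.S56x.Fontaine.LocalPoints

/-!
# P-S56, block (A): the field `K(Γ(Kbar))` generated by the points of a finite group scheme

For an `R`-algebra `H` (think: a finite flat Hopf algebra over `R = ℤ_p`), a field `K ⊇ R`
(think `ℚ_p`) and an extension `Ω/K` (think `PadicAlgCl p`):

* `pointsField R K Ω H : IntermediateField K Ω` is generated by all coordinates `f h` of all
  points `f : H →ₐ[R] Ω`; `apply_mem_pointsField`, `isIntegral_apply`;
* `galAct τ f = τ ∘ f`; `mem_fixingSubgroup_pointsField_iff(')`: `τ` fixes the field iff it fixes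
  every point;
* `map_pointsField_le`, `normal_pointsField`, `finiteDimensional_pointsField` (for `H` a finite
  `R`-module), `isGalois_pointsField` (char. 0);
* `forall_act_eq_iff_mem_fixingSubgroup`: if the points are identified equivariantly with a
  `Gal(Ω/K)`-set `X`, the kernel of the action on `X` is the fixing subgroup of the field;
* `exists_local_hopf_pointsField_of_isFlatAt`: the bridge of `LocalPoints` with the extra clause
  "the kernel of the action of `Gal(PadicAlgCl p/ℚ_p)` on `V/IV` is the fixing subgroup of the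
  finite Galois extension `ℚ_p(Γ(PadicAlgCl p))`" — the input shape of Fontaine's Theorem A.
-/

set_option autoImplicit false

open WithConv

namespace Fermat.Agent.S56x.Fontaine.PointsField

section Generic

variable (R K Ω H : Type*) [CommRing R] [Field K] [Field Ω] [Algebra R K] [Algebra K Ω]
  [Algebra R Ω] [IsScalarTower R K Ω] [CommRing H] [Algebra R H]

/-- The set of all coordinates `f h` of all `Ω`-points `f` of `H`. -/
def coordSet : Set Ω := {y | ∃ (f : H →ₐ[R] Ω) (h : H), f h = y}

/-- `K(Γ(Ω))`: the subfield of `Ω` generated over `K` by the coordinates of all points. -/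
def pointsField : IntermediateField K Ω := IntermediateField.adjoin K (coordSet R Ω H)

variable {R Ω H}

omit [Algebra R K] [IsScalarTower R K Ω] in
lemma apply_mem_pointsField (f : H →ₐ[R] Ω) (h : H) : f h ∈ pointsField R K Ω H :=
  IntermediateField.subset_adjoin K _ ⟨f, h, rfl⟩

variable {K}

/-- The Galois action on points. -/
def galAct (τ : Ω ≃ₐ[K] Ω) (f : H →ₐ[R] Ω) : H →ₐ[R] Ω :=
  ((τ.restrictScalars R : Ω ≃ₐ[R] Ω) : Ω →ₐ[R] Ω).comp f

@[simp] lemma galAct_apply (τ : Ω ≃ₐ[K] Ω) (f : H →ₐ[R] Ω) (h : H) :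
    galAct τ f h = τ (f h) := rfl

omit [Algebra R K] [IsScalarTower R K Ω] in
lemma mem_fixingSubgroup_pointsField_iff (τ : Ω ≃ₐ[K] Ω) :
    τ ∈ (pointsField R K Ω H).fixingSubgroup ↔ ∀ (f : H →ₐ[R] Ω) (h : H), τ (f h) = f h := by
  rw [IntermediateField.mem_fixingSubgroup_iff]
  constructor
  · intro hτ f h
    exact hτ _ (apply_mem_pointsField K f h)
  · intro hτ x hx
    induction hx using IntermediateField.adjoin_induction with
    | mem y hy =>
      obtain ⟨f, h, rfl⟩ := hy
      exact hτ f h
    | algebraMap y => exact τ.commutes y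
    | add x y _ _ hx hy => rw [map_add, hx, hy]
    | inv x _ hx => rw [map_inv₀, hx]
    | mul x y _ _ hx hy => rw [map_mul, hx, hy]

lemma mem_fixingSubgroup_pointsField_iff' (τ : Ω ≃ₐ[K] Ω) :
    τ ∈ (pointsField R K Ω H).fixingSubgroup ↔ ∀ f : H →ₐ[R] Ω, galAct τ f = f := by
  rw [mem_fixingSubgroup_pointsField_iff]
  exact forall_congr' fun f => ⟨fun h => AlgHom.ext h, fun h x => congrArg (fun g => g x) h⟩

end Generic


section Finite

variable {R K Ω H : Type*} [CommRing R] [Field K] [Field Ω] [Algebra R K] [Algebra K Ω]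
  [Algebra R Ω] [IsScalarTower R K Ω] [CommRing H] [Algebra R H]

/-- The coordinates of points are integral over `R`. -/
lemma isIntegral_apply [Algebra.IsIntegral R H] (f : H →ₐ[R] Ω) (h : H) : IsIntegral R (f h) :=
  (Algebra.IsIntegral.isIntegral h).map f

/-- The field `K(Γ(Ω))` is Galois-stable. -/
lemma map_pointsField_le (σ : Ω ≃ₐ[K] Ω) :
    (pointsField R K Ω H).map (σ : Ω →ₐ[K] Ω) ≤ pointsField R K Ω H := by
  rw [pointsField, IntermediateField.adjoin_map, IntermediateField.adjoin_le_iff]
  rintro _ ⟨y, ⟨f, h, rfl⟩, rfl⟩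
  exact apply_mem_pointsField K (galAct σ f) h

instance normal_pointsField [Normal K Ω] : Normal K (pointsField R K Ω H) :=
  IntermediateField.normal_iff_forall_map_le'.2 map_pointsField_le

/-- `K(Γ(Ω))` is finite over `K` when `H` is a finite `R`-module. -/
instance finiteDimensional_pointsField [Module.Finite R H] :
    FiniteDimensional K (pointsField R K Ω H) := by
  classical
  obtain ⟨s, hs⟩ := (Module.Finite.fg_top : (⊤ : Submodule R H).FG)
  have hint : ∀ h : H, ∃ P : Polynomial R, P.Monic ∧ Polynomial.aeval h P = 0 := fun h =>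
    Algebra.IsIntegral.isIntegral (R := R) h
  choose P hPm hP using hint
  let T : Set Ω := ⋃ h ∈ s, ((P h).map (algebraMap R Ω)).rootSet Ω
  have hTfin : T.Finite :=
    Set.Finite.biUnion s.finite_toSet fun h _ => Polynomial.rootSet_finite _ _
  have hTint : ∀ x ∈ T, IsIntegral K x := by
    intro x hx
    simp only [T, Set.mem_iUnion] at hx
    obtain ⟨h, _, hx⟩ := hx
    refine ⟨(P h).map (algebraMap R K), (hPm h).map _, ?_⟩
    have := (Polynomial.mem_rootSet.1 hx).2
    rw [Polynomial.aeval_def, Polynomial.eval₂_map, Algebra.algebraMap_self,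
      RingHom.id_comp] at this
    change Polynomial.eval₂ (algebraMap K Ω) x _ = 0
    rw [Polynomial.eval₂_map, ← IsScalarTower.algebraMap_eq R K Ω]
    exact this
  have hmemT : ∀ (f : H →ₐ[R] Ω), ∀ h ∈ s, f h ∈ T := by
    intro f h hh
    simp only [T, Set.mem_iUnion]
    refine ⟨h, hh, Polynomial.mem_rootSet.2 ⟨((hPm h).map _).ne_zero, ?_⟩⟩
    rw [Polynomial.aeval_def, Polynomial.eval₂_map, Algebra.algebraMap_self, RingHom.id_comp,
      ← Polynomial.aeval_def, Polynomial.aeval_algHom_apply, hP, map_zero]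
  have hle : pointsField R K Ω H ≤ IntermediateField.adjoin K T := by
    rw [pointsField, IntermediateField.adjoin_le_iff]
    rintro _ ⟨f, x, rfl⟩
    have hx : x ∈ Submodule.span R (s : Set H) := by rw [hs]; trivial
    induction hx using Submodule.span_induction with
    | mem y hy => exact IntermediateField.subset_adjoin K T (hmemT f y hy)
    | zero => rw [map_zero]; exact zero_mem _
    | add y z _ _ hy hz => rw [map_add]; exact add_mem hy hz
    | smul r y _ hy =>
      rw [map_smul, algebra_compatible_smul K r (f y)]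
      exact (IntermediateField.adjoin K T).smul_mem hy
  have : Finite T := hTfin
  have : FiniteDimensional K (IntermediateField.adjoin K T) :=
    IntermediateField.finiteDimensional_adjoin hTint
  exact FiniteDimensional.of_injective (IntermediateField.inclusion hle).toLinearMap
    (IntermediateField.inclusion hle).injective

instance isGalois_pointsField [CharZero K] [Normal K Ω] : IsGalois K (pointsField R K Ω H) where

end Finite


section Action

variable {R K Ω H : Type*} [CommRing R] [Field K] [Field Ω] [Algebra R K] [Algebra K Ω]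
  [Algebra R Ω] [IsScalarTower R K Ω] [CommRing H] [Bialgebra R H]

/-- If the points of `H` are identified equivariantly with a set `X` carrying an action `act` of
`Gal(Ω/K)`, then the kernel of the action is the fixing subgroup of `K(Γ(Ω))`. -/
theorem forall_act_eq_iff_mem_fixingSubgroup {X : Type*} (e : WithConv (H →ₐ[R] Ω) ≃ X)
    (act : (Ω ≃ₐ[K] Ω) → X → X)
    (hgal : ∀ (τ : Ω ≃ₐ[K] Ω) (f g : WithConv (H →ₐ[R] Ω)),
      (∀ h : H, g.ofConv h = τ (f.ofConv h)) → e g = act τ (e f))
    (τ : Ω ≃ₐ[K] Ω) :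
    (∀ x : X, act τ x = x) ↔ τ ∈ (pointsField R K Ω H).fixingSubgroup := by
  rw [mem_fixingSubgroup_pointsField_iff']
  constructor
  · intro hτ f
    have h1 := hgal τ (toConv f) (toConv (galAct τ f)) (fun h => rfl)
    rw [hτ] at h1
    have h2 := e.injective h1
    exact congrArg WithConv.ofConv h2
  · intro hτ x
    obtain ⟨f, rfl⟩ := e.surjective x
    have h1 := hgal τ f f (fun h => by
      have := congrArg (fun g => g h) (hτ f.ofConv)
      exact this.symm)
    exact h1.symm

end Action


section Bridge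

open Fermat.Agent.S56x.Fontaine.LocalPoints

variable {p : ℕ} [Fact p.Prime] {A : Type} [CommRing A] [IsLocalRing A]

/-- **Bridge with the splitting field.**  If `ρ` is flat at `p`, then `V/IV` is the group of
`PadicAlgCl p`-points of a finite free commutative cocommutative Hopf algebra `Hp` over `ℤ_p`,
equivariantly for `Gal(PadicAlgCl p/ℚ_p)`, and an element `τ` of the local Galois group acts
trivially on `V/IV` iff it fixes the finite Galois extension `ℚ_p(Γ(PadicAlgCl p))` of `ℚ_p`. -/
theorem exists_local_hopf_pointsField_of_isFlatAt (ρ : GaloisRepAdic A) (hρ : ρ.IsFlatAt p)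
    (I : Ideal A) (hI : Finite (A ⧸ I)) :
    ∃ (Hp : Type) (_ : CommRing Hp) (_ : HopfAlgebra ℤ_[p] Hp),
      Module.Finite ℤ_[p] Hp ∧ Module.Free ℤ_[p] Hp ∧ Coalgebra.IsCocomm ℤ_[p] Hp ∧
      ∃ e : WithConv (Hp →ₐ[ℤ_[p]] PadicAlgCl p) ≃ (ρ.V ⧸ (I • (⊤ : Submodule A ρ.V))),
        (∀ f g : WithConv (Hp →ₐ[ℤ_[p]] PadicAlgCl p), e (f * g) = e f + e g) ∧
        (∀ (τ : PadicAlgCl p ≃ₐ[ℚ_[p]] PadicAlgCl p)
          (f g : WithConv (Hp →ₐ[ℤ_[p]] PadicAlgCl p)),
          (∀ h : Hp, g h = τ (f h)) →
            e g = ρ.levelAction I (localGaloisToGlobal p τ) (e f)) ∧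
        ∀ τ : PadicAlgCl p ≃ₐ[ℚ_[p]] PadicAlgCl p,
          (∀ v, ρ.levelAction I (localGaloisToGlobal p τ) v = v) ↔
            τ ∈ (pointsField ℤ_[p] ℚ_[p] (PadicAlgCl p) Hp).fixingSubgroup := by
  obtain ⟨Hp, i1, i2, hfin, hfree, hco, e, hadd, hgal⟩ :=
    exists_local_hopf_of_isFlatAt ρ hρ I hI
  refine ⟨Hp, i1, i2, hfin, hfree, hco, e, hadd, hgal, fun τ => ?_⟩
  exact forall_act_eq_iff_mem_fixingSubgroup e
    (fun τ v => ρ.levelAction I (localGaloisToGlobal p τ) v) hgal τ

end Bridge

end Fermat.Agent.S56x.Fontaine.PointsField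

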