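/-
P-S56, block (A), counting step of (L3): if the (finitely many) `Ω`-points of `H` inject into the
`E`-points, for an intermediate field `E` of `Ω/K`, then every `Ω`-point is `E`-rational, hence
the field `K(Γ(Ω))` generated by the coordinates of all points lies in `E`.
-/
import Mathlib
import Fermat.Agent.S56x.Fontaine.PointsField

set_option autoImplicit false
set_option linter.unusedSectionVars false

namespace Fermat.Agent.S56x.Fontaine.PointsRational

open Fermat.Agent.S56x.Fontaine.PointsField

variable {R K Ω H : Type*} [CommRing R] [Field K] [Field Ω] [Algebra R K] [Algebra K Ω]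
  [Algebra R Ω] [IsScalarTower R K Ω] [CommRing H] [Algebra R H]

/-- An `E`-point, seen as an `Ω`-point. -/
noncomputable def ofSub (E : IntermediateField K Ω) (g : H →ₐ[R] E) : H →ₐ[R] Ω :=
  ((E.val.restrictScalars R : E →ₐ[R] Ω)).comp g

@[simp] lemma ofSub_apply (E : IntermediateField K Ω) (g : H →ₐ[R] E) (h : H) :
    ofSub E g h = (g h : Ω) := rfl

lemma ofSub_injective (E : IntermediateField K Ω) :
    Function.Injective (ofSub (R := R) (H := H) E) := by
  intro g g' hgg'
  apply AlgHom.ext
  intro h
  apply Subtype.ext
  have := congrArg (fun f : H →ₐ[R] Ω => f h) hgg'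
  simpa using this

/-- An `Ω`-point with all coordinates in `E` is an `E`-point. -/
noncomputable def toSub (E : IntermediateField K Ω) (f : H →ₐ[R] Ω) (hf : ∀ h, f h ∈ E) :
    H →ₐ[R] E where
  toFun h := ⟨f h, hf h⟩
  map_one' := Subtype.ext (map_one f)
  map_mul' x y := Subtype.ext (map_mul f x y)
  map_zero' := Subtype.ext (map_zero f)
  map_add' x y := Subtype.ext (map_add f x y)
  commutes' r := Subtype.ext (by
    change f (algebraMap R H r) = ((algebraMap R E r : E) : Ω)
    rw [AlgHom.commutes]
    rfl)

@[simp] lemma ofSub_toSub (E : IntermediateField K Ω) (f : H →ₐ[R] Ω) (hf : ∀ h, f h ∈ E) :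
    ofSub E (toSub E f hf) = f := by
  apply AlgHom.ext
  intro h
  rfl

/-- **Counting step of (L3)**: an injection from the `Ω`-points into the `E`-points forces all
points to be `E`-rational. -/
theorem forall_apply_mem_of_injective (E : IntermediateField K Ω) [Finite (H →ₐ[R] Ω)]
    (φ : (H →ₐ[R] Ω) → (H →ₐ[R] E)) (hφ : Function.Injective φ)
    (f : H →ₐ[R] Ω) (h : H) : f h ∈ E := by
  have hinj : Function.Injective (fun f : H →ₐ[R] Ω => ofSub E (φ f)) :=
    (ofSub_injective E).comp hφ
  obtain ⟨f', hf'⟩ := (Finite.injective_iff_surjective.1 hinj) f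
  have : f h = ((φ f') h : Ω) := by
    rw [← hf']
    rfl
  rw [this]
  exact (φ f' h).2

/-- **(L3), conclusion**: the field generated by all coordinates of all points lies in `E`. -/
theorem pointsField_le_of_injective (E : IntermediateField K Ω) [Finite (H →ₐ[R] Ω)]
    (φ : (H →ₐ[R] Ω) → (H →ₐ[R] E)) (hφ : Function.Injective φ) :
    pointsField R K Ω H ≤ E := by
  unfold pointsField
  rw [IntermediateField.adjoin_le_iff]
  rintro y ⟨f, h, rfl⟩
  exact forall_apply_mem_of_injective E φ hφ f h

/-- **(L3), conclusion in the shape of `PropertyP`**: a `K`-embedding of `K(Γ(Ω))` into `E`. -/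
theorem nonempty_algHom_of_injective (E : IntermediateField K Ω) [Finite (H →ₐ[R] Ω)]
    (φ : (H →ₐ[R] Ω) → (H →ₐ[R] E)) (hφ : Function.Injective φ) :
    Nonempty ((pointsField R K Ω H) →ₐ[K] E) :=
  ⟨IntermediateField.inclusion (pointsField_le_of_injective E φ hφ)⟩

/-- The same with the convolution-monoid wrappers used everywhere else. -/
theorem pointsField_le_of_injective_conv (E : IntermediateField K Ω)
    [Finite (WithConv (H →ₐ[R] Ω))]
    (φ : WithConv (H →ₐ[R] Ω) → WithConv (H →ₐ[R] E)) (hφ : Function.Injective φ) :
    pointsField R K Ω H ≤ E := by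
  have : Finite (H →ₐ[R] Ω) := Finite.of_injective WithConv.toConv WithConv.toConv_injective
  exact pointsField_le_of_injective E (fun f => (φ (WithConv.toConv f)).ofConv)
    (fun f g hfg => WithConv.toConv_injective (hφ (WithConv.ofConv_injective hfg)))

/-- Finiteness of the set of points when `H` is a finite `R`-module and `Ω` is a field. -/
theorem finite_points [Module.Finite R H] : Finite (H →ₐ[R] Ω) := by
  classical
  obtain ⟨s, hs⟩ := (Module.Finite.fg_top : (⊤ : Submodule R H).FG)
  have hint : ∀ x : H, IsIntegral R x := fun x => (Algebra.IsIntegral.of_finite R H).isIntegral x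
  -- a point is determined by its values on the finite generating set `s`, each of which is a
  -- root of a fixed monic polynomial
  let roots : ∀ x : s, Set Ω := fun x => {y | Polynomial.aeval y (minpoly R (x : H)) = 0}
  have hroots_fin : ∀ x : s, (roots x).Finite := by
    intro x
    have hmonic := minpoly.monic (hint (x : H))
    have hne : (minpoly R (x : H)).map (algebraMap R Ω) ≠ 0 :=
      (hmonic.map (algebraMap R Ω)).ne_zero
    refine Set.Finite.subset
      (((minpoly R (x : H)).map (algebraMap R Ω)).roots.toFinset.finite_toSet) ?_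
    intro y hy
    simp only [Finset.mem_coe, Multiset.mem_toFinset]
    rw [Polynomial.mem_roots hne, Polynomial.IsRoot.def, Polynomial.eval_map,
      ← Polynomial.aeval_def]
    exact hy
  have : ∀ x : s, Finite (roots x) := fun x => (hroots_fin x).to_subtype
  let ev : (H →ₐ[R] Ω) → (∀ x : s, roots x) := fun f x =>
    ⟨f x, by
      change Polynomial.aeval (f x) (minpoly R (x : H)) = 0
      rw [Polynomial.aeval_algHom_apply, minpoly.aeval, map_zero]⟩
  refine Finite.of_injective ev ?_
  intro f g hfg
  apply AlgHom.toLinearMap_injective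
  apply LinearMap.ext_on_range (v := fun x : s => (x : H))
  · rw [Subtype.range_coe_subtype]
    simpa using hs
  · intro x
    have := congrArg (fun e => ((e x : roots x) : Ω)) hfg
    simpa [ev] using this

end Fermat.Agent.S56x.Fontaine.PointsRational
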