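/-
P-S56, block (A) LOCAL FLAT, file FONT-1 of blueprint note 1366 (owner: helper17).

(L1), (L2), (UNR-core) of the elementary proof of Fontaine's Theorem A, in ABSTRACT form:
`R` is a commutative ring with an element `ϖ` (think `R = H^D ⊗ O_E`, the Cartier dual Hopf
algebra base changed to the complete discrete valuation ring `O_E`, `ϖ` a uniformizer of `O_E`),
`R₂` a second such ring (think `R ⊗ R`) and `δ : Rˣ →* R₂ˣ` a group homomorphism compatible with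
the levels `1 + ϖ^t R` (think `δ z = Δ z * (z ⊗ z)⁻¹`, so that the group-like units are exactly
`ker δ`).  Everything is deduced from the `p`-th power lemma (PP1), (PP2) of
`Fermat.Agent.S56x.Hopf.PthPower`.
-/
import Mathlib
import Fermat.Agent.S56x.Hopf.PthPower

namespace Fermat.Agent.S56x.Fontaine.Lift

open Fermat.Agent.S56x.Hopf.PthPower

/-! ### Levels: the congruence `x ≡ 1 mod ϖ^a` -/

section Level

variable {R : Type*} [CommRing R] {ϖ : R} {a b : ℕ}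

theorem level_mono (hab : b ≤ a) {x : R} (hx : ϖ ^ a ∣ x) : ϖ ^ b ∣ x :=
  (pow_dvd_pow ϖ hab).trans hx

theorem level_one : ϖ ^ a ∣ (1 : R) - 1 := by simp

theorem level_mul {x y : R} (hx : ϖ ^ a ∣ x - 1) (hy : ϖ ^ a ∣ y - 1) : ϖ ^ a ∣ x * y - 1 := by
  have : x * y - 1 = (x - 1) * y + (y - 1) := by ring
  rw [this]
  exact dvd_add (Dvd.dvd.mul_right hx _) hy

theorem level_pow {x : R} (hx : ϖ ^ a ∣ x - 1) (n : ℕ) : ϖ ^ a ∣ x ^ n - 1 := by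
  induction n with
  | zero => simp
  | succ n ih => rw [pow_succ]; exact level_mul ih hx

theorem level_inv {x : Rˣ} (hx : ϖ ^ a ∣ (x : R) - 1) : ϖ ^ a ∣ ((x⁻¹ : Rˣ) : R) - 1 := by
  have : ((x⁻¹ : Rˣ) : R) - 1 = -(((x : R) - 1) * ((x⁻¹ : Rˣ) : R)) := by
    rw [sub_mul, Units.mul_inv]; ring
  rw [this, dvd_neg]
  exact Dvd.dvd.mul_right hx _

theorem level_units_mul {x y : Rˣ} (hx : ϖ ^ a ∣ (x : R) - 1) (hy : ϖ ^ a ∣ (y : R) - 1) :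
    ϖ ^ a ∣ ((x * y : Rˣ) : R) - 1 := by
  rw [Units.val_mul]; exact level_mul hx hy

theorem level_units_div {x y : Rˣ} (hx : ϖ ^ a ∣ (x : R) - 1) (hy : ϖ ^ a ∣ (y : R) - 1) :
    ϖ ^ a ∣ ((x * y⁻¹ : Rˣ) : R) - 1 :=
  level_units_mul hx (level_inv hy)

/-- ring homomorphisms preserve the levels. -/
theorem level_map {S : Type*} [CommRing S] (f : R →+* S) {x : R} (hx : ϖ ^ a ∣ x - 1) :
    f ϖ ^ a ∣ f x - 1 := by
  have := map_dvd f hx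
  simpa using this

/-- `g ≡ g' mod ϖ^a` for units is `g g'⁻¹ ≡ 1`. -/
theorem level_div_of_sub {g g' : Rˣ} (h : ϖ ^ a ∣ (g : R) - g') :
    ϖ ^ a ∣ ((g * g'⁻¹ : Rˣ) : R) - 1 := by
  have : ((g * g'⁻¹ : Rˣ) : R) - 1 = ((g : R) - g') * ((g'⁻¹ : Rˣ) : R) := by
    rw [Units.val_mul, sub_mul, Units.mul_inv]
  rw [this]
  exact Dvd.dvd.mul_right h _

theorem sub_of_level_div {g g' : Rˣ} (h : ϖ ^ a ∣ ((g * g'⁻¹ : Rˣ) : R) - 1) :
    ϖ ^ a ∣ (g : R) - g' := by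
  have : (g : R) - g' = (((g * g'⁻¹ : Rˣ) : R) - 1) * (g' : R) := by
    rw [Units.val_mul, sub_mul, mul_assoc, Units.inv_mul, mul_one, one_mul]
  rw [this]
  exact Dvd.dvd.mul_right h _

/-- the subgroup `1 + ϖ^a R` of `Rˣ`. -/
def levelSubgroup (ϖ : R) (a : ℕ) : Subgroup Rˣ where
  carrier := {x | ϖ ^ a ∣ (x : R) - 1}
  one_mem' := by simp
  mul_mem' := fun hx hy => level_units_mul hx hy
  inv_mem' := fun hx => level_inv hx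

theorem mem_levelSubgroup {x : Rˣ} : x ∈ levelSubgroup ϖ a ↔ ϖ ^ a ∣ (x : R) - 1 := Iff.rfl

theorem levelSubgroup_anti (hab : b ≤ a) : levelSubgroup ϖ a ≤ levelSubgroup ϖ b :=
  fun _ hx => level_mono hab hx

end Level

/-! ### The homomorphism `δ z = Δ z * (ι₁ z * ι₂ z)⁻¹` -/

section Delta

variable {R R₂ : Type*} [CommRing R] [CommRing R₂]

/-- `δ z = Δ z * (ι₁ z * ι₂ z)⁻¹` as a group homomorphism on units; for `Δ` the comultiplication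
and `ι₁ z = z ⊗ 1`, `ι₂ z = 1 ⊗ z` its kernel is the group of group-like units. -/
def deltaHom (Δ ι₁ ι₂ : R →+* R₂) : Rˣ →* R₂ˣ :=
  Units.map (Δ : R →* R₂) * (Units.map (ι₁ : R →* R₂) * Units.map (ι₂ : R →* R₂))⁻¹

theorem deltaHom_apply (Δ ι₁ ι₂ : R →+* R₂) (z : Rˣ) :
    deltaHom Δ ι₁ ι₂ z =
      Units.map (Δ : R →* R₂) z * (Units.map (ι₁ : R →* R₂) z * Units.map (ι₂ : R →* R₂) z)⁻¹ :=
  rfl

/-- `δ z = 1` iff `Δ z = ι₁ z * ι₂ z` ("`z` is group-like"). -/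
theorem deltaHom_eq_one_iff (Δ ι₁ ι₂ : R →+* R₂) (z : Rˣ) :
    deltaHom Δ ι₁ ι₂ z = 1 ↔ Δ (z : R) = ι₁ z * ι₂ z := by
  rw [deltaHom_apply, mul_inv_eq_one, Units.ext_iff]
  simp

/-- `δ` respects the levels as soon as `Δ`, `ι₁`, `ι₂` send `ϖ` to `ϖ₂`. -/
theorem deltaHom_level {Δ ι₁ ι₂ : R →+* R₂} {ϖ : R} {ϖ₂ : R₂} (hΔ : Δ ϖ = ϖ₂) (h₁ : ι₁ ϖ = ϖ₂)
    (h₂ : ι₂ ϖ = ϖ₂) {a : ℕ} {w : Rˣ} (hw : ϖ ^ a ∣ (w : R) - 1) :
    ϖ₂ ^ a ∣ ((deltaHom Δ ι₁ ι₂ w : R₂ˣ) : R₂) - 1 := by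
  rw [deltaHom_apply]
  refine level_units_div ?_ (level_units_mul ?_ ?_)
  · simpa [hΔ] using level_map Δ hw
  · simpa [h₁] using level_map ι₁ hw
  · simpa [h₂] using level_map ι₂ hw

end Delta

/-! ### Units of a `ϖ`-adically complete ring (elementary form) -/

section Units

variable {R : Type*} [CommRing R] {ϖ : R}

/-- `1 + ϖ R ⊆ Rˣ` in a `ϖ`-adically separated and complete ring (elementary form of the
hypotheses, as in `PthPower.pp2`). -/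
theorem isUnit_one_add_of_dvd_of_complete
    (hsep : ∀ x : R, (∀ n : ℕ, ϖ ^ n ∣ x) → x = 0)
    (hcomp : ∀ f : ℕ → R, (∀ n, ϖ ^ n ∣ f (n + 1) - f n) → ∃ L : R, ∀ n, ϖ ^ n ∣ L - f n)
    {x : R} (hx : ϖ ∣ x) : IsUnit (1 + x) := by
  -- the geometric series `∑ (-x)^k`
  let f : ℕ → R := fun n => ∑ k ∈ Finset.range n, (-x) ^ k
  have hxn : ∀ n : ℕ, ϖ ^ n ∣ (-x) ^ n := fun n => pow_dvd_pow_of_dvd ((dvd_neg).mpr hx) n
  have hf : ∀ n, ϖ ^ n ∣ f (n + 1) - f n := by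
    intro n
    simp only [f, Finset.sum_range_succ, add_sub_cancel_left]
    exact hxn n
  obtain ⟨L, hL⟩ := hcomp f hf
  have hgeom : ∀ n, (1 + x) * f n = 1 - (-x) ^ n := by
    intro n
    have := mul_neg_geom_sum (-x) n
    rw [sub_neg_eq_add] at this
    exact this
  have h1 : (1 + x) * L - 1 = 0 := by
    apply hsep
    intro n
    have : (1 + x) * L - 1 = (1 + x) * (L - f n) - (-x) ^ n := by
      rw [mul_sub, hgeom n]; ring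
    rw [this]
    exact dvd_sub (Dvd.dvd.mul_left (hL n) _) (hxn n)
  exact IsUnit.of_mul_eq_one L (sub_eq_zero.mp h1)

/-- an element whose `p`-th power is `≡ 1 mod ϖ` is a unit. -/
theorem isUnit_of_pow_level
    (hsep : ∀ x : R, (∀ n : ℕ, ϖ ^ n ∣ x) → x = 0)
    (hcomp : ∀ f : ℕ → R, (∀ n, ϖ ^ n ∣ f (n + 1) - f n) → ∃ L : R, ∀ n, ϖ ^ n ∣ L - f n)
    {y : R} {p n : ℕ} (hp : p ≠ 0) (hn : n ≠ 0) (hy : ϖ ^ n ∣ y ^ p - 1) : IsUnit y := by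
  have h1 : ϖ ∣ y ^ p - 1 := (dvd_pow_self ϖ hn).trans hy
  have h2 : IsUnit (1 + (y ^ p - 1)) := isUnit_one_add_of_dvd_of_complete hsep hcomp h1
  rw [add_sub_cancel] at h2
  exact (isUnit_pow_iff hp).mp h2

end Units

/-! ### (L1): injectivity of reduction on `p`-torsion units -/

section L1

variable {R : Type*} [CommRing R] {ϖ : R} {p e t : ℕ} {u : Rˣ}

/-- **(L1)**, general form: two units with the same `p`-th power which are congruent modulo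
`ϖ^t`, `t (p - 1) > e`, are equal. -/
theorem l1_pow_eq (hp : p.Prime) (hreg : ∀ x : R, ϖ * x = 0 → x = 0)
    (hpe : (p : R) = u * ϖ ^ e) (hsep : ∀ x : R, (∀ n : ℕ, ϖ ^ n ∣ x) → x = 0)
    (ht : e < t * (p - 1)) {g g' : Rˣ} (hgg' : g ^ p = g' ^ p)
    (h : ϖ ^ t ∣ (g : R) - g') : g = g' := by
  have h1 := level_div_of_sub h
  set q : Rˣ := g * g'⁻¹ with hq
  have hqp : q ^ p = 1 := by rw [hq, mul_pow, hgg', inv_pow, mul_inv_cancel]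
  have hqp' : (1 + ((q : R) - 1)) ^ p = 1 := by
    rw [add_sub_cancel, ← Units.val_pow_eq_pow_val, hqp, Units.val_one]
  have h0 := pp1 hp hreg hpe hsep ht h1 hqp'
  have hq1 : q = 1 := Units.ext (by rw [Units.val_one]; exact sub_eq_zero.mp h0)
  rw [hq] at hq1
  exact mul_inv_eq_one.mp hq1

/-- **(L1)**: `Γ(O_E) → Γ(O_E / 𝔞^t)` is injective for `t > e/(p-1)`: two `p`-torsion units
congruent modulo `ϖ^t` are equal. -/
theorem l1 (hp : p.Prime) (hreg : ∀ x : R, ϖ * x = 0 → x = 0)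
    (hpe : (p : R) = u * ϖ ^ e) (hsep : ∀ x : R, (∀ n : ℕ, ϖ ^ n ∣ x) → x = 0)
    (ht : e < t * (p - 1)) {g g' : Rˣ} (hg : g ^ p = 1) (hg' : g' ^ p = 1)
    (h : ϖ ^ t ∣ (g : R) - g') : g = g' :=
  l1_pow_eq hp hreg hpe hsep ht (hg.trans hg'.symm) h

/-- **(L1)**, special case `g' = 1`: a `p`-torsion unit `≡ 1 mod ϖ^t` is `1`. -/
theorem l1_one (hp : p.Prime) (hreg : ∀ x : R, ϖ * x = 0 → x = 0)
    (hpe : (p : R) = u * ϖ ^ e) (hsep : ∀ x : R, (∀ n : ℕ, ϖ ^ n ∣ x) → x = 0)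
    (ht : e < t * (p - 1)) {g : Rˣ} (hg : g ^ p = 1)
    (h : ϖ ^ t ∣ (g : R) - 1) : g = 1 :=
  l1 hp hreg hpe hsep ht hg (one_pow p) (by simpa using h)

/-- **(UNR-core)**: `e = 1` (`ϖ = p` up to a unit, the unramified case), `p` odd: a `p`-torsion
unit `≡ 1 mod ϖ` is `1`. -/
theorem unr_core (hp : p.Prime) (hp2 : p ≠ 2) (hreg : ∀ x : R, ϖ * x = 0 → x = 0)
    (hpe : (p : R) = u * ϖ) (hsep : ∀ x : R, (∀ n : ℕ, ϖ ^ n ∣ x) → x = 0)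
    {g : Rˣ} (hg : g ^ p = 1) (h : ϖ ∣ (g : R) - 1) : g = 1 := by
  have hp3 : 3 ≤ p := by
    have := hp.two_le
    omega
  refine l1_one (e := 1) (t := 1) hp hreg (by simpa using hpe) hsep (by omega) hg (by simpa using h)

/-- **(UNR-core)** with `ϖ = p`. -/
theorem unr_core_p (hp : p.Prime) (hp2 : p ≠ 2) (hreg : ∀ x : R, (p : R) * x = 0 → x = 0)
    (hsep : ∀ x : R, (∀ n : ℕ, (p : R) ^ n ∣ x) → x = 0)
    {g : Rˣ} (hg : g ^ p = 1) (h : (p : R) ∣ (g : R) - 1) : g = 1 :=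
  unr_core (u := 1) hp hp2 hreg (by simp) hsep hg h

end L1

/-! ### (L2): lifting -/

section L2

variable {R R₂ : Type*} [CommRing R] [CommRing R₂] {ϖ : R} {ϖ₂ : R₂} {p e t : ℕ}
  {u : Rˣ} {u₂ : R₂ˣ}

/-- **(L2)**, existence: a unit `y` which is "group-like and `p`-torsion modulo `ϖ^(t+e)`"
(in fact only `δ y ≡ 1 mod ϖ₂^t` is used) is congruent modulo `ϖ^t` to a genuine `p`-torsion
element `g` of `ker δ`, for `t (p - 1) > e`. -/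
theorem l2 (hp : p.Prime) (hpe : (p : R) = u * ϖ ^ e)
    (hsep : ∀ x : R, (∀ n : ℕ, ϖ ^ n ∣ x) → x = 0)
    (hcomp : ∀ f : ℕ → R, (∀ n, ϖ ^ n ∣ f (n + 1) - f n) → ∃ L : R, ∀ n, ϖ ^ n ∣ L - f n)
    (hreg₂ : ∀ x : R₂, ϖ₂ * x = 0 → x = 0) (hpe₂ : (p : R₂) = u₂ * ϖ₂ ^ e)
    (hsep₂ : ∀ x : R₂, (∀ n : ℕ, ϖ₂ ^ n ∣ x) → x = 0)
    (δ : Rˣ →* R₂ˣ)
    (hδ : ∀ w : Rˣ, ϖ ^ t ∣ (w : R) - 1 → ϖ₂ ^ t ∣ ((δ w : R₂ˣ) : R₂) - 1)
    (ht : e < t * (p - 1)) {y : Rˣ}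
    (hy : ϖ ^ (t + e) ∣ (y : R) ^ p - 1)
    (hδy : ϖ₂ ^ t ∣ ((δ y : R₂ˣ) : R₂) - 1) :
    ∃ g : Rˣ, δ g = 1 ∧ g ^ p = 1 ∧ ϖ ^ t ∣ (g : R) - y := by
  -- `w = (y^p)^{1/p} ∈ 1 + ϖ^t R`
  obtain ⟨x, hx, hxp⟩ := pp2 hp hpe hsep hcomp ht hy
  rw [add_sub_cancel] at hxp
  have hwu : IsUnit (1 + x) := by
    have : IsUnit ((1 + x) ^ p) := by
      rw [hxp, ← Units.val_pow_eq_pow_val]; exact Units.isUnit _
    exact (isUnit_pow_iff hp.ne_zero).mp this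
  obtain ⟨w, hw⟩ := hwu
  have hwp : w ^ p = y ^ p := Units.ext (by
    rw [Units.val_pow_eq_pow_val, Units.val_pow_eq_pow_val, hw, hxp])
  have hw1 : ϖ ^ t ∣ (w : R) - 1 := by rw [hw, add_sub_cancel_left]; exact hx
  refine ⟨y * w⁻¹, ?_, ?_, ?_⟩
  · -- `δ g ≡ 1 mod ϖ₂^t` and `(δ g)^p = 1`
    have hgp : (δ (y * w⁻¹)) ^ p = 1 := by
      rw [← map_pow, mul_pow, inv_pow, hwp, mul_inv_cancel, map_one]
    have hlev : ϖ₂ ^ t ∣ ((δ (y * w⁻¹) : R₂ˣ) : R₂) - 1 := by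
      rw [map_mul, map_inv]
      exact level_units_div hδy (hδ w hw1)
    exact l1_one hp hreg₂ hpe₂ hsep₂ ht hgp hlev
  · rw [mul_pow, inv_pow, hwp, mul_inv_cancel]
  · have : ((y * w⁻¹ : Rˣ) : R) - y = (y : R) * (((w⁻¹ : Rˣ) : R) - 1) := by
      rw [Units.val_mul]; ring
    rw [this]
    exact Dvd.dvd.mul_left (level_inv hw1) _

/-- **(L2)**, uniqueness (this is (L1)). -/
theorem l2_unique (hp : p.Prime) (hreg : ∀ x : R, ϖ * x = 0 → x = 0)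
    (hpe : (p : R) = u * ϖ ^ e) (hsep : ∀ x : R, (∀ n : ℕ, ϖ ^ n ∣ x) → x = 0)
    (ht : e < t * (p - 1)) {y : R} {g g' : Rˣ} (hg : g ^ p = 1) (hg' : g' ^ p = 1)
    (h : ϖ ^ t ∣ (g : R) - y) (h' : ϖ ^ t ∣ (g' : R) - y) : g = g' := by
  refine l1 hp hreg hpe hsep ht hg hg' ?_
  have : (g : R) - g' = ((g : R) - y) - ((g' : R) - y) := by ring
  rw [this]
  exact dvd_sub h h'

/-- **(L2)**, existence and uniqueness. -/
theorem l2_existsUnique (hp : p.Prime) (hreg : ∀ x : R, ϖ * x = 0 → x = 0)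
    (hpe : (p : R) = u * ϖ ^ e)
    (hsep : ∀ x : R, (∀ n : ℕ, ϖ ^ n ∣ x) → x = 0)
    (hcomp : ∀ f : ℕ → R, (∀ n, ϖ ^ n ∣ f (n + 1) - f n) → ∃ L : R, ∀ n, ϖ ^ n ∣ L - f n)
    (hreg₂ : ∀ x : R₂, ϖ₂ * x = 0 → x = 0) (hpe₂ : (p : R₂) = u₂ * ϖ₂ ^ e)
    (hsep₂ : ∀ x : R₂, (∀ n : ℕ, ϖ₂ ^ n ∣ x) → x = 0)
    (δ : Rˣ →* R₂ˣ)
    (hδ : ∀ w : Rˣ, ϖ ^ t ∣ (w : R) - 1 → ϖ₂ ^ t ∣ ((δ w : R₂ˣ) : R₂) - 1)
    (ht : e < t * (p - 1)) {y : Rˣ}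
    (hy : ϖ ^ (t + e) ∣ (y : R) ^ p - 1)
    (hδy : ϖ₂ ^ t ∣ ((δ y : R₂ˣ) : R₂) - 1) :
    ∃! g : Rˣ, (δ g = 1 ∧ g ^ p = 1) ∧ ϖ ^ t ∣ (g : R) - y := by
  obtain ⟨g, hg1, hg2, hg3⟩ := l2 hp hpe hsep hcomp hreg₂ hpe₂ hsep₂ δ hδ ht hy hδy
  refine ⟨g, ⟨⟨hg1, hg2⟩, hg3⟩, ?_⟩
  rintro g' ⟨⟨-, hg'2⟩, hg'3⟩
  exact l2_unique hp hreg hpe hsep ht hg'2 hg2 hg'3 hg3

/-- congruences multiply: the lifts of (L2) are multiplicative in `y`. -/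
theorem l2_mul_congr {y y' : R} {g g' : Rˣ} (h : ϖ ^ t ∣ (g : R) - y)
    (h' : ϖ ^ t ∣ (g' : R) - y') : ϖ ^ t ∣ ((g * g' : Rˣ) : R) - y * y' := by
  have : ((g * g' : Rˣ) : R) - y * y' = (g : R) * ((g' : R) - y') + ((g : R) - y) * y' := by
    rw [Units.val_mul]; ring
  rw [this]
  exact dvd_add (Dvd.dvd.mul_left h' _) (Dvd.dvd.mul_right h _)

end L2

/-! ### The group `Γ = {g : δ g = 1, g^p = 1}` and the lifting homomorphism -/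

section Gamma

variable {R R₂ : Type*} [CommRing R] [CommRing R₂]

/-- the subgroup of `p`-torsion elements of `ker δ` ("the points of `Γ`"). -/
def gammaSubgroup (δ : Rˣ →* R₂ˣ) (p : ℕ) : Subgroup Rˣ where
  carrier := {g | δ g = 1 ∧ g ^ p = 1}
  one_mem' := by simp
  mul_mem' := by
    rintro g g' ⟨h1, h2⟩ ⟨h1', h2'⟩
    exact ⟨by rw [map_mul, h1, h1', one_mul], by rw [mul_pow, h2, h2', one_mul]⟩
  inv_mem' := by
    rintro g ⟨h1, h2⟩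
    exact ⟨by rw [map_inv, h1, inv_one], by rw [inv_pow, h2, inv_one]⟩

theorem mem_gammaSubgroup {δ : Rˣ →* R₂ˣ} {p : ℕ} {g : Rˣ} :
    g ∈ gammaSubgroup δ p ↔ δ g = 1 ∧ g ^ p = 1 := Iff.rfl

variable {ϖ : R} {ϖ₂ : R₂} {p e t : ℕ} {u : Rˣ} {u₂ : R₂ˣ}

/-- **(L1)+(L2)** packaged: let `A` be a group with a map `y : A → Rˣ` which is a homomorphism
modulo `ϖ^t` and whose values are `p`-torsion modulo `ϖ^(t+e)` and in `ker δ` modulo `ϖ₂^t`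
(think `A = Γ(O_{L'})`, `y P` = any unit lifting `η ∘ P ∈ Γ(O_E/𝔞^(t+e))`).  Then there is a
unique group homomorphism `A →* Γ(O_E)` congruent to `y` modulo `ϖ^t`. -/
theorem exists_lift_hom (hp : p.Prime) (hreg : ∀ x : R, ϖ * x = 0 → x = 0)
    (hpe : (p : R) = u * ϖ ^ e)
    (hsep : ∀ x : R, (∀ n : ℕ, ϖ ^ n ∣ x) → x = 0)
    (hcomp : ∀ f : ℕ → R, (∀ n, ϖ ^ n ∣ f (n + 1) - f n) → ∃ L : R, ∀ n, ϖ ^ n ∣ L - f n)
    (hreg₂ : ∀ x : R₂, ϖ₂ * x = 0 → x = 0) (hpe₂ : (p : R₂) = u₂ * ϖ₂ ^ e)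
    (hsep₂ : ∀ x : R₂, (∀ n : ℕ, ϖ₂ ^ n ∣ x) → x = 0)
    (δ : Rˣ →* R₂ˣ)
    (hδ : ∀ w : Rˣ, ϖ ^ t ∣ (w : R) - 1 → ϖ₂ ^ t ∣ ((δ w : R₂ˣ) : R₂) - 1)
    (ht : e < t * (p - 1)) {A : Type*} [Group A] (y : A → Rˣ)
    (hy_mul : ∀ P Q : A, ϖ ^ t ∣ ((y (P * Q) : Rˣ) : R) - (y P : R) * (y Q : R))
    (hy_pow : ∀ P : A, ϖ ^ (t + e) ∣ ((y P : Rˣ) : R) ^ p - 1)
    (hy_δ : ∀ P : A, ϖ₂ ^ t ∣ ((δ (y P) : R₂ˣ) : R₂) - 1) :
    ∃ φ : A →* gammaSubgroup δ p, ∀ P : A, ϖ ^ t ∣ ((φ P : Rˣ) : R) - (y P : R) := by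
  have hex : ∀ P : A, ∃ g : Rˣ, δ g = 1 ∧ g ^ p = 1 ∧ ϖ ^ t ∣ (g : R) - (y P : R) := fun P =>
    l2 hp hpe hsep hcomp hreg₂ hpe₂ hsep₂ δ hδ ht (hy_pow P) (hy_δ P)
  choose g hg1 hg2 hg3 using hex
  have hmul : ∀ P Q : A, g (P * Q) = g P * g Q := by
    intro P Q
    refine l2_unique hp hreg hpe hsep ht (y := (y (P * Q) : R)) (hg2 _) ?_ (hg3 _) ?_
    · rw [mul_pow, hg2, hg2, one_mul]
    · have h1 := l2_mul_congr (hg3 P) (hg3 Q)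
      have : ((g P * g Q : Rˣ) : R) - (y (P * Q) : R) =
          (((g P * g Q : Rˣ) : R) - (y P : R) * (y Q : R)) -
            (((y (P * Q) : Rˣ) : R) - (y P : R) * (y Q : R)) := by ring
      rw [this]
      exact dvd_sub h1 (hy_mul P Q)
  refine ⟨MonoidHom.mk' (fun P => ⟨g P, hg1 P, hg2 P⟩) (fun P Q => Subtype.ext (hmul P Q)), ?_⟩
  intro P
  exact hg3 P

/-- the lifting homomorphism of `exists_lift_hom` is injective as soon as no non trivial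
`P : A` has `y P ≡ 1 mod ϖ^t`. -/
theorem lift_hom_injective {δ : Rˣ →* R₂ˣ} {A : Type*} [Group A] (y : A → Rˣ)
    (φ : A →* gammaSubgroup δ p) (hφ : ∀ P : A, ϖ ^ t ∣ ((φ P : Rˣ) : R) - (y P : R))
    (hy_inj : ∀ P : A, ϖ ^ t ∣ ((y P : Rˣ) : R) - 1 → P = 1) : Function.Injective φ := by
  rw [injective_iff_map_eq_one]
  intro P hP
  apply hy_inj
  have h := hφ P
  rw [hP] at h
  have : ((y P : Rˣ) : R) - 1 = -((((1 : gammaSubgroup δ p) : Rˣ) : R) - (y P : R)) := by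
    simp
  rw [this, dvd_neg]
  exact h

end Gamma

/-! ### Linear maps with values divisible by `ϖ` (for (UNR) in the convolution algebra) -/

section Divisible

variable {O H B : Type*} [CommRing O] [AddCommGroup H] [Module O H] [CommRing B] [Algebra O B]

/-- a linear map from a free module all of whose values are divisible by `ϖ` is `ϖ` times a linear
map (coordinates: in the convolution algebra `Hom_O(H, B)` this says that the level-one ideal is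
`ϖ Hom_O(H, B)`). -/
theorem exists_eq_smul_of_forall_dvd [Module.Free O H] (ϖ : B) (f : H →ₗ[O] B)
    (hf : ∀ h, ϖ ∣ f h) : ∃ f' : H →ₗ[O] B, ∀ h, f h = ϖ * f' h := by
  let b := Module.Free.chooseBasis O H
  choose c hc using fun i => hf (b i)
  refine ⟨b.constr O c, fun h => ?_⟩
  have key : f = (LinearMap.mulLeft O ϖ) ∘ₗ (b.constr O c) := by
    apply b.ext
    intro i
    simp [hc i]
  rw [key]
  simp

end Divisible

end Fermat.Agent.S56x.Fontaine.Lift
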