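/-
P-S56, block (A) LOCAL FLAT: **(UNR) for quotients** ("Theorem Q", helper73).

`Lift.unr_core` kills a point `g` of a finite flat group scheme `Γ = Spec H` over an unramified
base which is rational over the unramified closure and `≡ 1` modulo the maximal ideal.  For the
connected–étale type argument at `p = 3` (killing the "c-slot" of a flat deformation of a
NON-SPLIT ordinary residual representation) one needs the same statement for a QUOTIENT `T ⧸ T₂`
of the group of points by a Galois-stable subgroup `T₂`, which is not known a priori to be the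
group of points of a finite flat group scheme.  This file proves it directly, in the "Hom style"
of `Hopf/GroupLike.lean`:

* `H'` = the `O`-submodule of `T₂`-translation invariant functions in `H`;
* `H'` is a (one-sided) coideal (`exists_repr_left_mem`), hence the linear maps vanishing on `H'`
  form an ideal `annIdeal` of the convolution ring `CRing O H B`;
* in the quotient ring of `CRing O H B₀` (`B₀` = the "unramified" coefficients) the class of a
  `p`-torsion point which is `B₀`-valued and `≡ 1 mod p` on `H'` is `1` by `Lift.unr_core_p`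
  (`eq_counit_on`);
* traces over `T₂` lie in `H'`, and by Dedekind independence of the points a point which agrees
  with the unit point on `H'` lies in `T₂` (`mem_of_eq_counit_on`).

Main result: `mem_of_unr` (abstract Theorem Q).
-/
import Mathlib
import Fermat.Agent.S56x.Hopf.GroupLike
import Fermat.Agent.S56x.Fontaine.Lift

set_option linter.style.longLine false
set_option linter.unusedSectionVars false
set_option linter.unusedVariables false

noncomputable section

namespace Fermat.Agent.S56x.Fontaine.UnrQuot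

open TensorProduct WithConv Coalgebra
open Fermat.Agent.S56x.Hopf

universe u v w

variable {O : Type u} {H : Type v} {B : Type w}
  [CommRing O] [CommRing H] [HopfAlgebra O H] [Coalgebra.IsCocomm O H]
  [CommRing B] [Algebra O B]

/-- The group of `B`-points of `Spec H`. -/
abbrev Pts (O : Type u) (H : Type v) (B : Type w) [CommRing O] [CommRing H] [HopfAlgebra O H]
    [CommRing B] [Algebra O B] : Type (max v w) := WithConv (H →ₐ[O] B)

/-! ### The submodule of translation invariant functions -/

/-- `invFun T₂`: the functions `h ∈ H` with `(x * t) h = x h` for all points `x` and all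
`t ∈ T₂`. -/
def invFun (T₂ : Submonoid (Pts O H B)) : Submodule O H where
  carrier := {h | ∀ (x : Pts O H B), ∀ t ∈ T₂, (x * t) h = x h}
  add_mem' := by
    intro a b ha hb x t ht
    simp only [map_add, ha x t ht, hb x t ht]
  zero_mem' := by
    intro x t _
    simp
  smul_mem' := by
    intro c a ha x t ht
    simp only [map_smul, ha x t ht]

theorem mem_invFun {T₂ : Submonoid (Pts O H B)} {h : H} :
    h ∈ invFun T₂ ↔ ∀ (x : Pts O H B), ∀ t ∈ T₂, (x * t) h = x h := Iff.rfl


/-! ### Expansion of a tensor along a basis of the right factor -/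

section Expansion

variable {n : ℕ} (b : Module.Basis (Fin n) O H)

/-- the `i`-th left coefficient of `z : H ⊗ H` with respect to the basis `b` of the right
factor. -/
def leftCoeff (i : Fin n) : H ⊗[O] H →ₗ[O] H :=
  (TensorProduct.rid O H).toLinearMap ∘ₗ LinearMap.lTensor H (b.coord i)

@[simp] theorem leftCoeff_tmul (i : Fin n) (x y : H) :
    leftCoeff b i (x ⊗ₜ[O] y) = b.coord i y • x := by
  simp [leftCoeff]

theorem sum_leftCoeff_tmul (z : H ⊗[O] H) : ∑ i, leftCoeff b i z ⊗ₜ[O] b i = z := by
  induction z using TensorProduct.induction_on with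
  | zero => simp
  | tmul x y =>
    simp only [leftCoeff_tmul]
    calc ∑ i, (b.coord i y • x) ⊗ₜ[O] b i = ∑ i, x ⊗ₜ[O] (b.coord i y • b i) := by
          refine Finset.sum_congr rfl fun i _ => ?_
          rw [TensorProduct.smul_tmul]
      _ = x ⊗ₜ[O] ∑ i, b.coord i y • b i := by rw [TensorProduct.tmul_sum]
      _ = x ⊗ₜ[O] y := by
          congr 1
          simp [b.sum_repr y]
  | add z w hz hw =>
    simp only [map_add, TensorProduct.add_tmul, Finset.sum_add_distrib, hz, hw]

/-- the representation of `comul h` along the basis `b`. -/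
def basisRepr (h : H) : Coalgebra.Repr O h (Fin n) where
  index := Finset.univ
  left i := leftCoeff b i (comul h)
  right i := b i
  eq := sum_leftCoeff_tmul b (comul h)

theorem pts_mul_apply (x y : Pts O H B) (h : H) :
    (x * y) h = ∑ i, x (leftCoeff b i (comul h)) * y (b i) := by
  have h1 : (x * y) h = (ptsHom x * ptsHom y) h := by
    rw [← map_mul]; rfl
  rw [h1, (basisRepr b h).convMul_apply]
  rfl

end Expansion

/-! ### `invFun T₂` is a left coideal -/

/-- `H'` is a left coideal: `comul h` has a representation with left legs in `H'`. -/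
def IsLeftCoideal (H' : Submodule O H) : Prop :=
  ∀ h ∈ H', ∃ (n : ℕ) (𝓡 : Coalgebra.Repr O h (Fin n)), ∀ i ∈ 𝓡.index, 𝓡.left i ∈ H'

/-- **coideal property** of the translation invariant functions, from the separation property
(Sep): the evaluation functions of a basis of `H` on the points are `B`-linearly independent. -/
theorem isLeftCoideal_invFun {n : ℕ} (b : Module.Basis (Fin n) O H)
    (hsep : ∀ d : Fin n → B, (∀ y : Pts O H B, ∑ i, d i * y (b i) = 0) → d = 0)
    (T₂ : Submonoid (Pts O H B)) : IsLeftCoideal (invFun T₂) := by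
  intro h hh
  refine ⟨n, basisRepr b h, fun i _ => ?_⟩
  change leftCoeff b i (comul h) ∈ invFun T₂
  intro x t ht
  have key : (fun j => (x * t) (leftCoeff b j (comul h)) - x (leftCoeff b j (comul h))) = 0 := by
    apply hsep
    intro y
    have h1 : ((x * t) * y) h = (x * y) h := by
      have : (x * t) * y = (x * y) * t := by rw [mul_assoc, mul_comm t y, ← mul_assoc]
      rw [this]
      exact hh (x * y) t ht
    rw [pts_mul_apply b, pts_mul_apply b] at h1
    simp only [sub_mul, Finset.sum_sub_distrib, h1, sub_self]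
  have := congrFun key i
  simpa [sub_eq_zero] using this

/-! ### The ideal of linear maps vanishing on a left coideal -/

/-- the linear maps `H → B` vanishing on the left coideal `H'` form an ideal of the convolution
ring. -/
def annIdeal (B : Type w) [CommRing B] [Algebra O B] (H' : Submodule O H)
    (hco : IsLeftCoideal H') : Ideal (CRing O H B) where
  carrier := {f | ∀ h ∈ H', f h = 0}
  add_mem' := by
    intro f g hf hg h hh
    change f h + g h = 0
    rw [hf h hh, hg h hh, add_zero]
  zero_mem' := by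
    intro h _
    rfl
  smul_mem' := by
    intro c f hf h hh
    obtain ⟨n, 𝓡, h𝓡⟩ := hco h hh
    change (c * f) h = 0
    rw [mul_comm, 𝓡.convMul_apply]
    refine Finset.sum_eq_zero fun i hi => ?_
    rw [hf _ (h𝓡 i hi), zero_mul]

theorem mem_annIdeal {H' : Submodule O H} {hco : IsLeftCoideal H'} {f : CRing O H B} :
    f ∈ annIdeal B H' hco ↔ ∀ h ∈ H', f h = 0 := Iff.rfl


/-! ### Division by `p` of a linear map -/

/-- a linear map all of whose values are `p` times an element of `B₀` is `p` times a linear map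
into `B₀` (`p` regular on `B`). -/
theorem exists_linear_div {M : Type*} [AddCommGroup M] [Module O M] (B₀ : Subalgebra O B) (p : ℕ)
    (hreg : ∀ b : B, (p : B) * b = 0 → b = 0) (D : M →ₗ[O] B)
    (hD : ∀ m, ∃ c : B₀, D m = (p : B) * (c : B)) :
    ∃ D' : M →ₗ[O] B₀, ∀ m, D m = (p : B) * (D' m : B) := by
  choose c hc using hD
  have hcancel : ∀ x y : B, (p : B) * x = (p : B) * y → x = y := by
    intro x y hxy
    have : (p : B) * (x - y) = 0 := by rw [mul_sub, hxy, sub_self]
    exact sub_eq_zero.mp (hreg _ this)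
  refine ⟨{ toFun := c, map_add' := ?_, map_smul' := ?_ }, hc⟩
  · intro x y
    apply Subtype.ext
    apply hcancel
    rw [← hc, map_add, hc x, hc y]
    push_cast
    ring
  · intro a x
    apply Subtype.ext
    apply hcancel
    rw [← hc, map_smul, hc x]
    simp only [RingHom.id_apply, Subalgebra.coe_smul]
    rw [mul_smul_comm]

/-! ### (UNR-core) modulo an ideal, in a generic commutative ring -/

section Generic

variable {R : Type*} [CommRing R] (I : Ideal R)

theorem pow_sub_pow_mem {a b : R} (h : a - b ∈ I) (n : ℕ) : a ^ n - b ^ n ∈ I := by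
  obtain ⟨c, hc⟩ := sub_dvd_pow_sub_pow a b n
  rw [hc]
  exact I.mul_mem_right _ h

/-- **(UNR-core) modulo an ideal**: if `p` is regular modulo `I`, `R/I` is `p`-adically separated,
`f ^ p ≡ 1` and `f ≡ 1 + p f₁` modulo `I`, then `f ≡ 1` modulo `I` (`p` odd). -/
theorem sub_one_mem_of_unr {p : ℕ} (hp : p.Prime) (hp2 : p ≠ 2)
    (hreg : ∀ x : R, (p : R) * x ∈ I → x ∈ I)
    (hsep : ∀ x : R, (∀ n : ℕ, ∃ y : R, x - (p : R) ^ n * y ∈ I) → x ∈ I)
    {f f₁ : R} (hfp : f ^ p - 1 ∈ I) (hf1 : f - 1 - (p : R) * f₁ ∈ I) : f - 1 ∈ I := by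
  let G : R ⧸ I := Ideal.Quotient.mk I f
  have hGp : G ^ p = 1 := by
    have : Ideal.Quotient.mk I (f ^ p - 1) = 0 := Ideal.Quotient.eq_zero_iff_mem.mpr hfp
    rw [map_sub, map_pow, map_one, sub_eq_zero] at this
    exact this
  have hGdvd : (p : R ⧸ I) ∣ G - 1 := by
    have : Ideal.Quotient.mk I (f - 1 - (p : R) * f₁) = 0 :=
      Ideal.Quotient.eq_zero_iff_mem.mpr hf1
    rw [map_sub, map_sub, map_one, map_mul, map_natCast, sub_eq_zero] at this
    exact ⟨Ideal.Quotient.mk I f₁, this⟩
  have hregQ : ∀ x : R ⧸ I, (p : R ⧸ I) * x = 0 → x = 0 := by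
    intro x hx
    obtain ⟨y, rfl⟩ := Ideal.Quotient.mk_surjective x
    rw [← map_natCast (Ideal.Quotient.mk I), ← map_mul, Ideal.Quotient.eq_zero_iff_mem] at hx
    exact Ideal.Quotient.eq_zero_iff_mem.mpr (hreg y hx)
  have hsepQ : ∀ x : R ⧸ I, (∀ n : ℕ, (p : R ⧸ I) ^ n ∣ x) → x = 0 := by
    intro x hx
    obtain ⟨y, rfl⟩ := Ideal.Quotient.mk_surjective x
    rw [Ideal.Quotient.eq_zero_iff_mem]
    apply hsep
    intro n
    obtain ⟨z, hz⟩ := hx n
    obtain ⟨w, rfl⟩ := Ideal.Quotient.mk_surjective z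
    rw [← map_natCast (Ideal.Quotient.mk I), ← map_pow, ← map_mul, Ideal.Quotient.eq] at hz
    exact ⟨w, hz⟩
  have hGunit : IsUnit G := IsUnit.of_pow_eq_one hGp hp.ne_zero
  obtain ⟨Gu, hGu⟩ := hGunit
  have hGu1 : Gu = 1 := by
    refine Lift.unr_core_p hp hp2 hregQ hsepQ ?_ ?_
    · apply Units.ext
      rw [Units.val_pow_eq_pow_val, hGu, hGp, Units.val_one]
    · rw [hGu]; exact hGdvd
  have hG1 : G = 1 := by rw [← hGu, hGu1, Units.val_one]
  rw [← Ideal.Quotient.eq_zero_iff_mem, map_sub, map_one]
  exact sub_eq_zero.mpr hG1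

end Generic

/-! ### The core: a `p`-torsion point which is unramified and `≡ 1 mod p` on `H'` is trivial
on `H'` -/

section Core

variable {p : ℕ} (H' : Submodule O H) (B₀ : Subalgebra O B)

theorem mapR_val_apply (f : CRing O H B₀) (h : H) :
    mapR (C := H) B₀.val f h = (f h : B) := rfl

theorem natCast_mul_apply {B' : Type*} [CommRing B'] [Algebra O B'] (n : ℕ) (f : CRing O H B')
    (h : H) : ((n : CRing O H B') * f) h = (n : B') * f h := by
  rw [← nsmul_eq_mul, ← nsmul_eq_mul]
  rfl

/-- **Theorem Q, core.** -/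
theorem eq_counit_on (hco : IsLeftCoideal H') (hp : p.Prime) (hp2 : p ≠ 2)
    (π : H →ₗ[O] H) (hπ : ∀ h, π h ∈ H') (hπid : ∀ h ∈ H', π h = h)
    (hreg : ∀ b : B, (p : B) * b = 0 → b = 0)
    (hsep₀ : ∀ b : B₀, (∀ n : ℕ, ∃ c : B₀, b = (p : B₀) ^ n * c) → b = 0)
    (g : Pts O H B) (hgp : g ^ p = 1)
    (hg₀ : ∀ h ∈ H', g h ∈ B₀)
    (hg₁ : ∀ h ∈ H', ∃ c : B₀, g h - algebraMap O B (counit (R := O) h) = (p : B) * (c : B)) :
    ∀ h ∈ H', g h = algebraMap O B (counit (R := O) h) := by
  classical
  -- the representative `f₀ : H → B₀` of `g` on `H'`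
  let f₀ : CRing O H B₀ := toConv (LinearMap.codRestrict (Subalgebra.toSubmodule B₀)
    (g.ofConv.toLinearMap ∘ₗ π) (fun h => hg₀ _ (hπ h)))
  have hf₀ : ∀ h, ((f₀ h : B₀) : B) = g (π h) := fun h => rfl
  -- `(g - 1) ∘ π = p * f₁`
  obtain ⟨D', hD'⟩ := exists_linear_div (O := O) B₀ p hreg
    ((g.ofConv.toLinearMap - (Algebra.linearMap O B ∘ₗ counit)) ∘ₗ π)
    (fun m => by
      obtain ⟨c, hc⟩ := hg₁ (π m) (hπ m)
      exact ⟨c, by simpa using hc⟩)
  let f₁ : CRing O H B₀ := toConv D'
  have hf₁ : ∀ h, g (π h) - algebraMap O B (counit (R := O) (π h)) = (p : B) * ((f₁ h : B₀) : B) := by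
    intro h
    have := hD' h
    simpa using this
  have hcast : ((p : B₀) : B) = (p : B) := rfl
  -- the two ideals
  let I₀ : Ideal (CRing O H B₀) := annIdeal B₀ H' hco
  let IB : Ideal (CRing O H B) := annIdeal B H' hco
  let j : CRing O H B₀ →+* CRing O H B := mapR (C := H) B₀.val
  have hj_mem : ∀ f : CRing O H B₀, j f ∈ IB → f ∈ I₀ := by
    intro f hf h hh
    apply Subtype.ext
    exact hf h hh
  -- `j f₀ ≡ g` modulo `IB`
  have h1 : j f₀ - ptsHom g ∈ IB := by
    intro h hh
    change (f₀ h : B) - g h = 0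
    rw [hf₀, hπid h hh, sub_self]
  -- `f₀ ^ p ≡ 1` modulo `I₀`
  have h2 : f₀ ^ p - 1 ∈ I₀ := by
    apply hj_mem
    have hg1' : (ptsHom g) ^ p = 1 := by rw [← map_pow, hgp, map_one]
    have e1 : j (f₀ ^ p - 1) = (j f₀) ^ p - (ptsHom g) ^ p := by
      rw [hg1', map_sub, map_pow, map_one]
    rw [e1]
    exact pow_sub_pow_mem IB h1 p
  -- `f₀ - 1 ≡ p * f₁` modulo `I₀`
  have h3 : f₀ - 1 - (p : CRing O H B₀) * f₁ ∈ I₀ := by
    intro h hh
    apply Subtype.ext
    change ((f₀ h - (1 : CRing O H B₀) h - ((p : CRing O H B₀) * f₁) h : B₀) : B) = ((0 : B₀) : B)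
    rw [natCast_mul_apply]
    have := hf₁ h
    rw [hπid h hh] at this
    simp only [CRing.one_apply, Subalgebra.coe_sub, Subalgebra.coe_mul, hf₀, hπid h hh,
      Subalgebra.coe_algebraMap, Subalgebra.coe_zero, hcast]
    rw [this, sub_self]
  have hregI : ∀ x : CRing O H B₀, (p : CRing O H B₀) * x ∈ I₀ → x ∈ I₀ := by
    intro f hx h hh
    have h0 := hx h hh
    rw [natCast_mul_apply] at h0
    apply Subtype.ext
    apply hreg
    have := congrArg (Subtype.val) h0
    simpa using this
  have hsepI : ∀ x : CRing O H B₀,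
      (∀ n : ℕ, ∃ y : CRing O H B₀, x - (p : CRing O H B₀) ^ n * y ∈ I₀) → x ∈ I₀ := by
    intro f hx h hh
    apply hsep₀
    intro n
    obtain ⟨fn, hy⟩ := hx n
    have h0 : f h - (((p : CRing O H B₀)) ^ n * fn) h = 0 := hy h hh
    have e : (((p : CRing O H B₀)) ^ n * fn) h = (p : B₀) ^ n * fn h := by
      rw [← Nat.cast_pow, ← Nat.cast_pow, natCast_mul_apply]
    rw [e, sub_eq_zero] at h0
    exact ⟨fn h, h0⟩
  have h4 : f₀ - 1 ∈ I₀ := sub_one_mem_of_unr I₀ hp hp2 hregI hsepI h2 h3
  intro h hh
  have h5 := h4 h hh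
  have h6 : ((f₀ h - (1 : CRing O H B₀) h : B₀) : B) = 0 := by
    have : (f₀ - 1 : CRing O H B₀) h = 0 := h5
    exact congrArg Subtype.val this
  simp only [CRing.one_apply, Subalgebra.coe_sub, hf₀, hπid h hh, Subalgebra.coe_algebraMap] at h6
  exact sub_eq_zero.mp h6

end Core


/-! ### Separation: a point which is trivial on the invariant functions lies in `T₂` -/

section Separation

variable (T₂ : Submonoid (Pts O H B)) [Fintype T₂]

/-- left translation by an element of `T₂` as a permutation of `T₂`. -/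
def translEquiv (hinv : ∀ t ∈ T₂, ptsInv t ∈ T₂) (t' : T₂) : T₂ ≃ T₂ where
  toFun t := ⟨(t' : Pts O H B) * t, T₂.mul_mem t'.2 t.2⟩
  invFun t := ⟨ptsInv (t' : Pts O H B) * t, T₂.mul_mem (hinv _ t'.2) t.2⟩
  left_inv t := by
    apply Subtype.ext
    change ptsInv (t' : Pts O H B) * ((t' : Pts O H B) * t) = t
    rw [← mul_assoc, ptsInv_mul_cancel, one_mul]
  right_inv t := by
    apply Subtype.ext
    change (t' : Pts O H B) * (ptsInv (t' : Pts O H B) * t) = t
    rw [← mul_assoc, mul_ptsInv_cancel, one_mul]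

/-- a "trace over `T₂`" is translation invariant. -/
theorem trace_mem_invFun (hinv : ∀ t ∈ T₂, ptsInv t ∈ T₂) {h c : H}
    (hc : ∀ x : Pts O H B, x c = ∑ t : T₂, (x * (t : Pts O H B)) h) : c ∈ invFun T₂ := by
  intro x t' ht'
  rw [hc (x * t'), hc x]
  have := Equiv.sum_comp (translEquiv T₂ hinv ⟨t', ht'⟩) (fun t : T₂ => (x * (t : Pts O H B)) h)
  rw [← this]
  refine Finset.sum_congr rfl fun t _ => ?_
  change (x * t' * (t : Pts O H B)) h = (x * (t' * (t : Pts O H B))) h
  rw [mul_assoc]

/-- **Separation.** If traces over `T₂` exist in `H` (Galois descent in the applications), a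
point which agrees with the unit point on the translation invariant functions lies in `T₂`
(Dedekind independence of the points). -/
theorem mem_of_eq_counit_on [IsDomain B] (hinv : ∀ t ∈ T₂, ptsInv t ∈ T₂)
    (htr : ∀ h : H, ∃ c : H, ∀ x : Pts O H B, x c = ∑ t : T₂, (x * (t : Pts O H B)) h)
    (g : Pts O H B) (hg : ∀ h ∈ invFun T₂, g h = algebraMap O B (counit (R := O) h)) :
    g ∈ T₂ := by
  classical
  by_contra hgT
  -- the key identity
  have key : ∀ h : H, ∑ t : T₂, (g * (t : Pts O H B)) h = ∑ t : T₂, (t : Pts O H B) h := by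
    intro h
    obtain ⟨c, hc⟩ := htr h
    have hcm := trace_mem_invFun T₂ hinv hc
    have h1 := hc g
    have h2 := hc 1
    rw [hg c hcm] at h1
    have h3 : (1 : Pts O H B) c = algebraMap O B (counit (R := O) c) := rfl
    rw [h3] at h2
    rw [← h1, h2]
    refine Finset.sum_congr rfl fun t _ => ?_
    rw [one_mul]
  -- the family of `2 |T₂|` distinct points
  let w : T₂ ⊕ T₂ → (H →ₐ[O] B) :=
    Sum.elim (fun t => (g * (t : Pts O H B)).ofConv) (fun t => (t : Pts O H B).ofConv)
  have hw : Function.Injective w := by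
    rintro (t | t) (t' | t') htt'
    · have e : g * (t : Pts O H B) = g * (t' : Pts O H B) := WithConv.ext htt'
      have e2 : (t : Pts O H B) = t' := by
        have := congrArg (fun z => ptsInv g * z) e
        simpa [← mul_assoc, ptsInv_mul_cancel] using this
      rw [Subtype.ext e2]
    · exfalso
      have e : g * (t : Pts O H B) = (t' : Pts O H B) := WithConv.ext htt'
      apply hgT
      have e2 : g = (t' : Pts O H B) * ptsInv (t : Pts O H B) := by
        rw [← e, mul_assoc, mul_ptsInv_cancel, mul_one]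
      rw [e2]
      exact T₂.mul_mem t'.2 (hinv _ t.2)
    · exfalso
      have e : (t : Pts O H B) = g * (t' : Pts O H B) := WithConv.ext htt'
      apply hgT
      have e2 : g = (t : Pts O H B) * ptsInv (t' : Pts O H B) := by
        rw [e, mul_assoc, mul_ptsInv_cancel, mul_one]
      rw [e2]
      exact T₂.mul_mem t.2 (hinv _ t'.2)
    · have e : (t : Pts O H B) = t' := WithConv.ext htt'
      rw [Subtype.ext e]
  have hli := (linearIndependent_toLinearMap O H B).comp w hw
  have hsum : ∑ i : T₂ ⊕ T₂, (Sum.elim (fun _ => (1 : B)) (fun _ => (-1 : B)) i) •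
      ((AlgHom.toLinearMap ∘ w) i) = 0 := by
    apply LinearMap.ext
    intro h
    rw [Fintype.sum_sum_type]
    simp only [Sum.elim_inl, Sum.elim_inr, one_smul, Function.comp_apply, w,
      LinearMap.add_apply, LinearMap.sum_apply, AlgHom.toLinearMap_apply, LinearMap.zero_apply,
      LinearMap.smul_apply, smul_eq_mul, neg_one_mul, Finset.sum_neg_distrib]
    rw [add_neg_eq_zero]
    exact key h
  have := Fintype.linearIndependent_iff.1 hli _ hsum (Sum.inl ⟨1, T₂.one_mem⟩)
  simp at this

end Separation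


/-! ### A projection onto the invariant functions (base a PID) -/

/-- `invFun T₂` is saturated: `H ⧸ invFun T₂` is torsion free when `B` is a domain containing
`O`. -/
theorem invFun_saturated [IsDomain B] (hinj : Function.Injective (algebraMap O B))
    (T₂ : Submonoid (Pts O H B)) {a : O} (ha : a ≠ 0) {h : H} (hah : a • h ∈ invFun T₂) :
    h ∈ invFun T₂ := by
  intro x t ht
  have h1 := hah x t ht
  rw [map_smul, map_smul, Algebra.smul_def, Algebra.smul_def] at h1
  have ha' : algebraMap O B a ≠ 0 := fun h0 => ha (hinj (by rw [h0, map_zero]))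
  exact mul_left_cancel₀ ha' h1

/-- over a PID, `invFun T₂` is a direct summand of the finite free module `H`: there is a
projection of `H` onto it. -/
theorem exists_proj_invFun [IsDomain O] [IsPrincipalIdealRing O] [Module.Finite O H]
    [IsDomain B] (hinj : Function.Injective (algebraMap O B)) (T₂ : Submonoid (Pts O H B)) :
    ∃ π : H →ₗ[O] H, (∀ h, π h ∈ invFun T₂) ∧ ∀ h ∈ invFun T₂, π h = h := by
  classical
  set H' := invFun T₂ with hH'
  -- the quotient is finite and torsion free, hence free, hence projective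
  have : Module.IsTorsionFree O (H ⧸ H') := by
    refine ⟨fun a ha x y hxy => ?_⟩
    obtain ⟨x, rfl⟩ := Submodule.Quotient.mk_surjective _ x
    obtain ⟨y, rfl⟩ := Submodule.Quotient.mk_surjective _ y
    simp only [← Submodule.Quotient.mk_smul, Submodule.Quotient.eq] at hxy ⊢
    rw [← smul_sub] at hxy
    exact invFun_saturated hinj T₂ ha.ne_zero hxy
  have : Module.Free O (H ⧸ H') := Module.free_of_finite_type_torsion_free'
  obtain ⟨σ, hσ⟩ := Module.projective_lifting_property H'.mkQ LinearMap.id
    (Submodule.mkQ_surjective H')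
  refine ⟨(LinearMap.id : H →ₗ[O] H) - σ ∘ₗ H'.mkQ, fun h => ?_, fun h hh => ?_⟩
  · have h0 : H'.mkQ (((LinearMap.id : H →ₗ[O] H) - σ ∘ₗ H'.mkQ) h) = 0 := by
      have := LinearMap.congr_fun hσ (H'.mkQ h)
      simp only [LinearMap.comp_apply, LinearMap.id_apply] at this
      rw [LinearMap.sub_apply, map_sub, LinearMap.comp_apply, this, LinearMap.id_apply, sub_self]
    rwa [← LinearMap.mem_ker, Submodule.ker_mkQ] at h0
  · have : H'.mkQ h = 0 := by rwa [← LinearMap.mem_ker, Submodule.ker_mkQ]
    simp [this]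

/-! ### Theorem Q -/

/-- **Theorem Q** ((UNR) for quotients), abstract form.  `T₂` a finite group of `B`-points,
`H' = invFun T₂`.  If the `p`-torsion point `g` takes values in the "unramified" coefficients
`B₀` on `H'` and is congruent to the unit point modulo `p B₀` there, then `g ∈ T₂`. -/
theorem mem_of_unr [IsDomain O] [IsPrincipalIdealRing O] [Module.Finite O H] [IsDomain B]
    (hinj : Function.Injective (algebraMap O B)) {p : ℕ} (hp : p.Prime) (hp2 : p ≠ 2)
    {n : ℕ} (b : Module.Basis (Fin n) O H)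
    (hsep : ∀ d : Fin n → B, (∀ y : Pts O H B, ∑ i, d i * y (b i) = 0) → d = 0)
    (T₂ : Submonoid (Pts O H B)) [Fintype T₂] (hinv : ∀ t ∈ T₂, ptsInv t ∈ T₂)
    (htr : ∀ h : H, ∃ c : H, ∀ x : Pts O H B, x c = ∑ t : T₂, (x * (t : Pts O H B)) h)
    (B₀ : Subalgebra O B)
    (hreg : ∀ x : B, (p : B) * x = 0 → x = 0)
    (hsep₀ : ∀ x : B₀, (∀ m : ℕ, ∃ c : B₀, x = (p : B₀) ^ m * c) → x = 0)
    (g : Pts O H B) (hgp : g ^ p = 1)
    (hg₀ : ∀ h ∈ invFun T₂, g h ∈ B₀)
    (hg₁ : ∀ h ∈ invFun T₂,
      ∃ c : B₀, g h - algebraMap O B (counit (R := O) h) = (p : B) * (c : B)) :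
    g ∈ T₂ := by
  obtain ⟨π, hπ, hπid⟩ := exists_proj_invFun hinj T₂
  exact mem_of_eq_counit_on T₂ hinv htr g
    (eq_counit_on (invFun T₂) B₀ (isLeftCoideal_invFun b hsep T₂) hp hp2 π hπ hπid hreg hsep₀ g
      hgp hg₀ hg₁)

end Fermat.Agent.S56x.Fontaine.UnrQuot
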