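/-
P-S56, block (A) LOCAL FLAT: Galois form of Theorem Q (`Fontaine/UnrQuot.lean`) and the discharge
of its two structural hypotheses (helper73).

* `htr_of_sum_mem` : (Tr) — traces over `T₂` descend to `H` — from "`∑_{t ∈ T₂} t h ∈ O` for all
  `h`" (in the applications: `T₂` is Galois stable, the sum is Galois invariant and integral).
* `sep_of_isAlgClosed` : (Sep) for `B = L` an algebraically closed field of characteristic zero
  (Cartier's theorem, `Flat/Cartier.lean`, for the `L`-Hopf algebra `L ⊗ H`);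
  `sep_of_forall_exists_lift` transfers (Sep) to a subring `B` of `L` through which all points
  factor.
* `commutator_sub_one_mem` : for `τ` acting trivially modulo `𝔪`, the point `τ x * x⁻¹` is
  `≡ 1` modulo `𝔪` (pointwise); `congOne` is the submonoid of points `≡ 1 mod 𝔪`.
* `mem_of_unr_galois` : **Theorem Q, Galois form**: `I` a set of automorphisms of `B` acting
  trivially modulo `𝔪`, `B₀` containing the `I`-invariants, `𝔪 ∩ B₀ ⊆ p B₀`; if `g ≡ 1 mod 𝔪`,
  `g ^ p = 1` and `τ g ∈ g T₂` for all `τ ∈ I`, then `g ∈ T₂`.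
-/
import Mathlib
import Fermat.Agent.S56x.Fontaine.UnrQuot
import Fermat.Agent.S56x.Flat.Cartier

set_option linter.style.longLine false
set_option linter.unusedSectionVars false
set_option linter.unusedVariables false

noncomputable section

namespace Fermat.Agent.S56x.Fontaine.UnrQuot

open TensorProduct WithConv Coalgebra
open Fermat.Agent.S56x.Hopf

universe u v w

variable {O : Type u} {H : Type v} {B : Type w}
  [CommRing O] [CommRing H] [HopfAlgebra O H] [Coalgebra.IsCocomm O H]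
  [CommRing B] [Algebra O B]

/-! ### (Tr) from rationality of the sums over `T₂` -/

/-- **(Tr)**: if `∑_{t ∈ T₂} t h` lies in (the image of) `O` for every `h`, the traces over `T₂`
descend to `H`. -/
theorem htr_of_sum_mem {n : ℕ} (b : Module.Basis (Fin n) O H) (T₂ : Submonoid (Pts O H B))
    [Fintype T₂]
    (hsum : ∀ h : H, ∃ a : O, ∑ t : T₂, (t : Pts O H B) h = algebraMap O B a) :
    ∀ h : H, ∃ c : H, ∀ x : Pts O H B, x c = ∑ t : T₂, (x * (t : Pts O H B)) h := by
  choose a ha using hsum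
  intro h
  refine ⟨∑ i, a (b i) • leftCoeff b i (comul h), fun x => ?_⟩
  simp only [map_sum, map_smul]
  calc ∑ i, a (b i) • x (leftCoeff b i (comul h))
      = ∑ i, x (leftCoeff b i (comul h)) * ∑ t : T₂, (t : Pts O H B) (b i) := by
        refine Finset.sum_congr rfl fun i _ => ?_
        rw [ha, Algebra.smul_def, mul_comm]
    _ = ∑ t : T₂, ∑ i, x (leftCoeff b i (comul h)) * (t : Pts O H B) (b i) := by
        simp only [Finset.mul_sum]
        rw [Finset.sum_comm]
    _ = ∑ t : T₂, (x * (t : Pts O H B)) h := by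
        refine Finset.sum_congr rfl fun t _ => ?_
        rw [pts_mul_apply b]


/-! ### (Sep) from Cartier's theorem -/

/-- **(Sep)** for points with values in an algebraically closed field `L` of characteristic zero:
the evaluation functions of a basis of `H` are `L`-linearly independent. -/
theorem sep_of_isAlgClosed {L : Type*} [Field L] [CharZero L] [IsAlgClosed L] [Algebra O L]
    [Module.Finite O H] {n : ℕ} (b : Module.Basis (Fin n) O H) :
    ∀ d : Fin n → L, (∀ y : Pts O H L, ∑ i, d i * y (b i) = 0) → d = 0 := by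
  intro d hd
  let bL : Module.Basis (Fin n) L (L ⊗[O] H) := Algebra.TensorProduct.basis L b
  have hu : ∑ i, d i • bL i = 0 := by
    refine Flat.Cartier.eq_of_forall_point_eq L (L ⊗[O] H) L (fun f => ?_)
    let y : H →ₐ[O] L :=
      (f.restrictScalars O).comp (Algebra.TensorProduct.includeRight : H →ₐ[O] L ⊗[O] H)
    have hy : ∀ i, f (bL i) = y (b i) := by
      intro i
      simp [bL, y, Algebra.TensorProduct.basis_apply]
    rw [map_sum, map_zero]
    have := hd (toConv y)
    simpa [map_smul, hy, smul_eq_mul] using this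
  funext i
  exact Fintype.linearIndependent_iff.1 bL.linearIndependent d hu i

/-- transfer of **(Sep)** to a ring `B` embedded in `L` through which all `L`-points factor. -/
theorem sep_of_forall_exists_lift {L : Type*} [CommRing L] [Algebra O L] (ι : B →ₐ[O] L)
    (hι : Function.Injective ι) {n : ℕ} (b : Module.Basis (Fin n) O H)
    (hL : ∀ d : Fin n → L, (∀ y : Pts O H L, ∑ i, d i * y (b i) = 0) → d = 0)
    (hlift : ∀ y : Pts O H L, ∃ y' : Pts O H B, ∀ h, ι (y' h) = y h) :
    ∀ d : Fin n → B, (∀ y : Pts O H B, ∑ i, d i * y (b i) = 0) → d = 0 := by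
  intro d hd
  have h1 : (fun i => ι (d i)) = 0 := by
    apply hL
    intro y
    obtain ⟨y', hy'⟩ := hlift y
    have := congrArg ι (hd y')
    simpa [map_sum, map_mul, hy'] using this
  funext i
  apply hι
  have := congrFun h1 i
  simpa using this


/-! ### Points congruent to `1` modulo an ideal -/

/-- the points which are `≡ 1` modulo the ideal `𝔪` of `B` (pointwise). -/
def congOne (𝔪 : Ideal B) : Submonoid (Pts O H B) where
  carrier := {g | ptsHom g - 1 ∈ levelIdeal (O := O) (C := H) 𝔪}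
  one_mem' := by
    change ptsHom (1 : Pts O H B) - 1 ∈ levelIdeal (O := O) (C := H) 𝔪
    rw [map_one, sub_self]
    exact Ideal.zero_mem _
  mul_mem' := by
    intro g g' hg hg'
    change ptsHom (g * g') - 1 ∈ levelIdeal (O := O) (C := H) 𝔪
    have : ptsHom (g * g') - 1 = (ptsHom g - 1) * ptsHom g' + (ptsHom g' - 1) := by
      rw [map_mul]; ring
    rw [this]
    exact Ideal.add_mem _ (Ideal.mul_mem_right _ _ hg) hg'

theorem mem_congOne {𝔪 : Ideal B} {g : Pts O H B} :
    g ∈ congOne (O := O) (H := H) 𝔪 ↔ ∀ h, g h - algebraMap O B (counit (R := O) h) ∈ 𝔪 := by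
  change ptsHom g - 1 ∈ levelIdeal (O := O) (C := H) 𝔪 ↔ _
  rw [mem_levelIdeal]
  rfl

/-- for an endomorphism `τ` of `B` acting trivially modulo `𝔪`, the point `τ x * x⁻¹` is `≡ 1`
modulo `𝔪`. -/
theorem commutator_mem_congOne {𝔪 : Ideal B} (τ : B →ₐ[O] B) (hτ : ∀ y : B, τ y - y ∈ 𝔪)
    (x : Pts O H B) : mapPts τ x * ptsInv x ∈ congOne (O := O) (H := H) 𝔪 := by
  change ptsHom (mapPts τ x * ptsInv x) - 1 ∈ levelIdeal (O := O) (C := H) 𝔪
  have h1 : ptsHom (mapPts τ x) - ptsHom x ∈ levelIdeal (O := O) (C := H) 𝔪 := by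
    rw [mem_levelIdeal]
    intro c
    exact hτ (x c)
  have h2 : ptsHom (mapPts τ x * ptsInv x) - 1
      = (ptsHom (mapPts τ x) - ptsHom x) * ptsHom (ptsInv x) := by
    rw [map_mul, sub_mul, ptsHom_mul_ptsInv]
  rw [h2]
  exact Ideal.mul_mem_right _ _ h1

/-! ### Theorem Q, Galois form -/

/-- **Theorem Q, Galois form.**  `I` a set of `O`-algebra endomorphisms of `B` ("inertia"),
acting trivially modulo the ideal `𝔪`; `B₀` a subalgebra containing all `I`-invariant elements,
with `𝔪 ∩ B₀ ⊆ p B₀` ("the inertia field is unramified") and `p`-adically separated.  If the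
`p`-torsion point `g` is `≡ 1` modulo `𝔪` and `τ g ∈ g T₂` for every `τ ∈ I`, then `g ∈ T₂`. -/
theorem mem_of_unr_galois [IsDomain O] [IsPrincipalIdealRing O] [Module.Finite O H] [IsDomain B]
    (hinj : Function.Injective (algebraMap O B)) {p : ℕ} (hp : p.Prime) (hp2 : p ≠ 2)
    {n : ℕ} (b : Module.Basis (Fin n) O H)
    (hsep : ∀ d : Fin n → B, (∀ y : Pts O H B, ∑ i, d i * y (b i) = 0) → d = 0)
    (T₂ : Submonoid (Pts O H B)) [Fintype T₂] (hinv : ∀ t ∈ T₂, ptsInv t ∈ T₂)
    (hsum : ∀ h : H, ∃ a : O, ∑ t : T₂, (t : Pts O H B) h = algebraMap O B a)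
    (I : Set (B →ₐ[O] B)) (𝔪 : Ideal B)
    (B₀ : Subalgebra O B) (hfix : ∀ y : B, (∀ τ ∈ I, τ y = y) → y ∈ B₀)
    (hunr : ∀ y : B₀, (y : B) ∈ 𝔪 → ∃ c : B₀, (y : B) = (p : B) * (c : B))
    (hreg : ∀ x : B, (p : B) * x = 0 → x = 0)
    (hsep₀ : ∀ x : B₀, (∀ m : ℕ, ∃ c : B₀, x = (p : B₀) ^ m * c) → x = 0)
    (g : Pts O H B) (hgp : g ^ p = 1) (hgm : g ∈ congOne (O := O) (H := H) 𝔪)
    (hginv : ∀ τ ∈ I, ∃ t ∈ T₂, mapPts τ g = g * t) : g ∈ T₂ := by
  have hg₀ : ∀ h ∈ invFun T₂, g h ∈ B₀ := by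
    intro h hh
    apply hfix
    intro τ hτ
    obtain ⟨t, ht, hgt⟩ := hginv τ hτ
    have h1 : τ (g h) = (mapPts τ g) h := rfl
    rw [h1, hgt]
    exact hh g t ht
  refine mem_of_unr hinj hp hp2 b hsep T₂ hinv (htr_of_sum_mem b T₂ hsum) B₀ hreg hsep₀ g hgp hg₀
    (fun h hh => ?_)
  have h1 : g h - algebraMap O B (counit (R := O) h) ∈ 𝔪 := mem_congOne.mp hgm h
  have h2 : g h - algebraMap O B (counit (R := O) h) ∈ B₀ :=
    B₀.sub_mem (hg₀ h hh) (B₀.algebraMap_mem _)
  exact hunr ⟨_, h2⟩ h1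


/-! ### The version with `B₀` = the subalgebra of `I`-invariants -/

/-- the subalgebra of elements fixed by all `τ ∈ I`. -/
def fixedSubalgebra (I : Set (B →ₐ[O] B)) : Subalgebra O B where
  carrier := {y | ∀ τ ∈ I, τ y = y}
  mul_mem' := by
    intro a b ha hb τ hτ
    rw [map_mul, ha τ hτ, hb τ hτ]
  one_mem' := fun τ _ => map_one τ
  add_mem' := by
    intro a b ha hb τ hτ
    rw [map_add, ha τ hτ, hb τ hτ]
  zero_mem' := fun τ _ => map_zero τ
  algebraMap_mem' := fun r τ _ => τ.commutes r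

theorem mem_fixedSubalgebra {I : Set (B →ₐ[O] B)} {y : B} :
    y ∈ fixedSubalgebra I ↔ ∀ τ ∈ I, τ y = y := Iff.rfl

/-- **Theorem Q, Galois form**, with `B₀` the invariants of `I`: the hypotheses are
`hunr : I`-invariant elements of `𝔪` are divisible by `p` in `B`, and `B` is `p`-adically
separated and `p`-torsion free. -/
theorem mem_of_unr_fixed [IsDomain O] [IsPrincipalIdealRing O] [Module.Finite O H] [IsDomain B]
    (hinj : Function.Injective (algebraMap O B)) {p : ℕ} (hp : p.Prime) (hp2 : p ≠ 2)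
    {n : ℕ} (b : Module.Basis (Fin n) O H)
    (hsep : ∀ d : Fin n → B, (∀ y : Pts O H B, ∑ i, d i * y (b i) = 0) → d = 0)
    (T₂ : Submonoid (Pts O H B)) [Fintype T₂] (hinv : ∀ t ∈ T₂, ptsInv t ∈ T₂)
    (hsum : ∀ h : H, ∃ a : O, ∑ t : T₂, (t : Pts O H B) h = algebraMap O B a)
    (I : Set (B →ₐ[O] B)) (𝔪 : Ideal B)
    (hunr : ∀ y : B, (∀ τ ∈ I, τ y = y) → y ∈ 𝔪 → (p : B) ∣ y)
    (hreg : ∀ x : B, (p : B) * x = 0 → x = 0)
    (hsepB : ∀ x : B, (∀ m : ℕ, (p : B) ^ m ∣ x) → x = 0)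
    (g : Pts O H B) (hgp : g ^ p = 1) (hgm : g ∈ congOne (O := O) (H := H) 𝔪)
    (hginv : ∀ τ ∈ I, ∃ t ∈ T₂, mapPts τ g = g * t) : g ∈ T₂ := by
  have hcancel : ∀ x y : B, (p : B) * x = (p : B) * y → x = y := by
    intro x y hxy
    have : (p : B) * (x - y) = 0 := by rw [mul_sub, hxy, sub_self]
    exact sub_eq_zero.mp (hreg _ this)
  refine mem_of_unr_galois hinj hp hp2 b hsep T₂ hinv hsum I 𝔪 (fixedSubalgebra I)
    (fun y hy => hy) ?_ hreg ?_ g hgp hgm hginv
  · rintro ⟨y, hy⟩ hym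
    obtain ⟨c, hc⟩ := hunr y hy hym
    refine ⟨⟨c, fun τ hτ => ?_⟩, hc⟩
    apply hcancel
    calc (p : B) * τ c = τ ((p : B) * c) := by rw [map_mul, map_natCast]
      _ = τ y := by rw [hc]
      _ = y := hy τ hτ
      _ = (p : B) * c := hc
  · rintro ⟨x, hx⟩ hdiv
    apply Subtype.ext
    apply hsepB
    intro m
    obtain ⟨c, hc⟩ := hdiv m
    refine ⟨(c : B), ?_⟩
    have := congrArg Subtype.val hc
    simpa using this

end Fermat.Agent.S56x.Fontaine.UnrQuot
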