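/-
P-S56 block (A), ENTRY BRIDGE (helper30).

From the frozen Prelude shape `GaloisRepAdic.IsFlatAt` (a finite flat cocommutative Hopf algebra
`H` over `ℤ_(p) = GaloisRep.ratLocalizedAt p` whose group of `ℚ̄`-points is `G_ℚ`-equivariantly
identified with `V / I V`) to the purely LOCAL shape used by Fontaine's theorem:
the group of `PadicAlgCl p`-points of `H`, with its `Gal(ℚ̄_p / ℚ_p)`-action, is identified with
`V / I V`, the local Galois group acting through `localGaloisToGlobal p`.

Imports: Mathlib + Prelude only.
-/
import Mathlib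
import Fermat.Prelude.Def_GaloisRep_Flat
import Fermat.Prelude.Def_GaloisRep_CompletionBridge
import Fermat.Agent.S28.Gauss

set_option autoImplicit false

open WithConv

namespace Fermat.Agent.S56x.Fontaine.Entry

/-! ### Push-forward of points along an algebra map -/

section PointsMap

variable {R C A B : Type*} [CommSemiring R] [Semiring C] [Bialgebra R C]
  [CommSemiring A] [Algebra R A] [CommSemiring B] [Algebra R B]

/-- Push-forward of `A`-points to `B`-points along `h : A →ₐ[R] B`, as a monoid homomorphism for
the convolution products. -/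
noncomputable def pointsMap (h : A →ₐ[R] B) :
    WithConv (C →ₐ[R] A) →* WithConv (C →ₐ[R] B) where
  toFun f := toConv (h.comp f.ofConv)
  map_one' := by
    apply WithConv.ofConv_injective
    apply AlgHom.ext
    intro c
    simp [AlgHom.convOne_apply]
  map_mul' f g := by
    apply WithConv.ofConv_injective
    simpa using AlgHom.comp_convMul_distrib h f g

@[simp] theorem pointsMap_apply (h : A →ₐ[R] B) (f : WithConv (C →ₐ[R] A)) (c : C) :
    (pointsMap h f).ofConv c = h (f.ofConv c) := rfl

theorem pointsMap_injective (h : A →ₐ[R] B) (hh : Function.Injective h) :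
    Function.Injective (pointsMap (C := C) h) := by
  intro f g hfg
  apply WithConv.ofConv_injective
  apply AlgHom.ext
  intro c
  apply hh
  have := congrArg (fun k => k.ofConv c) hfg
  simpa using this

end PointsMap

/-! ### Algebraic elements of `PadicAlgCl p` come from `ℚ̄` -/

section Range

variable (p : ℕ) [Fact p.Prime]

/-- Every element of `PadicAlgCl p` which is integral over `ℚ` lies in the image of the fixed
embedding `padicEmbedding p : ℚ̄ → PadicAlgCl p`. -/
theorem mem_range_padicEmbedding_of_isIntegral {y : PadicAlgCl p} (hy : IsIntegral ℚ y) :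
    y ∈ (padicEmbedding p).range := by
  let _ : Algebra (AlgebraicClosure ℚ) (PadicAlgCl p) := (padicEmbedding p).toRingHom.toAlgebra
  have : IsScalarTower ℚ (AlgebraicClosure ℚ) (PadicAlgCl p) :=
    IsScalarTower.of_algebraMap_eq' (Subsingleton.elim _ _)
  have hy' : IsIntegral (AlgebraicClosure ℚ) y := hy.tower_top
  have hdeg : (minpoly (AlgebraicClosure ℚ) y).degree = 1 :=
    IsAlgClosed.degree_eq_one_of_irreducible _ (minpoly.irreducible hy')
  obtain ⟨x, hx⟩ := minpoly.mem_range_of_degree_eq_one (AlgebraicClosure ℚ) y hdeg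
  exact ⟨x, hx⟩

end Range

/-! ### Global points versus local points -/

section Bridge

variable (p : ℕ) [Fact p.Prime]

/-- The fixed embedding `ℚ̄ → PadicAlgCl p` as a `ℤ_(p)`-algebra homomorphism. -/
noncomputable def padicEmbR :
    AlgebraicClosure ℚ →ₐ[GaloisRep.ratLocalizedAt p] PadicAlgCl p :=
  (padicEmbedding p).restrictScalars _

@[simp] theorem padicEmbR_apply (x : AlgebraicClosure ℚ) :
    padicEmbR p x = padicEmbedding p x := rfl

theorem padicEmbR_injective : Function.Injective (padicEmbR p) :=
  (padicEmbedding p).toRingHom.injective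

variable {H : Type} [CommRing H] [Bialgebra (GaloisRep.ratLocalizedAt p) H]

/-- `ℚ̄`-points of `H` to `PadicAlgCl p`-points of `H` (a monoid homomorphism). -/
noncomputable def toLocalPoints :
    WithConv (H →ₐ[GaloisRep.ratLocalizedAt p] AlgebraicClosure ℚ) →*
      WithConv (H →ₐ[GaloisRep.ratLocalizedAt p] PadicAlgCl p) :=
  pointsMap (padicEmbR p)

@[simp] theorem toLocalPoints_apply
    (f : WithConv (H →ₐ[GaloisRep.ratLocalizedAt p] AlgebraicClosure ℚ)) (h : H) :
    (toLocalPoints p f).ofConv h = padicEmbedding p (f.ofConv h) := rfl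

theorem toLocalPoints_injective : Function.Injective (toLocalPoints p (H := H)) :=
  pointsMap_injective _ (padicEmbR_injective p)

theorem toLocalPoints_surjective [Module.Finite (GaloisRep.ratLocalizedAt p) H] :
    Function.Surjective (toLocalPoints p (H := H)) := by
  intro g
  have hint : ∀ h : H, g.ofConv h ∈ (padicEmbR p).range := by
    intro h
    have h1 : IsIntegral (GaloisRep.ratLocalizedAt p) h := Algebra.IsIntegral.isIntegral h
    have h2 : IsIntegral (GaloisRep.ratLocalizedAt p) (g.ofConv h) := h1.map g.ofConv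
    have h3 : IsIntegral ℚ (g.ofConv h) := h2.tower_top
    obtain ⟨x, hx⟩ := mem_range_padicEmbedding_of_isIntegral p h3
    exact ⟨x, hx⟩
  let e := AlgEquiv.ofInjectiveField (padicEmbR p)
  let g' : H →ₐ[GaloisRep.ratLocalizedAt p] (padicEmbR p).range :=
    g.ofConv.codRestrict (padicEmbR p).range hint
  refine ⟨toConv ((e.symm : (padicEmbR p).range →ₐ[GaloisRep.ratLocalizedAt p]
    AlgebraicClosure ℚ).comp g'), ?_⟩
  apply WithConv.ofConv_injective
  apply AlgHom.ext
  intro h
  have : padicEmbR p (e.symm (g' h)) = g.ofConv h := by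
    have h4 : (e (e.symm (g' h)) : PadicAlgCl p) = (g' h : PadicAlgCl p) := by
      rw [AlgEquiv.apply_symm_apply]
    exact h4
  simpa using this

theorem toLocalPoints_bijective [Module.Finite (GaloisRep.ratLocalizedAt p) H] :
    Function.Bijective (toLocalPoints p (H := H)) :=
  ⟨toLocalPoints_injective p, toLocalPoints_surjective p⟩

/-- The multiplicative equivalence between global and local points. -/
noncomputable def localPointsEquiv [Module.Finite (GaloisRep.ratLocalizedAt p) H] :
    WithConv (H →ₐ[GaloisRep.ratLocalizedAt p] AlgebraicClosure ℚ) ≃*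
      WithConv (H →ₐ[GaloisRep.ratLocalizedAt p] PadicAlgCl p) :=
  MulEquiv.ofBijective (toLocalPoints p) (toLocalPoints_bijective p)

theorem localPointsEquiv_apply [Module.Finite (GaloisRep.ratLocalizedAt p) H]
    (f : WithConv (H →ₐ[GaloisRep.ratLocalizedAt p] AlgebraicClosure ℚ)) (h : H) :
    (localPointsEquiv p f).ofConv h = padicEmbedding p (f.ofConv h) := rfl

/-- Galois equivariance: if the local point `g` is `τ ∘ f`, then the corresponding global points
are related by `localGaloisToGlobal p τ`. -/
theorem localPointsEquiv_symm_galois [Module.Finite (GaloisRep.ratLocalizedAt p) H]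
    (τ : PadicAlgCl p ≃ₐ[ℚ_[p]] PadicAlgCl p)
    (f g : WithConv (H →ₐ[GaloisRep.ratLocalizedAt p] PadicAlgCl p))
    (hfg : ∀ h : H, g.ofConv h = τ (f.ofConv h)) (h : H) :
    ((localPointsEquiv p).symm g).ofConv h =
      localGaloisToGlobal p τ (((localPointsEquiv p).symm f).ofConv h) := by
  apply (padicEmbedding p).toRingHom.injective
  show padicEmbedding p _ = padicEmbedding p _
  rw [padicEmbedding_localGaloisToGlobal, ← localPointsEquiv_apply, ← localPointsEquiv_apply,
    MulEquiv.apply_symm_apply, MulEquiv.apply_symm_apply]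
  exact hfg h

end Bridge

/-! ### The export: local form of `IsFlatAt` -/

section Export

variable (p : ℕ) [Fact p.Prime]
variable {A : Type} [CommRing A] [IsLocalRing A]

/-- **Entry bridge.**  If `ρ` is flat at `p` and `I` has finite index, then there is a finite free
commutative cocommutative Hopf algebra `H` over `ℤ_(p)` whose group of `PadicAlgCl p`-points is
identified with `V / I V`, compatibly with the action of `Gal(ℚ̄_p / ℚ_p)` (acting on `V / I V`
through `localGaloisToGlobal p`). -/
theorem exists_local_points (ρ : GaloisRepAdic A) (hflat : ρ.IsFlatAt p) (I : Ideal A)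
    (hI : Finite (A ⧸ I)) :
    ∃ (H : Type) (_ : CommRing H) (_ : HopfAlgebra (GaloisRep.ratLocalizedAt p) H),
      Module.Finite (GaloisRep.ratLocalizedAt p) H ∧
      Module.Free (GaloisRep.ratLocalizedAt p) H ∧
      Coalgebra.IsCocomm (GaloisRep.ratLocalizedAt p) H ∧
      ∃ e : WithConv (H →ₐ[GaloisRep.ratLocalizedAt p] PadicAlgCl p) ≃
          (ρ.V ⧸ (I • (⊤ : Submodule A ρ.V))),
        (∀ f g : WithConv (H →ₐ[GaloisRep.ratLocalizedAt p] PadicAlgCl p),
          e (f * g) = e f + e g) ∧
        ∀ (τ : PadicAlgCl p ≃ₐ[ℚ_[p]] PadicAlgCl p)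
          (f g : WithConv (H →ₐ[GaloisRep.ratLocalizedAt p] PadicAlgCl p)),
          (∀ h : H, g.ofConv h = τ (f.ofConv h)) →
            e g = ρ.levelAction I (localGaloisToGlobal p τ) (e f) := by
  obtain ⟨H, instR, instH, hfin, hflatH, hco, e, hadd, hgal⟩ := hflat.2 I hI
  refine ⟨H, instR, instH, hfin, Module.free_of_flat_of_isLocalRing, hco, ?_⟩
  refine ⟨(localPointsEquiv p).symm.toEquiv.trans e, ?_, ?_⟩
  · intro f g
    show e ((localPointsEquiv p).symm (f * g)) = _
    rw [map_mul]
    exact hadd _ _
  · intro τ f g hfg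
    show e ((localPointsEquiv p).symm g) = _
    exact hgal (localGaloisToGlobal p τ) _ _ (localPointsEquiv_symm_galois p τ f g hfg)

/-! Consequences of the data produced by `exists_local_points`, stated for an arbitrary
additive identification `e` of a convolution monoid of points with an additive group. -/

section Consequences

variable {R C K M : Type*} [CommSemiring R] [Semiring C] [Bialgebra R C]
  [CommSemiring K] [Algebra R K] [AddCommGroup M]
  (e : WithConv (C →ₐ[R] K) ≃ M) (hadd : ∀ f g : WithConv (C →ₐ[R] K), e (f * g) = e f + e g)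

include hadd

theorem map_one_of_additive : e 1 = 0 := by
  have h := hadd 1 1
  rw [mul_one] at h
  exact left_eq_add.mp h

theorem map_pow_of_additive (f : WithConv (C →ₐ[R] K)) (n : ℕ) : e (f ^ n) = n • e f := by
  induction n with
  | zero => rw [pow_zero, zero_smul]; exact map_one_of_additive e hadd
  | succ n ih => rw [pow_succ, hadd, ih, succ_nsmul]

/-- If the target is killed by `n`, every point is `n`-torsion. -/
theorem pow_eq_one_of_additive (n : ℕ) (hn : ∀ m : M, n • m = 0) (f : WithConv (C →ₐ[R] K)) :
    f ^ n = 1 := by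
  apply e.injective
  rw [map_pow_of_additive e hadd, hn, map_one_of_additive e hadd]

end Consequences

/-- If `τ` fixes the values of all local points, it acts trivially on `V / I V`. -/
theorem levelAction_eq_self_of_fixes_points {H : Type} [CommRing H]
    [Bialgebra (GaloisRep.ratLocalizedAt p) H] (ρ : GaloisRepAdic A) (I : Ideal A)
    (e : WithConv (H →ₐ[GaloisRep.ratLocalizedAt p] PadicAlgCl p) ≃
      (ρ.V ⧸ (I • (⊤ : Submodule A ρ.V))))
    (hgal : ∀ (τ : PadicAlgCl p ≃ₐ[ℚ_[p]] PadicAlgCl p)
      (f g : WithConv (H →ₐ[GaloisRep.ratLocalizedAt p] PadicAlgCl p)),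
      (∀ h : H, g.ofConv h = τ (f.ofConv h)) →
        e g = ρ.levelAction I (localGaloisToGlobal p τ) (e f))
    (τ : PadicAlgCl p ≃ₐ[ℚ_[p]] PadicAlgCl p)
    (hτ : ∀ (g : WithConv (H →ₐ[GaloisRep.ratLocalizedAt p] PadicAlgCl p)) (h : H),
      τ (g.ofConv h) = g.ofConv h)
    (v : ρ.V ⧸ (I • (⊤ : Submodule A ρ.V))) :
    ρ.levelAction I (localGaloisToGlobal p τ) v = v := by
  obtain ⟨g, rfl⟩ := e.surjective v
  exact (hgal τ g g fun h => (hτ g h).symm).symm

end Export

end Fermat.Agent.S56x.Fontaine.Entry
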