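/-
P-S56, block (A), injectivity step of (L3) without "η preserves norms".

Setting of `Lib/Ram/PropertyPm`: `K ⊆ Ω` ultrametric normed fields, `L E` intermediate fields,
`η : 𝓞_L → 𝓞_E / a_E(ρ)` an `𝓞_K`-algebra hom.  If `c ∈ 𝓞_K` (think `c = p`) has
`ρ < ‖c‖` and `ρJ ^ n < ‖c‖` (think `n = p - 1`, `ρJ = ‖ϖ_E‖ ^ t` with `e < t (p - 1)`), then
every `x ∈ 𝓞_L` whose image under `η` lies in the image of `a_E(ρJ)` satisfies `‖x‖ ^ n < ‖c‖`.
Proof: otherwise `c = x ^ n * y` with `y ∈ 𝓞_L`, and applying `η` gives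
`c ∈ a_E(ρJ) ^ n + a_E(ρ)`, which has norm `< ‖c‖`.
-/
import Mathlib
import Fermat.Agent.Lib.Ram.PropertyPm

set_option autoImplicit false

open scoped NNReal

namespace Fermat.Agent.S56x.Fontaine.EtaLevel

open Fermat.Agent.Lib.Ram.PropertyPm

variable {K : Type*} [NormedField K] [IsUltrametricDist K]
variable {Ω : Type*} [NormedField Ω] [IsUltrametricDist Ω] [NormedAlgebra K Ω]

/-- **Injectivity step of (L3)**: elements of `𝓞_L` which `η` sends into the level `ρJ` are small. -/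
theorem norm_pow_lt_of_eta_mem (L E : IntermediateField K Ω) {ρ ρJ : ℝ≥0} {c : K} (hc : ‖c‖ ≤ 1)
    {n : ℕ} (hρ : (ρ : ℝ) < ‖c‖) (hρJ : (ρJ : ℝ) ^ n < ‖c‖)
    (η : intE L →ₐ[intK K] (intE E ⧸ idealLE E ρ)) (x : intE L)
    (hx : η x ∈ (idealLE E ρJ).map (Ideal.Quotient.mk (idealLE E ρ))) :
    ‖(x : Ω)‖ ^ n < ‖c‖ := by
  by_contra hcon
  rw [not_lt] at hcon
  have hcpos : 0 < ‖c‖ := lt_of_le_of_lt ρ.2 hρ
  have hxn_pos : 0 < ‖(x : Ω)‖ ^ n := lt_of_lt_of_le hcpos hcon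
  have hxn_ne : ((x : Ω)) ^ n ≠ 0 := by
    intro h0
    rw [← norm_pow, h0, norm_zero] at hxn_pos
    exact lt_irrefl _ hxn_pos
  -- `y = c / x ^ n ∈ 𝓞_L`
  have hyL : algebraMap K Ω c / (x : Ω) ^ n ∈ L :=
    L.div_mem (L.algebraMap_mem c) (pow_mem x.2.1 n)
  have hy1 : ‖algebraMap K Ω c / (x : Ω) ^ n‖ ≤ 1 := by
    rw [norm_div, norm_algebraMap', norm_pow]
    exact (div_le_one hxn_pos).2 hcon
  let y : intE L := ⟨algebraMap K Ω c / (x : Ω) ^ n, hyL, hy1⟩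
  have hcxy : algebraMap (intK K) (intE L) ⟨c, hc⟩ = x ^ n * y := by
    apply Subtype.ext
    change algebraMap K Ω c = (x : Ω) ^ n * (algebraMap K Ω c / (x : Ω) ^ n)
    field_simp
  -- apply `η`
  obtain ⟨j, hj, hjx⟩ := (Ideal.mem_map_iff_of_surjective _ Ideal.Quotient.mk_surjective).1 hx
  obtain ⟨b, hb⟩ := Ideal.Quotient.mk_surjective (η y)
  have h1 : η (algebraMap (intK K) (intE L) ⟨c, hc⟩) =
      Ideal.Quotient.mk (idealLE E ρ) (algebraMap (intK K) (intE E) ⟨c, hc⟩) := by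
    rw [AlgHom.commutes]
    rfl
  have h2 : Ideal.Quotient.mk (idealLE E ρ) (algebraMap (intK K) (intE E) ⟨c, hc⟩) =
      Ideal.Quotient.mk (idealLE E ρ) (j ^ n * b) := by
    rw [← h1, hcxy, map_mul, map_pow, ← hjx, ← hb, map_mul, map_pow]
  rw [Ideal.Quotient.eq, mem_idealLE] at h2
  have hj' : ‖(j : Ω)‖ ≤ ρJ := mem_idealLE.1 hj
  have hjb : ‖((j ^ n * b : intE E) : Ω)‖ < ‖c‖ := by
    have : ((j ^ n * b : intE E) : Ω) = (j : Ω) ^ n * (b : Ω) := rfl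
    rw [this, norm_mul, norm_pow]
    calc ‖(j : Ω)‖ ^ n * ‖(b : Ω)‖ ≤ (ρJ : ℝ) ^ n * 1 :=
          mul_le_mul (pow_le_pow_left₀ (norm_nonneg _) hj' n) b.2.2 (norm_nonneg _)
            (pow_nonneg ρJ.2 n)
      _ = (ρJ : ℝ) ^ n := mul_one _
      _ < ‖c‖ := hρJ
  have hc_eq : algebraMap K Ω c =
      ((algebraMap (intK K) (intE E) ⟨c, hc⟩ - j ^ n * b : intE E) : Ω) +
        ((j ^ n * b : intE E) : Ω) := by
    have : ((algebraMap (intK K) (intE E) ⟨c, hc⟩ - j ^ n * b : intE E) : Ω) =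
        algebraMap K Ω c - ((j ^ n * b : intE E) : Ω) := rfl
    rw [this, sub_add_cancel]
  have hlt : ‖algebraMap K Ω c‖ < ‖c‖ := by
    rw [hc_eq]
    refine lt_of_le_of_lt (IsUltrametricDist.norm_add_le_max _ _) (max_lt ?_ hjb)
    exact lt_of_le_of_lt h2 hρ
  rw [norm_algebraMap'] at hlt
  exact lt_irrefl _ hlt

end Fermat.Agent.S56x.Fontaine.EtaLevel
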