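/-
P-S56, block (A) LOCAL FLAT (owner: helper17).

(L1), (L2), (UNR-core) of blueprint note 1366 for the POINTS `WithConv (H →ₐ[O] B)` of a finite free
commutative cocommutative Hopf algebra `H` over `O` with values in a complete discrete valuation
ring `B` (an `O`-algebra): instantiation of the abstract `Fontaine/Lift.lean` with
`R := CRing O H B`, `R₂ := CRing O (H ⊗ H) B`, `δ := Hopf.delta` (Cartier duality in Hom-style,
`Hopf/GroupLike.lean`) and the hypotheses supplied by `PthPower.hyps_of_dvr`.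
-/
import Mathlib
import Fermat.Agent.S56x.Hopf.PthPower
import Fermat.Agent.S56x.Hopf.GroupLike
import Fermat.Agent.S56x.Fontaine.Lift

namespace Fermat.Agent.S56x.Fontaine.LiftPts

open TensorProduct WithConv Coalgebra IsLocalRing
open Fermat.Agent.S56x.Hopf Fermat.Agent.S56x.Hopf.PthPower Fermat.Agent.S56x.Fontaine.Lift

universe u v w

/-! ### Levels in the convolution ring -/

section Levels

variable {O : Type u} {C : Type v} {B : Type w}
  [CommRing O] [AddCommGroup C] [Module O C] [Coalgebra O C] [Coalgebra.IsCocomm O C]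
  [CommRing B] [Algebra O B]

/-- divisibility by `ϖ^n` in the convolution ring is pointwise (`C` free). -/
theorem pow_dvd_iff [Module.Free O C] (ϖ : B) (n : ℕ) (f : CRing O C B) :
    algebraMap B (CRing O C B) ϖ ^ n ∣ f ↔ ∀ c, ϖ ^ n ∣ f c := by
  rw [← map_pow]
  constructor
  · rintro ⟨g, rfl⟩ c
    rw [← Algebra.smul_def, CRing.smul_apply]
    exact dvd_mul_right _ _
  · intro h
    have hf : f ∈ levelIdeal (O := O) (C := C) (Ideal.span {ϖ ^ n}) :=
      mem_levelIdeal.2 fun c => Ideal.mem_span_singleton.2 (h c)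
    obtain ⟨g, rfl⟩ := mem_levelIdeal_span_singleton.1 hf
    exact ⟨g, by rw [Algebra.smul_def]⟩

/-- divisibility by `ϖ^n` in the convolution ring is membership in the level ideal. -/
theorem pow_dvd_iff_mem_levelIdeal [Module.Free O C] (ϖ : B) (n : ℕ) (f : CRing O C B) :
    algebraMap B (CRing O C B) ϖ ^ n ∣ f ↔
      f ∈ levelIdeal (O := O) (C := C) (Ideal.span {ϖ ^ n}) := by
  rw [pow_dvd_iff, mem_levelIdeal]
  exact forall_congr' fun c => Ideal.mem_span_singleton.symm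

omit [Coalgebra.IsCocomm O C] in
/-- `p = u ϖ^e` transported to the convolution ring. -/
theorem hpe_CRing {p e : ℕ} {ϖ : B} {u : Bˣ} (hpe : (p : B) = u * ϖ ^ e) :
    (p : CRing O C B) =
      (Units.map (algebraMap B (CRing O C B) : B →* CRing O C B) u : (CRing O C B)ˣ) *
        algebraMap B (CRing O C B) ϖ ^ e := by
  have := congrArg (algebraMap B (CRing O C B)) hpe
  simpa using this

end Levels

/-! ### (L1), (L2), (UNR) for points -/

section Points

variable {O : Type u} {H : Type v} {B : Type w}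
  [CommRing O] [CommRing H] [HopfAlgebra O H] [Coalgebra.IsCocomm O H]
  [Module.Free O H] [Module.Finite O H]
  [CommRing B] [IsDomain B] [IsDiscreteValuationRing B] [IsAdicComplete (maximalIdeal B) B]
  [Algebra O B] {p e t : ℕ} {ϖ : B} {u : Bˣ}

/-- **(L1)** for points: two `p`-torsion points over `B` which agree modulo `ϖ^t`, `t (p-1) > e`,
are equal. -/
theorem pts_eq_of_congr (hp : p.Prime) (hϖ : Irreducible ϖ) (hpe : (p : B) = u * ϖ ^ e)
    (ht : e < t * (p - 1)) {g g' : WithConv (H →ₐ[O] B)} (hg : g ^ p = 1) (hg' : g' ^ p = 1)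
    (h : ∀ c, ϖ ^ t ∣ g c - g' c) : g = g' := by
  obtain ⟨hreg, hsep, -⟩ := hyps_of_dvr (R := CRing O H B) hϖ
  apply ptsUnits_injective
  refine l1 hp hreg (hpe_CRing hpe) hsep ht ?_ ?_ ?_
  · rw [← map_pow, hg, map_one]
  · rw [← map_pow, hg', map_one]
  · rw [pow_dvd_iff]
    intro c
    exact h c

/-- **(L1)** for points, special case: a `p`-torsion point which is trivial modulo `ϖ^t` is
trivial. -/
theorem pts_eq_one_of_congr (hp : p.Prime) (hϖ : Irreducible ϖ) (hpe : (p : B) = u * ϖ ^ e)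
    (ht : e < t * (p - 1)) {g : WithConv (H →ₐ[O] B)} (hg : g ^ p = 1)
    (h : ∀ c, ϖ ^ t ∣ g c - algebraMap O B (counit (R := O) c)) : g = 1 :=
  pts_eq_of_congr hp hϖ hpe ht hg (one_pow p) h

/-- **(UNR-core)** for points: `e = 1`, `p` odd; a `p`-torsion point which is trivial modulo `ϖ`
is trivial. -/
theorem pts_eq_one_of_congr_unr (hp : p.Prime) (hp2 : p ≠ 2) (hϖ : Irreducible ϖ)
    (hpe : (p : B) = u * ϖ) {g : WithConv (H →ₐ[O] B)} (hg : g ^ p = 1)
    (h : ∀ c, ϖ ∣ g c - algebraMap O B (counit (R := O) c)) : g = 1 := by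
  have hp3 : 3 ≤ p := by
    have := hp.two_le
    omega
  exact pts_eq_one_of_congr (e := 1) (t := 1) hp hϖ (by simpa using hpe) (by omega) hg
    (by simpa using h)

/-- **(L1)** for points in terms of reduction: `Γ(B) → Γ(B/J)` is injective on `p`-torsion for
`J = (ϖ^t)`, `t (p-1) > e`. -/
theorem mapPts_mk_inj (hp : p.Prime) (hϖ : Irreducible ϖ) (hpe : (p : B) = u * ϖ ^ e)
    (ht : e < t * (p - 1)) (J : Ideal B) (hJ : J = Ideal.span {ϖ ^ t})
    {g g' : WithConv (H →ₐ[O] B)} (hg : g ^ p = 1) (hg' : g' ^ p = 1)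
    (h : mapPts (Ideal.Quotient.mkₐ O J) g = mapPts (Ideal.Quotient.mkₐ O J) g') : g = g' := by
  subst hJ
  refine pts_eq_of_congr hp hϖ hpe ht hg hg' fun c => ?_
  have h1 : Ideal.Quotient.mk (Ideal.span {ϖ ^ t}) (g c) =
      Ideal.Quotient.mk (Ideal.span {ϖ ^ t}) (g' c) := by
    have := congrArg (fun z : WithConv (H →ₐ[O] B ⧸ Ideal.span {ϖ ^ t}) => z c) h
    simpa using this
  rw [Ideal.Quotient.eq, Ideal.mem_span_singleton] at h1
  exact h1

/-- **(L2)** for points, existence: a `p`-torsion point `x` over `B/(ϖ^(t+e))` is congruent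
modulo `ϖ^t` to a `p`-torsion point over `B`, for `t (p-1) > e`. -/
theorem exists_pts_lift (hp : p.Prime) (hϖ : Irreducible ϖ) (hpe : (p : B) = u * ϖ ^ e)
    (ht : e < t * (p - 1)) (I : Ideal B) (hI : I = Ideal.span {ϖ ^ (t + e)})
    (x : WithConv (H →ₐ[O] B ⧸ I)) (hx : x ^ p = 1) :
    ∃ g : WithConv (H →ₐ[O] B), g ^ p = 1 ∧
      ∀ (c : H) (b : B), Ideal.Quotient.mk I b = x c → ϖ ^ t ∣ g c - b := by
  obtain ⟨-, hsep, hcomp⟩ := hyps_of_dvr (R := CRing O H B) hϖ
  obtain ⟨hreg₂, hsep₂, -⟩ := hyps_of_dvr (R := CRing O (H ⊗[O] H) B) hϖ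
  have ht1 : 1 ≤ t := by
    rcases Nat.eq_zero_or_pos t with h | h
    · subst h; simp at ht
    · exact h
  -- `I` lies in the Jacobson radical
  have hIjac : I ≤ Ideal.jacobson ⊥ := by
    rw [IsLocalRing.jacobson_eq_maximalIdeal ⊥ bot_ne_top, hI, Ideal.span_singleton_le_iff_mem]
    have hmem : ϖ ∈ maximalIdeal B := (IsLocalRing.mem_maximalIdeal ϖ).2 hϖ.not_isUnit
    exact Ideal.pow_mem_of_mem _ hmem _ (by omega)
  have hIJ : I ≤ Ideal.span {ϖ ^ t} := by
    rw [hI, Ideal.span_singleton_le_iff_mem, Ideal.mem_span_singleton]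
    exact pow_dvd_pow ϖ (by omega)
  -- a linear lift `y0` of `x`, which is a unit
  obtain ⟨y0, hy0⟩ := mapR_surjective (C := H) (Ideal.Quotient.mkₐ O I)
    (Ideal.Quotient.mkₐ_surjective O I) (ptsHom x)
  have hy0u : IsUnit y0 := by
    apply isUnit_of_isUnit_mapR (O := O) (C := H) hIjac
    rw [hy0]
    exact (ptsUnits x).isUnit
  obtain ⟨y, hy⟩ := hy0u
  have hyx : Units.map (mapR (C := H) (Ideal.Quotient.mkₐ O I)).toMonoidHom y = ptsUnits x := by
    apply Units.ext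
    change mapR (C := H) (Ideal.Quotient.mkₐ O I) (y : CRing O H B) = ptsHom x
    rw [hy, hy0]
  -- `y^p ≡ 1`
  have hyp : algebraMap B (CRing O H B) ϖ ^ (t + e) ∣ (y : CRing O H B) ^ p - 1 := by
    rw [pow_dvd_iff_mem_levelIdeal, ← hI]
    change _ ∈ RingHom.ker _
    rw [RingHom.mem_ker, map_sub, map_pow, map_one, hy, hy0, ← map_pow, hx, map_one, sub_self]
  -- `δ y ≡ 1`
  have hδy : algebraMap B (CRing O (H ⊗[O] H) B) ϖ ^ t ∣
      ((delta y : (CRing O (H ⊗[O] H) B)ˣ) : CRing O (H ⊗[O] H) B) - 1 := by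
    rw [pow_dvd_iff_mem_levelIdeal]
    apply levelIdeal_mono hIJ
    apply delta_sub_one_mem_levelIdeal
    rw [hyx, delta_ptsUnits]
  have hδ : ∀ w : (CRing O H B)ˣ, algebraMap B (CRing O H B) ϖ ^ t ∣ (w : CRing O H B) - 1 →
      algebraMap B (CRing O (H ⊗[O] H) B) ϖ ^ t ∣
        ((delta w : (CRing O (H ⊗[O] H) B)ˣ) : CRing O (H ⊗[O] H) B) - 1 := by
    intro w hw
    rw [pow_dvd_iff_mem_levelIdeal] at hw ⊢
    exact delta_sub_one_mem_levelIdeal_of_sub_one_mem w hw
  obtain ⟨g, hg1, hg2, hg3⟩ := l2 hp (hpe_CRing hpe) hsep hcomp hreg₂ (hpe_CRing hpe) hsep₂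
    delta hδ ht hyp hδy
  obtain ⟨γ, hγ⟩ := exists_pts_of_delta_eq_one g hg1
  refine ⟨γ, ?_, ?_⟩
  · apply ptsUnits_injective
    rw [map_pow, hγ, hg2, map_one]
  · intro c b hb
    rw [pow_dvd_iff] at hg3
    have h1 : ϖ ^ t ∣ γ c - y0 c := by
      have := hg3 c
      rw [← hγ, hy] at this
      exact this
    have h2 : ϖ ^ t ∣ y0 c - b := by
      have h3 : Ideal.Quotient.mk I (y0 c) = Ideal.Quotient.mk I b := by
        rw [hb]
        have := congrArg (fun z : CRing O H (B ⧸ I) => z c) hy0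
        simpa using this
      rw [Ideal.Quotient.eq] at h3
      have := hIJ h3
      rwa [Ideal.mem_span_singleton] at this
    have : γ c - b = (γ c - y0 c) + (y0 c - b) := by ring
    rw [this]
    exact dvd_add h1 h2

/-- **(L2)** for points in terms of reduction maps, existence and uniqueness: `I = (ϖ^(t+e))`,
`J = (ϖ^t)`; every `p`-torsion point over `B/I` agrees over `B/J` with a unique `p`-torsion point
over `B`. -/
theorem existsUnique_pts_lift (hp : p.Prime) (hϖ : Irreducible ϖ) (hpe : (p : B) = u * ϖ ^ e)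
    (ht : e < t * (p - 1)) (I J : Ideal B) (hI : I = Ideal.span {ϖ ^ (t + e)})
    (hJ : J = Ideal.span {ϖ ^ t}) (hIJ : I ≤ J)
    (x : WithConv (H →ₐ[O] B ⧸ I)) (hx : x ^ p = 1) :
    ∃! g : WithConv (H →ₐ[O] B), g ^ p = 1 ∧
      mapPts (Ideal.Quotient.mkₐ O J) g = mapPts (Ideal.Quotient.factorₐ O hIJ) x := by
  obtain ⟨g, hg, hgx⟩ := exists_pts_lift hp hϖ hpe ht I hI x hx
  have hgJ : mapPts (Ideal.Quotient.mkₐ O J) g = mapPts (Ideal.Quotient.factorₐ O hIJ) x := by
    apply WithConv.ext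
    apply AlgHom.ext
    intro c
    obtain ⟨b, hb⟩ := Ideal.Quotient.mk_surjective (x c)
    change Ideal.Quotient.mk J (g c) = Ideal.Quotient.factorₐ O hIJ (x c)
    rw [← hb]
    change Ideal.Quotient.mk J (g c) = Ideal.Quotient.mk J b
    rw [Ideal.Quotient.eq, hJ, Ideal.mem_span_singleton]
    exact hgx c b hb
  refine ⟨g, ⟨hg, hgJ⟩, ?_⟩
  rintro g' ⟨hg', hg'J⟩
  exact mapPts_mk_inj hp hϖ hpe ht J hJ hg' hg (hg'J.trans hgJ.symm)

/-- **(L1)+(L2)** packaged (the abstract heart of (L3)): a monoid homomorphism `ξ` from a monoid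
`A` to the `p`-torsion points over `B/I`, `I = (ϖ^(t+e))`, lifts uniquely to a homomorphism to the
`p`-torsion points over `B` agreeing with `ξ` over `B/J`, `J = (ϖ^t)`. -/
theorem exists_lift_monoidHom (hp : p.Prime) (hϖ : Irreducible ϖ) (hpe : (p : B) = u * ϖ ^ e)
    (ht : e < t * (p - 1)) (I J : Ideal B) (hI : I = Ideal.span {ϖ ^ (t + e)})
    (hJ : J = Ideal.span {ϖ ^ t}) (hIJ : I ≤ J) {A : Type*} [Monoid A]
    (ξ : A →* WithConv (H →ₐ[O] B ⧸ I)) (hξ : ∀ P, ξ P ^ p = 1) :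
    ∃ φ : A →* WithConv (H →ₐ[O] B), (∀ P, φ P ^ p = 1) ∧
      ∀ P, mapPts (Ideal.Quotient.mkₐ O J) (φ P) = mapPts (Ideal.Quotient.factorₐ O hIJ) (ξ P) := by
  have hex := fun P => (existsUnique_pts_lift hp hϖ hpe ht I J hI hJ hIJ (ξ P) (hξ P)).exists
  choose g hg1 hg2 using hex
  refine ⟨⟨⟨g, ?_⟩, ?_⟩, hg1, hg2⟩
  · refine mapPts_mk_inj hp hϖ hpe ht J hJ (hg1 1) (one_pow p) ?_
    rw [hg2, map_one, map_one, map_one]
  · intro P Q
    refine mapPts_mk_inj hp hϖ hpe ht J hJ (hg1 _) ?_ ?_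
    · rw [mul_pow, hg1, hg1, one_mul]
    · rw [hg2, map_mul, map_mul, map_mul, hg2, hg2]

omit [Coalgebra.IsCocomm O H] [Module.Free O H] [Module.Finite O H] [IsDomain B]
  [IsDiscreteValuationRing B] [IsAdicComplete (maximalIdeal B) B] in
/-- the lifting homomorphism is injective when `ξ` is injective modulo `J`. -/
theorem lift_monoidHom_injective {I J : Ideal B} (hIJ : I ≤ J) {A : Type*} [Group A]
    (ξ : A →* WithConv (H →ₐ[O] B ⧸ I)) (φ : A →* WithConv (H →ₐ[O] B))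
    (hφ : ∀ P, mapPts (Ideal.Quotient.mkₐ O J) (φ P) =
      mapPts (Ideal.Quotient.factorₐ O hIJ) (ξ P))
    (hξ_inj : ∀ P, mapPts (Ideal.Quotient.factorₐ O hIJ) (ξ P) = 1 → P = 1) :
    Function.Injective φ := by
  intro P Q hPQ
  have h0 : φ (P * Q⁻¹) = 1 := by rw [map_mul, hPQ, ← map_mul, mul_inv_cancel, map_one]
  have h1 : mapPts (Ideal.Quotient.factorₐ O hIJ) (ξ (P * Q⁻¹)) = 1 := by
    rw [← hφ, h0, map_one]
  have := hξ_inj _ h1
  exact mul_inv_eq_one.mp this

end Points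

end Fermat.Agent.S56x.Fontaine.LiftPts
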