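/-
P-S56 block (A), file `S56x/Fontaine/PmOfLift.lean` (helper30): step (L3) of blueprint note 1366.

From (L1) (injectivity of reduction on `p`-torsion points) and (L2) (lifting of `p`-torsion points),
both landed in `Fontaine/LiftPts.lean`, deduce **Fontaine's property `(P_m)`** (in the norm form
`Lib/Ram/PropertyPm.PropertyP`) for the field `L'` generated over `ℚ_p` by the values of all
`PadicAlgCl p`-points of a finite free commutative cocommutative Hopf algebra `H` over `ℤ_(p)`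
whose points are killed by `p`:  `∀ ρ < ‖p‖ ^ (1 + 1/(p-1))`, `PropertyP ℚ_[p] (PadicAlgCl p) L' ρ`
(stated as `ρ ^ (p-1) < ‖p‖ ^ p`).
-/
import Mathlib
import Fermat.Agent.S56x.Fontaine.LiftPts
import Fermat.Agent.S56x.Fontaine.Entry
import Fermat.Agent.S56x.Fontaine.EtaLevel
import Fermat.Agent.S56x.Fontaine.PointsRational
import Fermat.Agent.Lib.Ram.PropertyPm
import Fermat.Agent.Lib.CFT.Local.LocalBrauer.PadicBlock

set_option autoImplicit false

open WithConv
open scoped NNReal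

namespace Fermat.Agent.S56x.Fontaine.PmOfLift

open Fermat.Agent.S56x.Fontaine.Entry

/-! ### Part 1: the abstract counting core -/

section Core

variable {O H BL BE Q : Type*} [CommRing O] [CommRing H] [Bialgebra O H]
  [CommRing BL] [Algebra O BL] [CommRing BE] [Algebra O BE] [CommRing Q] [Algebra O Q]

/-- **Abstract (L3).**  `η : B_L → Q` and a surjection `π : B_E → Q` (think `Q = B_E / 𝔞^m`);
`I_t ⊆ B_E` and `J_L ⊆ B_L` ideals such that `η` "preserves valuations below the level of `I_t`"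
(`hval`).  If reduction mod `J_L` is injective on `p`-torsion points of `B_L` (`hL1`) and every
`p`-torsion point of `Q` lifts to a point of `B_E` modulo `I_t` (`hL2`), then the `p`-torsion points
of `B_L` inject into the points of `B_E`, compatibly with `η` modulo `I_t`. -/
theorem exists_injective_lift (p : ℕ) (η : BL →ₐ[O] Q) (π : BE →ₐ[O] Q)
    (hπ : Function.Surjective π) (It : Ideal BE) (JL : BL → Prop)
    (hval : ∀ (y : BL) (b : BE), π b = η y → b ∈ It → JL y)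
    (hL1 : ∀ P P' : WithConv (H →ₐ[O] BL), P ^ p = 1 → P' ^ p = 1 →
      (∀ h : H, JL (P.ofConv h - P'.ofConv h)) → P = P')
    (hL2 : ∀ x : WithConv (H →ₐ[O] Q), x ^ p = 1 →
      ∃ g : WithConv (H →ₐ[O] BE), ∀ (h : H) (b : BE), π b = x.ofConv h → g.ofConv h - b ∈ It) :
    ∃ Φ : {P : WithConv (H →ₐ[O] BL) // P ^ p = 1} → WithConv (H →ₐ[O] BE),
      Function.Injective Φ ∧
      ∀ (P : {P : WithConv (H →ₐ[O] BL) // P ^ p = 1}) (h : H) (b : BE),
        π b = η (P.1.ofConv h) → (Φ P).ofConv h - b ∈ It := by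
  have hx : ∀ P : {P : WithConv (H →ₐ[O] BL) // P ^ p = 1}, (pointsMap η P.1) ^ p = 1 := by
    intro P
    rw [← map_pow, P.2, map_one]
  choose Φ hΦ using fun P => hL2 (pointsMap η P.1) (hx P)
  refine ⟨Φ, ?_, fun P h b hb => hΦ P h b (by simpa using hb)⟩
  intro P P' hPP'
  apply Subtype.ext
  refine hL1 P.1 P'.1 P.2 P'.2 fun h => ?_
  obtain ⟨b, hb⟩ := hπ (η (P.1.ofConv h))
  obtain ⟨b', hb'⟩ := hπ (η (P'.1.ofConv h))
  have h1 := hΦ P h b (by simpa using hb)
  have h2 := hΦ P' h b' (by simpa using hb')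
  rw [← hPP'] at h2
  have h3 : b - b' ∈ It := by
    have : b - b' = ((Φ P).ofConv h - b') - ((Φ P).ofConv h - b) := by ring
    rw [this]
    exact It.sub_mem h2 h1
  refine hval _ (b - b') ?_ h3
  rw [map_sub, map_sub, hb, hb']

end Core

/-! ### Part 2a: integral elements have norm `≤ 1` -/

section NormIntegral

open Finset in
theorem norm_le_one_of_isIntegral {A Ω : Type*} [CommRing A] [NormedField Ω]
    [IsUltrametricDist Ω] [Algebra A Ω] (hA : ∀ a : A, ‖algebraMap A Ω a‖ ≤ 1) {x : Ω}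
    (hx : IsIntegral A x) : ‖x‖ ≤ 1 := by
  by_contra hlt
  push Not at hlt
  obtain ⟨f, hm, hf⟩ := hx
  have hn : f.natDegree ≠ 0 := by
    intro h0
    rw [Polynomial.eq_one_of_monic_natDegree_zero hm h0, Polynomial.eval₂_one] at hf
    exact one_ne_zero hf
  rw [Polynomial.eval₂_eq_sum_range, Finset.sum_range_succ, hm.coeff_natDegree, map_one,
    one_mul] at hf
  have hx' : x ^ f.natDegree =
      -∑ i ∈ range f.natDegree, algebraMap A Ω (f.coeff i) * x ^ i :=
    eq_neg_of_add_eq_zero_right hf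
  have hle : ‖∑ i ∈ range f.natDegree, algebraMap A Ω (f.coeff i) * x ^ i‖ ≤
      ‖x‖ ^ (f.natDegree - 1) := by
    apply IsUltrametricDist.norm_sum_le_of_forall_le_of_nonneg (by positivity)
    intro i hi
    rw [Finset.mem_range] at hi
    rw [norm_mul, norm_pow]
    calc ‖algebraMap A Ω (f.coeff i)‖ * ‖x‖ ^ i ≤ 1 * ‖x‖ ^ i :=
          mul_le_mul_of_nonneg_right (hA _) (by positivity)
      _ = ‖x‖ ^ i := one_mul _
      _ ≤ ‖x‖ ^ (f.natDegree - 1) := pow_le_pow_right₀ hlt.le (by omega)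
  have h1 : ‖x‖ ^ f.natDegree ≤ ‖x‖ ^ (f.natDegree - 1) := by
    rw [← norm_pow, hx', norm_neg]
    exact hle
  have h2 : ‖x‖ ^ (f.natDegree - 1) < ‖x‖ ^ f.natDegree :=
    pow_lt_pow_right₀ hlt (by omega)
  exact absurd h1 (not_le.mpr h2)

end NormIntegral

/-! ### Part 2b: the unit ball of an intermediate field (generic facts) -/

section UnitBall

open Fermat.Agent.Lib.Ram.PropertyPm

variable {K : Type*} [NormedField K] [IsUltrametricDist K]
variable {Ω : Type*} [NormedField Ω] [IsUltrametricDist Ω] [NormedAlgebra K Ω]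
variable (E : IntermediateField K Ω)

theorem norm_le_one_intE (x : intE E) : ‖(x : Ω)‖ ≤ 1 := x.2.2

theorem coe_mem_of_intE (x : intE E) : (x : Ω) ∈ E := x.2.1

/-- units of the unit ball are the elements of norm one. -/
theorem isUnit_intE_iff (x : intE E) : IsUnit x ↔ ‖(x : Ω)‖ = 1 := by
  constructor
  · rintro ⟨u, rfl⟩
    have h1 : ((u : intE E) : Ω) * ((u⁻¹ : (intE E)ˣ) : intE E) = 1 := by
      rw [← MulMemClass.coe_mul, Units.mul_inv, OneMemClass.coe_one]
    have h2 := congrArg norm h1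
    rw [norm_mul, norm_one] at h2
    have ha := norm_le_one_intE E (u : intE E)
    have hb := norm_le_one_intE E ((u⁻¹ : (intE E)ˣ) : intE E)
    have hb0 : 0 ≤ ‖(((u⁻¹ : (intE E)ˣ) : intE E) : Ω)‖ := norm_nonneg _
    nlinarith [norm_nonneg ((u : intE E) : Ω)]
  · intro h
    have hx0 : (x : Ω) ≠ 0 := by
      intro h0
      rw [h0, norm_zero] at h
      exact zero_ne_one h
    have hinv : (x : Ω)⁻¹ ∈ intE E := by
      refine ⟨E.inv_mem (coe_mem_of_intE E x), ?_⟩
      rw [norm_inv, h, inv_one]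
    refine IsUnit.of_mul_eq_one ⟨(x : Ω)⁻¹, hinv⟩ (Subtype.ext ?_)
    rw [MulMemClass.coe_mul, OneMemClass.coe_one]
    exact mul_inv_cancel₀ hx0

/-- divisibility in the unit ball is comparison of norms. -/
theorem dvd_intE_iff {x y : intE E} (hx : x ≠ 0) : x ∣ y ↔ ‖(y : Ω)‖ ≤ ‖(x : Ω)‖ := by
  have hx0 : (x : Ω) ≠ 0 := fun h => hx (Subtype.ext h)
  constructor
  · rintro ⟨z, rfl⟩
    rw [MulMemClass.coe_mul, norm_mul]
    calc ‖(x : Ω)‖ * ‖(z : Ω)‖ ≤ ‖(x : Ω)‖ * 1 :=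
          mul_le_mul_of_nonneg_left (norm_le_one_intE E z) (norm_nonneg _)
      _ = ‖(x : Ω)‖ := mul_one _
  · intro h
    have hz : (y : Ω) * (x : Ω)⁻¹ ∈ intE E := by
      refine ⟨E.mul_mem (coe_mem_of_intE E y) (E.inv_mem (coe_mem_of_intE E x)), ?_⟩
      rw [norm_mul, norm_inv]
      have hpos : 0 < ‖(x : Ω)‖ := norm_pos_iff.mpr hx0
      rw [← div_eq_mul_inv, div_le_one hpos]
      exact h
    refine ⟨⟨(y : Ω) * (x : Ω)⁻¹, hz⟩, Subtype.ext ?_⟩
    rw [MulMemClass.coe_mul]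
    show (y : Ω) = (x : Ω) * ((y : Ω) * (x : Ω)⁻¹)
    field_simp

end UnitBall

/-! ### Part 2c: for `E/ℚ_p` finite inside `PadicAlgCl p`, the unit ball is the ring of integers
`PadicBlock.intRing p E`, hence a complete discrete valuation ring -/

section Padic

open Fermat.Agent.Lib.Ram.PropertyPm Fermat.Agent.Lib.CFT.Local.LocalBrauer.PadicBlock IsLocalRing

variable (p : ℕ) [Fact p.Prime] (E : IntermediateField ℚ_[p] (PadicAlgCl p))

theorem norm_le_one_of_isIntegralElem {A Ω : Type*} [CommRing A] [NormedField Ω]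
    [IsUltrametricDist Ω] (φ : A →+* Ω) (hφ : ∀ a : A, ‖φ a‖ ≤ 1) {x : Ω}
    (hx : φ.IsIntegralElem x) : ‖x‖ ≤ 1 := by
  let _ : Algebra A Ω := φ.toAlgebra
  exact norm_le_one_of_isIntegral (A := A) hφ hx

theorem norm_zpHom_le_one (a : ℤ_[p]) : ‖((zpHom p E a : E) : PadicAlgCl p)‖ ≤ 1 := by
  have h : ((zpHom p E a : E) : PadicAlgCl p) = algebraMap ℚ_[p] (PadicAlgCl p) (a : ℚ_[p]) := rfl
  rw [h, norm_algebraMap']
  exact a.2

/-- integers have norm `≤ 1`. -/
theorem norm_le_one_of_mem_intRing {x : E} (hx : x ∈ intRing p E) :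
    ‖(x : PadicAlgCl p)‖ ≤ 1 := by
  refine norm_le_one_of_isIntegralElem ((algebraMap E (PadicAlgCl p)).comp (zpHom p E))
    (fun a => norm_zpHom_le_one p E a) ?_
  obtain ⟨f, hm, hf⟩ := hx
  refine ⟨f, hm, ?_⟩
  show Polynomial.eval₂ _ (algebraMap E (PadicAlgCl p) x) f = 0
  rw [← Polynomial.hom_eval₂, hf, map_zero]

variable [FiniteDimensional ℚ_[p] E]

theorem norm_p_lt_one : ‖(p : PadicAlgCl p)‖ < 1 := by
  have h : (p : PadicAlgCl p) = algebraMap ℚ_[p] (PadicAlgCl p) (p : ℚ_[p]) := by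
    rw [map_natCast]
  rw [h, norm_algebraMap']
  exact Padic.norm_p_lt_one

theorem norm_p_pos : 0 < ‖(p : PadicAlgCl p)‖ := by
  rw [norm_pos_iff]
  exact_mod_cast (Fact.out : p.Prime).ne_zero

/-- the norm of `PadicAlgCl p` on the ring of integers of `E`. -/
noncomputable def nB (z : intRing p E) : ℝ := ‖((z : E) : PadicAlgCl p)‖

omit [FiniteDimensional ℚ_[p] E] in
theorem nB_mul (a b : intRing p E) : nB p E (a * b) = nB p E a * nB p E b := by
  unfold nB
  rw [Subring.coe_mul, IntermediateField.coe_mul, norm_mul]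

omit [FiniteDimensional ℚ_[p] E] in
theorem nB_pow (a : intRing p E) (n : ℕ) : nB p E (a ^ n) = nB p E a ^ n := by
  unfold nB
  rw [Subring.coe_pow, IntermediateField.coe_pow, norm_pow]

omit [FiniteDimensional ℚ_[p] E] in
theorem nB_one : nB p E 1 = 1 := by
  unfold nB
  rw [Subring.coe_one, IntermediateField.coe_one, norm_one]

omit [FiniteDimensional ℚ_[p] E] in
theorem nB_natCast_p : nB p E ((p : ℕ) : intRing p E) = ‖(p : PadicAlgCl p)‖ := by
  unfold nB
  rw [Subring.coe_natCast]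
  congr 1

omit [FiniteDimensional ℚ_[p] E] in
theorem nB_le_one (a : intRing p E) : nB p E a ≤ 1 := norm_le_one_of_mem_intRing p E a.2

omit [FiniteDimensional ℚ_[p] E] in
theorem nB_nonneg (a : intRing p E) : 0 ≤ nB p E a := norm_nonneg _

omit [FiniteDimensional ℚ_[p] E] in
theorem nB_unit (u : (intRing p E)ˣ) : nB p E (u : intRing p E) = 1 := by
  have h1 : nB p E (u : intRing p E) * nB p E ((u⁻¹ : (intRing p E)ˣ) : intRing p E) = 1 := by
    rw [← nB_mul, Units.mul_inv, nB_one]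
  have ha := nB_le_one p E (u : intRing p E)
  have hb := nB_le_one p E ((u⁻¹ : (intRing p E)ˣ) : intRing p E)
  nlinarith [nB_nonneg p E (u : intRing p E),
    nB_nonneg p E ((u⁻¹ : (intRing p E)ˣ) : intRing p E)]

omit [FiniteDimensional ℚ_[p] E] in
theorem not_isUnit_p : ¬ IsUnit ((p : ℕ) : intRing p E) := by
  rintro ⟨u, hu⟩
  have h1 := nB_unit p E u
  rw [hu, nB_natCast_p] at h1
  exact (norm_p_lt_one p).ne h1

omit [FiniteDimensional ℚ_[p] E] in
theorem natCast_p_ne_zero : ((p : ℕ) : intRing p E) ≠ 0 := by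
  intro h
  have h1 := nB_natCast_p p E
  rw [h] at h1
  have h2 : nB p E 0 = 0 := by
    unfold nB
    rw [Subring.coe_zero, IntermediateField.coe_zero, norm_zero]
  rw [h2] at h1
  exact (norm_p_pos p).ne h1

/-- non-units of the ring of integers have norm `< 1`. -/
theorem nB_lt_one_of_not_isUnit {y : intRing p E} (hy : ¬ IsUnit y) : nB p E y < 1 := by
  obtain ⟨ϖ, hϖ⟩ := IsDiscreteValuationRing.exists_irreducible (intRing p E)
  obtain ⟨n, u, hnu⟩ :=
    IsDiscreteValuationRing.eq_unit_mul_pow_irreducible (natCast_p_ne_zero p E) hϖ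
  have hn : n ≠ 0 := by
    rintro rfl
    apply not_isUnit_p p E
    rw [hnu, pow_zero, mul_one]
    exact u.isUnit
  have hmax := (IsDiscreteValuationRing.irreducible_iff_uniformizer ϖ).mp hϖ
  have hymem : y ∈ maximalIdeal (intRing p E) := (mem_maximalIdeal y).mpr hy
  rw [hmax, Ideal.mem_span_singleton] at hymem
  obtain ⟨c, rfl⟩ := hymem
  have hpow : (ϖ * c) ^ n =
      ((p : ℕ) : intRing p E) * (((u⁻¹ : (intRing p E)ˣ) : intRing p E) * c ^ n) := by
    rw [hnu, mul_pow]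
    have hu : ((u : intRing p E)) * (((u⁻¹ : (intRing p E)ˣ) : intRing p E)) = 1 :=
      Units.mul_inv u
    calc ϖ ^ n * c ^ n
        = ((u : intRing p E) * ((u⁻¹ : (intRing p E)ˣ) : intRing p E)) * (ϖ ^ n * c ^ n) := by
          rw [hu, one_mul]
      _ = _ := by ring
  have hnorm := congrArg (nB p E) hpow
  rw [nB_pow, nB_mul p E ((p : ℕ) : intRing p E), nB_natCast_p] at hnorm
  have hy1 : nB p E (ϖ * c) ^ n < 1 := by
    rw [hnorm]
    calc ‖(p : PadicAlgCl p)‖ * _ ≤ ‖(p : PadicAlgCl p)‖ * 1 :=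
          mul_le_mul_of_nonneg_left (nB_le_one p E _) (norm_nonneg _)
      _ < 1 := by rw [mul_one]; exact norm_p_lt_one p
  by_contra hge
  push Not at hge
  exact absurd hy1 (not_lt.mpr (one_le_pow₀ hge))

/-- elements of norm `≤ 1` are integers (uses that `intRing p E` is a DVR with fraction field
`E` in which `p` is not a unit). -/
theorem mem_intRing_of_norm_le_one {x : E} (hx : ‖(x : PadicAlgCl p)‖ ≤ 1) : x ∈ intRing p E := by
  by_contra hxB
  have hx0 : x ≠ 0 := fun h => hxB (h ▸ (intRing p E).zero_mem)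
  rcases ValuationRing.isInteger_or_isInteger (intRing p E) x with ⟨b, hb⟩ | ⟨y, hy⟩
  · exact hxB (hb ▸ b.2)
  · have hyx : (y : E) * x = 1 := by
      have : (y : E) = x⁻¹ := hy
      rw [this, inv_mul_cancel₀ hx0]
    have hynu : ¬ IsUnit y := by
      rintro ⟨u, rfl⟩
      apply hxB
      have h1 : (((u⁻¹ : (intRing p E)ˣ) : intRing p E) : E) * (u : intRing p E) = 1 := by
        rw [← Subring.coe_mul, Units.inv_mul, Subring.coe_one]
      have : x = ((u⁻¹ : (intRing p E)ˣ) : intRing p E) := by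
        calc x = (((u⁻¹ : (intRing p E)ˣ) : intRing p E) : E) * ((u : intRing p E) * x) := by
              rw [← mul_assoc, h1, one_mul]
          _ = _ := by rw [hyx, mul_one]
      rw [this]
      exact Subtype.mem _
    have hy1 := nB_lt_one_of_not_isUnit p E hynu
    have h5 := congrArg (fun z : E => ‖(z : PadicAlgCl p)‖) hyx
    simp only [IntermediateField.coe_mul, norm_mul, IntermediateField.coe_one, norm_one] at h5
    unfold nB at hy1
    nlinarith [norm_nonneg ((y : E) : PadicAlgCl p), norm_nonneg (x : PadicAlgCl p)]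

theorem mem_intRing_iff_norm_le_one (x : E) : x ∈ intRing p E ↔ ‖(x : PadicAlgCl p)‖ ≤ 1 :=
  ⟨norm_le_one_of_mem_intRing p E, mem_intRing_of_norm_le_one p E⟩

/-- the ring of integers of `E` is the unit ball of `E`. -/
noncomputable def intRingEquiv : intRing p E ≃+* intE E where
  toFun z := ⟨((z : E) : PadicAlgCl p), ⟨(z : E).2, norm_le_one_of_mem_intRing p E z.2⟩⟩
  invFun y := ⟨⟨(y : PadicAlgCl p), y.2.1⟩, mem_intRing_of_norm_le_one p E y.2.2⟩
  left_inv _ := rfl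
  right_inv _ := rfl
  map_mul' _ _ := rfl
  map_add' _ _ := rfl

theorem coe_intRingEquiv (z : intRing p E) :
    ((intRingEquiv p E z : intE E) : PadicAlgCl p) = ((z : E) : PadicAlgCl p) := rfl

theorem isDomain_intE : IsDomain (intE E) :=
  (intRingEquiv p E).symm.toMulEquiv.isDomain _

theorem isDiscreteValuationRing_intE : IsDiscreteValuationRing (intE E) :=
  haveI := isDomain_intE p E
  IsDiscreteValuationRing.RingEquivClass.isDiscreteValuationRing (intRingEquiv p E)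

theorem isAdicComplete_intE :
    haveI := (isDiscreteValuationRing_intE p E).toIsLocalRing
    IsAdicComplete (maximalIdeal (intE E)) (intE E) := by
  have := isDomain_intE p E
  have := isDiscreteValuationRing_intE p E
  have hmap : (maximalIdeal (intRing p E)).map (intRingEquiv p E) = maximalIdeal (intE E) := by
    have hmax : ((maximalIdeal (intRing p E)).map (intRingEquiv p E)).IsMaximal :=
      Ideal.IsMaximal.map_bijective (intRingEquiv p E) (intRingEquiv p E).bijective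
        (maximalIdeal.isMaximal _)
    exact IsLocalRing.eq_maximalIdeal hmax
  rw [← hmap]
  exact (IsAdicComplete.congr_ringEquiv _ (intRingEquiv p E)).mpr inferInstance

/-! ### Part 2d: uniformizers versus the norm -/

omit [FiniteDimensional ℚ_[p] E] in
theorem coe_natCast_intE (n : ℕ) : (((n : ℕ) : intE E) : PadicAlgCl p) = (n : PadicAlgCl p) := by
  induction n with
  | zero => simp
  | succ n ih => rw [Nat.cast_succ, Nat.cast_succ, ← ih]; rfl

/-- **Level data** for the unit ball of a finite `E/ℚ_p`: for a real threshold `0 < r` with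
`r ^ (p-1) < ‖p‖` there are a uniformizer `ϖ`, `p = u ϖ^e`, and a level `t` with
`e < t (p-1)`, `‖ϖ‖^t ≤ r`, such that `‖x‖ ≤ r → ϖ^t ∣ x` and `‖x‖ ≤ r ‖p‖ → ϖ^(t+e) ∣ x`. -/
theorem exists_level_data (r : ℝ) (hr0 : 0 < r) (hr : r ^ (p - 1) < ‖(p : PadicAlgCl p)‖) :
    haveI := isDomain_intE p E
    ∃ (ϖ : intE E) (u : (intE E)ˣ) (e t : ℕ), Irreducible ϖ ∧
      ((p : ℕ) : intE E) = u * ϖ ^ e ∧ e < t * (p - 1) ∧
      ‖(ϖ : PadicAlgCl p)‖ ^ t ≤ r ∧
      (∀ x : intE E, ‖(x : PadicAlgCl p)‖ ≤ r → ϖ ^ t ∣ x) ∧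
      (∀ x : intE E, ‖(x : PadicAlgCl p)‖ ≤ r * ‖(p : PadicAlgCl p)‖ → ϖ ^ (t + e) ∣ x) ∧
      0 < ‖(ϖ : PadicAlgCl p)‖ ∧ ‖(ϖ : PadicAlgCl p)‖ < 1 ∧
      ‖(ϖ : PadicAlgCl p)‖ ^ e = ‖(p : PadicAlgCl p)‖ := by
  have := isDomain_intE p E
  have := isDiscreteValuationRing_intE p E
  obtain ⟨ϖ, hϖ⟩ := IsDiscreteValuationRing.exists_irreducible (intE E)
  have hp0 : ((p : ℕ) : intE E) ≠ 0 := by
    intro h
    have h1 := congrArg (fun z : intE E => (z : PadicAlgCl p)) h
    simp only [coe_natCast_intE, ZeroMemClass.coe_zero] at h1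
    exact (norm_p_pos p).ne' (by rw [h1, norm_zero])
  obtain ⟨e, u, hpe⟩ := IsDiscreteValuationRing.eq_unit_mul_pow_irreducible hp0 hϖ
  have hϖ0 : ϖ ≠ 0 := hϖ.ne_zero
  have hϖpos : 0 < ‖(ϖ : PadicAlgCl p)‖ := by
    rw [norm_pos_iff]
    exact fun h => hϖ0 (Subtype.ext h)
  have hϖlt : ‖(ϖ : PadicAlgCl p)‖ < 1 := by
    have h1 := norm_le_one_intE E ϖ
    rcases h1.lt_or_eq with h | h
    · exact h
    · exact absurd ((isUnit_intE_iff E ϖ).mpr h) hϖ.not_isUnit
  have hu1 : ‖((u : intE E) : PadicAlgCl p)‖ = 1 := (isUnit_intE_iff E _).mp u.isUnit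
  have hnp : ‖(ϖ : PadicAlgCl p)‖ ^ e = ‖(p : PadicAlgCl p)‖ := by
    have h1 := congrArg (fun z : intE E => ‖(z : PadicAlgCl p)‖) hpe
    simp only [coe_natCast_intE, MulMemClass.coe_mul, SubmonoidClass.coe_pow, norm_mul, norm_pow,
      hu1, one_mul] at h1
    exact h1.symm
  -- the level `t`
  have hex : ∃ k : ℕ, ‖(ϖ : PadicAlgCl p)‖ ^ k ≤ r := by
    obtain ⟨k, hk⟩ := exists_pow_lt_of_lt_one hr0 hϖlt
    exact ⟨k, hk.le⟩
  classical
  let t := Nat.find hex
  have ht : ‖(ϖ : PadicAlgCl p)‖ ^ t ≤ r := Nat.find_spec hex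
  have hdvd : ∀ x : intE E, ‖(x : PadicAlgCl p)‖ ≤ r → ϖ ^ t ∣ x := by
    intro x hx
    by_cases hx0 : x = 0
    · rw [hx0]; exact dvd_zero _
    obtain ⟨n, v, hxv⟩ := IsDiscreteValuationRing.eq_unit_mul_pow_irreducible hx0 hϖ
    have hv1 : ‖((v : intE E) : PadicAlgCl p)‖ = 1 := (isUnit_intE_iff E _).mp v.isUnit
    have hxn : ‖(x : PadicAlgCl p)‖ = ‖(ϖ : PadicAlgCl p)‖ ^ n := by
      have h1 := congrArg (fun z : intE E => ‖(z : PadicAlgCl p)‖) hxv
      simpa only [MulMemClass.coe_mul, SubmonoidClass.coe_pow, norm_mul, norm_pow, hv1,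
        one_mul] using h1
    have htn : t ≤ n := Nat.find_min' hex (hxn ▸ hx)
    rw [hxv]
    exact Dvd.dvd.mul_left (pow_dvd_pow ϖ htn) _
  refine ⟨ϖ, u, e, t, hϖ, hpe, ?_, ht, hdvd, ?_, hϖpos, hϖlt, hnp⟩
  · -- `e < t (p-1)`
    have h1 : ‖(ϖ : PadicAlgCl p)‖ ^ (t * (p - 1)) < ‖(ϖ : PadicAlgCl p)‖ ^ e := by
      rw [hnp, pow_mul]
      exact lt_of_le_of_lt (pow_le_pow_left₀ (by positivity) ht _) hr
    exact (pow_lt_pow_iff_right_of_lt_one₀ hϖpos hϖlt).mp h1
  · -- `‖x‖ ≤ r ‖p‖ → ϖ^(t+e) ∣ x`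
    intro x hx
    have hpx : ((p : ℕ) : intE E) ∣ x := by
      rw [dvd_intE_iff E hp0, coe_natCast_intE]
      have hr1 : r ≤ 1 := by
        by_contra hgt
        push Not at hgt
        have : (1 : ℝ) ≤ r ^ (p - 1) := one_le_pow₀ hgt.le
        linarith [norm_p_lt_one p]
      calc ‖(x : PadicAlgCl p)‖ ≤ r * ‖(p : PadicAlgCl p)‖ := hx
        _ ≤ 1 * ‖(p : PadicAlgCl p)‖ := mul_le_mul_of_nonneg_right hr1 (norm_nonneg _)
        _ = _ := one_mul _
    obtain ⟨x', rfl⟩ := hpx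
    have hx' : ‖(x' : PadicAlgCl p)‖ ≤ r := by
      rw [MulMemClass.coe_mul, norm_mul, coe_natCast_intE, mul_comm] at hx
      exact le_of_mul_le_mul_right hx (norm_p_pos p)
    obtain ⟨c, rfl⟩ := hdvd x' hx'
    rw [hpe, pow_add]
    exact ⟨(u : intE E) * c, by ring⟩

end Padic

/-! ### Part 3: assembly -/

/-- `Ideal.span {x}`, typed through the `CommRing` instance (for subalgebra carriers the default
elaboration picks another, only propositionally-reducible, path). -/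
def spanC {B : Type*} [CommRing B] (x : B) : Ideal B := Ideal.span {x}

/-- An ideal, re-typed through the `CommRing` instance. -/
def toC {B : Type*} [CommRing B] (I : Ideal B) : Ideal B := I

theorem mem_toC {B : Type*} [CommRing B] {I : Ideal B} {x : B} : x ∈ toC I ↔ x ∈ I := Iff.rfl

section Assembly

open Fermat.Agent.Lib.Ram.PropertyPm IsLocalRing Fermat.Agent.S56x.Hopf
  Fermat.Agent.S56x.Fontaine.LiftPts

variable (p : ℕ) [Fact p.Prime]
variable {O : Type*} [CommRing O] [Algebra O (PadicAlgCl p)]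

/-- `O → 𝓞_F`, when the image of `O` in `PadicAlgCl p` consists of `p`-adic integers of `ℚ_p`. -/
noncomputable def ringHomO
    (hO : ∀ r : O, ∃ a : ℚ_[p], ‖a‖ ≤ 1 ∧
      algebraMap O (PadicAlgCl p) r = algebraMap ℚ_[p] (PadicAlgCl p) a)
    (F : IntermediateField ℚ_[p] (PadicAlgCl p)) : O →+* intE F :=
  (algebraMap O (PadicAlgCl p)).codRestrict (intE F) (fun r => by
    obtain ⟨a, ha, h⟩ := hO r
    rw [h]
    exact ⟨F.algebraMap_mem a, by rw [norm_algebraMap']; exact ha⟩)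

/-- the `O`-algebra structure of `𝓞_F` (not an instance). -/
@[reducible] noncomputable def algO
    (hO : ∀ r : O, ∃ a : ℚ_[p], ‖a‖ ≤ 1 ∧
      algebraMap O (PadicAlgCl p) r = algebraMap ℚ_[p] (PadicAlgCl p) a)
    (F : IntermediateField ℚ_[p] (PadicAlgCl p)) : Algebra O (intE F) :=
  (ringHomO p hO F).toAlgebra

variable (hO : ∀ r : O, ∃ a : ℚ_[p], ‖a‖ ≤ 1 ∧
  algebraMap O (PadicAlgCl p) r = algebraMap ℚ_[p] (PadicAlgCl p) a)

/-- the inclusion `𝓞_F → PadicAlgCl p` as an `O`-algebra hom. -/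
noncomputable def inclO (F : IntermediateField ℚ_[p] (PadicAlgCl p)) :
    letI := algO p hO F
    intE F →ₐ[O] PadicAlgCl p :=
  letI := algO p hO F
  { (intE F).val.toRingHom with commutes' := fun _ => rfl }

/-- an `𝓞_K`-algebra hom `𝓞_L → 𝓞_E / a` is an `O`-algebra hom. -/
noncomputable def etaO (L E : IntermediateField ℚ_[p] (PadicAlgCl p)) (ρ : ℝ≥0)
    (η : intE L →ₐ[intK ℚ_[p]] (intE E ⧸ idealLE E ρ)) :
    letI := algO p hO L
    letI := algO p hO E
    intE L →ₐ[O] (intE E ⧸ idealLE E ρ) :=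
  letI := algO p hO L
  letI := algO p hO E
  { η.toRingHom with
    commutes' := fun r => by
      obtain ⟨a, ha, h⟩ := hO r
      have h1 : algebraMap O (intE L) r = algebraMap (intK ℚ_[p]) (intE L) ⟨a, ha⟩ :=
        Subtype.ext h
      have h2 : algebraMap O (intE E) r = algebraMap (intK ℚ_[p]) (intE E) ⟨a, ha⟩ :=
        Subtype.ext h
      show η (algebraMap O (intE L) r) =
        Ideal.Quotient.mk (idealLE E ρ) (algebraMap O (intE E) r)
      rw [h1, h2, AlgHom.commutes]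
      rfl }

variable {H : Type*} [CommRing H] [HopfAlgebra O H] [Coalgebra.IsCocomm O H]
  [Module.Free O H] [Module.Finite O H]

/-- **(L1), sharp norm form**: two `p`-torsion points over `𝓞_F` which agree modulo
`{‖x‖ ^ (p-1) < ‖p‖}` are equal. -/
theorem pts_eq_of_norm_lt (F : IntermediateField ℚ_[p] (PadicAlgCl p))
    [FiniteDimensional ℚ_[p] F] :
    letI := algO p hO F
    ∀ P P' : WithConv (H →ₐ[O] intE F), P ^ p = 1 → P' ^ p = 1 →
      (∀ h : H, ‖((P.ofConv h - P'.ofConv h : intE F) : PadicAlgCl p)‖ ^ (p - 1) <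
        ‖(p : PadicAlgCl p)‖) → P = P' := by
  let _ := algO p hO F
  intro P P' hP hP' hPP'
  have hp := (Fact.out : p.Prime)
  have hdom := isDomain_intE p F
  have hdvr := isDiscreteValuationRing_intE p F
  have hcomp := isAdicComplete_intE p F
  have hr : (‖(p : PadicAlgCl p)‖ ^ 2) ^ (p - 1) < ‖(p : PadicAlgCl p)‖ := by
    rw [← pow_mul]
    apply pow_lt_self_of_lt_one₀ (norm_p_pos p) (norm_p_lt_one p)
    have := hp.two_le
    have h1 : 1 ≤ p - 1 := by omega
    nlinarith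
  obtain ⟨ϖ, u, e, -, hϖ, hpe, -, -, -, -, hϖpos, hϖlt, hnp⟩ :=
    exists_level_data p F (‖(p : PadicAlgCl p)‖ ^ 2) (by have := norm_p_pos p; positivity) hr
  have hp1 : 0 < p - 1 := by have := hp.two_le; omega
  refine pts_eq_of_congr (t := e / (p - 1) + 1) hp hϖ hpe ?_ hP hP' fun c => ?_
  · rw [mul_comm]
    exact Nat.lt_mul_div_succ e hp1
  · have hx := hPP' c
    set x : intE F := P.ofConv c - P'.ofConv c with hxdef
    show ϖ ^ (e / (p - 1) + 1) ∣ x
    by_cases hx0 : x = 0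
    · rw [hx0]; exact dvd_zero _
    obtain ⟨n, v, hxv⟩ := IsDiscreteValuationRing.eq_unit_mul_pow_irreducible hx0 hϖ
    have hv1 : ‖((v : intE F) : PadicAlgCl p)‖ = 1 := (isUnit_intE_iff F _).mp v.isUnit
    have hxn : ‖(x : PadicAlgCl p)‖ = ‖(ϖ : PadicAlgCl p)‖ ^ n := by
      have h1 := congrArg (fun z : intE F => ‖(z : PadicAlgCl p)‖) hxv
      simpa only [MulMemClass.coe_mul, SubmonoidClass.coe_pow, norm_mul, norm_pow, hv1,
        one_mul] using h1
    rw [hxn, ← hnp, ← pow_mul, pow_lt_pow_iff_right_of_lt_one₀ hϖpos hϖlt] at hx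
    have htn : e / (p - 1) + 1 ≤ n := by
      have : e / (p - 1) < n := (Nat.div_lt_iff_lt_mul hp1).mpr hx
      omega
    rw [hxv]
    exact Dvd.dvd.mul_left (pow_dvd_pow ϖ htn) _

/-- **(L2), norm form**: `ρ = ρJ ‖p‖`, `ρJ ^ (p-1) < ‖p‖`; `π : 𝓞_E → Q` a surjection whose
kernel is contained in `a_E(ρ)`.  Every `p`-torsion point over `Q` agrees modulo `a_E(ρJ)` with a
point over `𝓞_E`. -/
theorem exists_pts_lift_norm (E : IntermediateField ℚ_[p] (PadicAlgCl p))
    [FiniteDimensional ℚ_[p] E] {Q : Type*} [CommRing Q] (ρ ρJ : ℝ≥0) (hρJ0 : 0 < ρJ)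
    (hρ : (ρ : ℝ) = ρJ * ‖(p : PadicAlgCl p)‖)
    (hρJ : (ρJ : ℝ) ^ (p - 1) < ‖(p : PadicAlgCl p)‖) :
    letI := algO p hO E
    ∀ [Algebra O Q] (π : intE E →ₐ[O] Q), Function.Surjective π →
      (∀ b : intE E, π b = 0 → ‖(b : PadicAlgCl p)‖ ≤ ρ) →
      ∀ x : WithConv (H →ₐ[O] Q), x ^ p = 1 →
        ∃ g : WithConv (H →ₐ[O] intE E), ∀ (h : H) (b : intE E),
          π b = x.ofConv h → ‖((g.ofConv h - b : intE E) : PadicAlgCl p)‖ ≤ ρJ := by
  let _ := algO p hO E
  intro _ π hπ hkerπ x hx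
  have hp := (Fact.out : p.Prime)
  have hdom := isDomain_intE p E
  have hdvr := isDiscreteValuationRing_intE p E
  have hcomp := isAdicComplete_intE p E
  obtain ⟨ϖ, u, e, t, hϖ, hpe, het, ht, -, hdvd2, -, -, -⟩ :=
    exists_level_data p E (ρJ : ℝ) (by exact_mod_cast hρJ0) hρJ
  have hker : ∀ a ∈ RingHom.ker (π : intE E →+* Q),
      Ideal.Quotient.mkₐ O (spanC (ϖ ^ (t + e))) a = 0 := by
    intro a ha
    rw [Ideal.Quotient.mkₐ_eq_mk, Ideal.Quotient.eq_zero_iff_mem]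
    show a ∈ Ideal.span {ϖ ^ (t + e)}
    rw [Ideal.mem_span_singleton]
    apply hdvd2
    rw [← hρ]
    exact hkerπ a ha
  let f' : Q →ₐ[O] (intE E ⧸ spanC (ϖ ^ (t + e))) :=
    (Ideal.Quotient.liftₐ (RingHom.ker (π : intE E →+* Q))
      (Ideal.Quotient.mkₐ O (spanC (ϖ ^ (t + e)))) hker).comp
      (Ideal.quotientKerAlgEquivOfSurjective hπ).symm.toAlgHom
  have hf' : ∀ b : intE E, f' (π b) = Ideal.Quotient.mk (spanC (ϖ ^ (t + e))) b := by
    intro b
    show Ideal.Quotient.liftₐ _ _ hker ((Ideal.quotientKerAlgEquivOfSurjective hπ).symm (π b)) = _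
    rw [Ideal.quotientKerAlgEquivOfSurjective_symm_apply]
    rfl
  have hx₁ : (mapPts f' x) ^ p = 1 := by
    rw [← map_pow, hx, map_one]
  obtain ⟨g, -, hgx⟩ := exists_pts_lift hp hϖ hpe het (spanC (ϖ ^ (t + e))) rfl
    (mapPts f' x) hx₁
  refine ⟨g, fun h b hb => ?_⟩
  have h1 : ϖ ^ t ∣ g.ofConv h - b := by
    apply hgx h b
    show _ = f' (x.ofConv h)
    rw [← hb, hf']
  obtain ⟨c, hc⟩ := h1
  rw [hc, MulMemClass.coe_mul, SubmonoidClass.coe_pow, norm_mul, norm_pow]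
  calc ‖(ϖ : PadicAlgCl p)‖ ^ t * ‖(c : PadicAlgCl p)‖
      ≤ ‖(ϖ : PadicAlgCl p)‖ ^ t * 1 :=
        mul_le_mul_of_nonneg_left (norm_le_one_intE E c) (by positivity)
    _ = ‖(ϖ : PadicAlgCl p)‖ ^ t := mul_one _
    _ ≤ ρJ := ht

include hO in
omit [Coalgebra.IsCocomm O H] [Module.Free O H] in
/-- values of points are integral, hence of norm `≤ 1`. -/
theorem norm_point_le_one (g : WithConv (H →ₐ[O] PadicAlgCl p)) (h : H) :
    ‖g.ofConv h‖ ≤ 1 := by
  have h1 : IsIntegral O h := Algebra.IsIntegral.isIntegral h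
  have h2 : IsIntegral O (g.ofConv h) := h1.map g.ofConv
  refine norm_le_one_of_isIntegral (A := O) (fun r => ?_) h2
  obtain ⟨a, ha, hr⟩ := hO r
  rw [hr, norm_algebraMap']
  exact ha

/-- restriction of a point with values in `L` to a point over `𝓞_L`. -/
noncomputable def restrictPt (L : IntermediateField ℚ_[p] (PadicAlgCl p))
    (g : WithConv (H →ₐ[O] PadicAlgCl p)) (hg : ∀ h : H, g.ofConv h ∈ L) :
    letI := algO p hO L
    WithConv (H →ₐ[O] intE L) :=
  letI := algO p hO L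
  toConv
    { toFun := fun h => ⟨g.ofConv h, hg h, norm_point_le_one p hO g h⟩
      map_one' := Subtype.ext (map_one g.ofConv)
      map_mul' := fun x y => Subtype.ext (map_mul g.ofConv x y)
      map_zero' := Subtype.ext (map_zero g.ofConv)
      map_add' := fun x y => Subtype.ext (map_add g.ofConv x y)
      commutes' := fun r => Subtype.ext (g.ofConv.commutes r) }

omit [Coalgebra.IsCocomm O H] [Module.Free O H] in
theorem pointsMap_inclO_restrictPt (L : IntermediateField ℚ_[p] (PadicAlgCl p))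
    (g : WithConv (H →ₐ[O] PadicAlgCl p)) (hg : ∀ h : H, g.ofConv h ∈ L) :
    letI := algO p hO L
    pointsMap (inclO p hO L) (restrictPt p hO L g hg) = g := by
  apply WithConv.ofConv_injective
  apply AlgHom.ext
  intro h
  rfl

omit [HopfAlgebra O H] [Coalgebra.IsCocomm O H] [Module.Free O H] [Module.Finite O H] in
theorem pointsMap_inclO_injective [Bialgebra O H] (F : IntermediateField ℚ_[p] (PadicAlgCl p)) :
    letI := algO p hO F
    Function.Injective (pointsMap (C := H) (inclO p hO F)) := by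
  let _ := algO p hO F
  exact pointsMap_injective _ Subtype.val_injective

include hO in
/-- **(L3): property `(P_m)` for the field of points**, positive thresholds. -/
theorem propertyP_of_points_pos
    [Finite (WithConv (H →ₐ[O] PadicAlgCl p))]
    (htors : ∀ g : WithConv (H →ₐ[O] PadicAlgCl p), g ^ p = 1)
    (L : IntermediateField ℚ_[p] (PadicAlgCl p)) [FiniteDimensional ℚ_[p] L]
    (hL1 : ∀ (g : WithConv (H →ₐ[O] PadicAlgCl p)) (h : H), g.ofConv h ∈ L)
    (hL2 : ∀ E' : IntermediateField ℚ_[p] (PadicAlgCl p),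
      (∀ (g : WithConv (H →ₐ[O] PadicAlgCl p)) (h : H), g.ofConv h ∈ E') → L ≤ E')
    (ρ : ℝ≥0) (hρ0 : 0 < ρ) (hρ : (ρ : ℝ) ^ (p - 1) < ‖(p : PadicAlgCl p)‖ ^ p) :
    PropertyP ℚ_[p] (PadicAlgCl p) L ρ := by
  intro E hE ⟨η⟩
  have hp := (Fact.out : p.Prime)
  have hp1 : 1 ≤ p - 1 := by have := hp.two_le; omega
  have hnp := norm_p_pos p
  have hnp1 := norm_p_lt_one p
  let _ := algO p hO L
  let _ := algO p hO E
  -- the level `ρJ = ρ / ‖p‖`
  let ρJ : ℝ≥0 := ρ / ‖(p : PadicAlgCl p)‖₊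
  have hρJ0 : 0 < ρJ := div_pos hρ0 (by exact_mod_cast hnp)
  have hρJc : (ρJ : ℝ) = (ρ : ℝ) / ‖(p : PadicAlgCl p)‖ := by
    simp [ρJ]
  have hρeq : (ρ : ℝ) = ρJ * ‖(p : PadicAlgCl p)‖ := by
    rw [hρJc, div_mul_cancel₀ _ hnp.ne']
  have hρJ : (ρJ : ℝ) ^ (p - 1) < ‖(p : PadicAlgCl p)‖ := by
    rw [hρJc, div_pow, div_lt_iff₀ (by positivity)]
    calc (ρ : ℝ) ^ (p - 1) < ‖(p : PadicAlgCl p)‖ ^ p := hρ
      _ = ‖(p : PadicAlgCl p)‖ * ‖(p : PadicAlgCl p)‖ ^ (p - 1) := by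
        rw [← pow_succ']
        congr 1
        omega
  have hρJ1 : (ρJ : ℝ) < 1 := by
    by_contra hge
    push Not at hge
    have : (1 : ℝ) ≤ (ρJ : ℝ) ^ (p - 1) := one_le_pow₀ hge
    linarith
  have hρlt : (ρ : ℝ) < ‖(p : PadicAlgCl p)‖ := by
    rw [hρeq]
    calc (ρJ : ℝ) * ‖(p : PadicAlgCl p)‖ < 1 * ‖(p : PadicAlgCl p)‖ :=
          mul_lt_mul_of_pos_right hρJ1 hnp
      _ = _ := one_mul _
  have hpK : ‖((p : ℕ) : ℚ_[p])‖ = ‖(p : PadicAlgCl p)‖ := by
    have h : (p : PadicAlgCl p) = algebraMap ℚ_[p] (PadicAlgCl p) (p : ℚ_[p]) := by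
      rw [map_natCast]
    rw [h, norm_algebraMap']
  -- the abstract core
  obtain ⟨Φ, hΦinj, -⟩ := exists_injective_lift (H := H) (Q := intE E ⧸ toC (idealLE E ρ)) p
    (etaO p hO L E ρ η) (Ideal.Quotient.mkₐ O (toC (idealLE E ρ)))
    (Ideal.Quotient.mkₐ_surjective O _) (idealLE E ρJ)
    (fun y => ‖(y : PadicAlgCl p)‖ ^ (p - 1) < ‖(p : PadicAlgCl p)‖)
    (by
      intro y b hb hbI
      rw [← hpK]
      refine EtaLevel.norm_pow_lt_of_eta_mem L E (c := ((p : ℕ) : ℚ_[p]))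
        (by rw [hpK]; exact hnp1.le) (by rw [hpK]; exact hρlt) (by rw [hpK]; exact hρJ) η y ?_
      have : η y = Ideal.Quotient.mk (idealLE E ρ) b := hb.symm
      rw [this]
      exact Ideal.mem_map_of_mem _ hbI)
    (pts_eq_of_norm_lt p hO L)
    (by
      intro x hx
      obtain ⟨g, hg⟩ := exists_pts_lift_norm p hO E ρ ρJ hρJ0 hρeq hρJ
        (Ideal.Quotient.mkₐ O (toC (idealLE E ρ))) (Ideal.Quotient.mkₐ_surjective O _)
        (fun b hb => by
          rw [Ideal.Quotient.mkₐ_eq_mk, Ideal.Quotient.eq_zero_iff_mem] at hb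
          exact mem_idealLE.mp hb) x hx
      exact ⟨g, fun h b hb => mem_idealLE.mpr (hg h b hb)⟩)
  -- counting
  have hrtors : ∀ g : WithConv (H →ₐ[O] PadicAlgCl p),
      (restrictPt p hO L g (hL1 g)) ^ p = 1 := by
    intro g
    apply pointsMap_inclO_injective p hO L
    rw [map_pow, pointsMap_inclO_restrictPt, htors, map_one]
  let Ψ : WithConv (H →ₐ[O] PadicAlgCl p) → WithConv (H →ₐ[O] PadicAlgCl p) :=
    fun g => pointsMap (inclO p hO E) (Φ ⟨restrictPt p hO L g (hL1 g), hrtors g⟩)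
  have hΨinj : Function.Injective Ψ := by
    intro g g' hgg'
    have h1 := hΦinj (pointsMap_inclO_injective p hO E hgg')
    have h2 := congrArg Subtype.val h1
    have h3 := congrArg (pointsMap (inclO p hO L)) h2
    simpa only [pointsMap_inclO_restrictPt] using h3
  have hΨsurj : Function.Surjective Ψ := Finite.injective_iff_surjective.mp hΨinj
  have hLE : L ≤ E := by
    apply hL2
    intro g h
    obtain ⟨g', rfl⟩ := hΨsurj g
    exact coe_mem_of_intE E _
  exact ⟨IntermediateField.inclusion hLE⟩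

include hO in
/-- **(L3): Fontaine's property `(P_m)` for the field of points**, every `m > 1 + 1/(p-1)`:
`PropertyP ℚ_[p] (PadicAlgCl p) L ρ` for every `ρ` with `ρ ^ (p-1) < ‖p‖ ^ p`. -/
theorem propertyP_of_points
    [Finite (WithConv (H →ₐ[O] PadicAlgCl p))]
    (htors : ∀ g : WithConv (H →ₐ[O] PadicAlgCl p), g ^ p = 1)
    (L : IntermediateField ℚ_[p] (PadicAlgCl p)) [FiniteDimensional ℚ_[p] L]
    (hL1 : ∀ (g : WithConv (H →ₐ[O] PadicAlgCl p)) (h : H), g.ofConv h ∈ L)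
    (hL2 : ∀ E' : IntermediateField ℚ_[p] (PadicAlgCl p),
      (∀ (g : WithConv (H →ₐ[O] PadicAlgCl p)) (h : H), g.ofConv h ∈ E') → L ≤ E')
    (ρ : ℝ≥0) (hρ : (ρ : ℝ) ^ (p - 1) < ‖(p : PadicAlgCl p)‖ ^ p) :
    PropertyP ℚ_[p] (PadicAlgCl p) L ρ := by
  have hp := (Fact.out : p.Prime)
  have hnp := norm_p_pos p
  have hnp1 := norm_p_lt_one p
  -- a positive threshold `ρ₁ ≥ ρ` still below the bound
  let ρ₁ : ℝ≥0 := max ρ (‖(p : PadicAlgCl p)‖₊ ^ 3)
  have hρ₁0 : 0 < ρ₁ := lt_of_lt_of_le (pow_pos (by exact_mod_cast hnp) 3) (le_max_right _ _)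
  have hρ₁ : (ρ₁ : ℝ) ^ (p - 1) < ‖(p : PadicAlgCl p)‖ ^ p := by
    have h3 : (‖(p : PadicAlgCl p)‖ ^ 3) ^ (p - 1) < ‖(p : PadicAlgCl p)‖ ^ p := by
      rw [← pow_mul]
      apply pow_lt_pow_right_of_lt_one₀ hnp hnp1
      have := hp.two_le
      omega
    rcases le_total ρ (‖(p : PadicAlgCl p)‖₊ ^ 3) with h | h
    · have : ρ₁ = ‖(p : PadicAlgCl p)‖₊ ^ 3 := max_eq_right h
      rw [this]
      exact_mod_cast h3
    · have : ρ₁ = ρ := max_eq_left h
      rw [this]
      exact hρ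
  exact (propertyP_of_points_pos p hO htors L hL1 hL2 ρ₁ hρ₁0 hρ₁).mono (le_max_left _ _)

end Assembly

/-! ### Part 4: the field of points `ℚ_p(Γ(PadicAlgCl p))` -/

section PointsField

open Fermat.Agent.Lib.Ram.PropertyPm Fermat.Agent.S56x.Fontaine.PointsField
  Fermat.Agent.S56x.Fontaine.PointsRational

variable (p : ℕ) [Fact p.Prime]

/-- **Fontaine's `(P_m)` for `L' = ℚ_p(Γ(ℚ̄_p))`**, `m > 1 + 1/(p-1)`: `H` a finite free
commutative cocommutative Hopf algebra over `O` (`O → ℤ_p`), all of whose `PadicAlgCl p`-points are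
killed by `p`. -/
theorem propertyP_pointsField {O H : Type*} [CommRing O] [Algebra O ℚ_[p]]
    (hO' : ∀ r : O, ‖algebraMap O ℚ_[p] r‖ ≤ 1)
    [CommRing H] [HopfAlgebra O H] [Coalgebra.IsCocomm O H] [Module.Free O H] [Module.Finite O H]
    (htors : ∀ g : WithConv (H →ₐ[O] PadicAlgCl p), g ^ p = 1)
    (ρ : ℝ≥0) (hρ : (ρ : ℝ) ^ (p - 1) < ‖(p : PadicAlgCl p)‖ ^ p) :
    PropertyP ℚ_[p] (PadicAlgCl p) (pointsField O ℚ_[p] (PadicAlgCl p) H) ρ := by
  have hO : ∀ r : O, ∃ a : ℚ_[p], ‖a‖ ≤ 1 ∧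
      algebraMap O (PadicAlgCl p) r = algebraMap ℚ_[p] (PadicAlgCl p) a :=
    fun r => ⟨algebraMap O ℚ_[p] r, hO' r,
      IsScalarTower.algebraMap_apply O ℚ_[p] (PadicAlgCl p) r⟩
  have hfin0 : Finite (H →ₐ[O] PadicAlgCl p) := finite_points
  have hfd : FiniteDimensional ℚ_[p] (pointsField O ℚ_[p] (PadicAlgCl p) H) :=
    finiteDimensional_pointsField
  have hfin : Finite (WithConv (H →ₐ[O] PadicAlgCl p)) :=
    Finite.of_injective WithConv.ofConv WithConv.ofConv_injective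
  refine propertyP_of_points p hO htors (pointsField O ℚ_[p] (PadicAlgCl p) H)
    (fun g h => apply_mem_pointsField (K := ℚ_[p]) g.ofConv h) ?_ ρ hρ
  intro E' hE'
  unfold pointsField
  rw [IntermediateField.adjoin_le_iff]
  rintro y ⟨f, h, rfl⟩
  exact hE' (toConv f) h

/-- The same for the Prelude base ring `ℤ_(p) = GaloisRep.ratLocalizedAt p` (the shape produced by
`Fontaine/Entry.exists_local_points` and `Fontaine/LocalPoints`). -/
theorem propertyP_pointsField_ratLocalizedAt {H : Type*} [CommRing H]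
    [HopfAlgebra (GaloisRep.ratLocalizedAt p) H] [Coalgebra.IsCocomm (GaloisRep.ratLocalizedAt p) H]
    [Module.Free (GaloisRep.ratLocalizedAt p) H] [Module.Finite (GaloisRep.ratLocalizedAt p) H]
    (htors : ∀ g : WithConv (H →ₐ[GaloisRep.ratLocalizedAt p] PadicAlgCl p), g ^ p = 1)
    (ρ : ℝ≥0) (hρ : (ρ : ℝ) ^ (p - 1) < ‖(p : PadicAlgCl p)‖ ^ p) :
    PropertyP ℚ_[p] (PadicAlgCl p)
      (pointsField (GaloisRep.ratLocalizedAt p) ℚ_[p] (PadicAlgCl p) H) ρ := by
  refine propertyP_pointsField p (fun r => ?_) htors ρ hρ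
  have h : algebraMap (GaloisRep.ratLocalizedAt p) ℚ_[p] r = ((r : ℚ) : ℚ_[p]) := rfl
  rw [h]
  exact Padic.norm_rat_le_one (LocalPoints.not_dvd_den p r)

end PointsField

end Fermat.Agent.S56x.Fontaine.PmOfLift
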