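/-
P-S56, block (A) LOCAL FLAT, file (F1) (helper17): **Fontaine's Theorem A** for a Galois
representation which is flat at `p`, in the shape consumed by `Local/FlatBdd`, `Local/BddAlg`:

for `ρ : GaloisRepAdic A` flat at `p` and a finite-index ideal `I ∋ p`, the finite level `V/IV` is
cut out (as a module over the local Galois group `Gal(PadicAlgCl p/ℚ_p)`) by a BOUNDED field
`L` (`BddDef.IsBddField p L`: finite Galois over `ℚ_p` with upper ramification groups trivial above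
`1/(p-1)`, Serre's numbering).

The proof is pure glue of
* `Fontaine/PointsField.exists_local_hopf_pointsField_of_isFlatAt` (helper32): `V/IV` = points of a
  finite free commutative cocommutative Hopf algebra `Hp/ℤ_p`, `L := ℚ_p(Γ(PadicAlgCl p))`;
* `PmOfLiftStatement p` = the export of `Fontaine/PmOfLift` (helper30; (L1),(L2),(L3) of blueprint
  note 1366 on top of `Fontaine/LiftPts`, `Lib/Ram/IntEPadic`): property `(P_m)` for all
  `m > 1 + 1/(p-1)`;
* `FontaineBoundStatement p` = the export of `Lib/Ram/FontaineBound` (helper6; Fontaine's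
  Prop. 1.5 (ii), sharp, in Serre's numbering, on top of `Lib/Ram/SharpSerreFinal`).
The two statements are hypotheses (`Prop`s) here, to be discharged by those files.
-/
import Mathlib
import Fermat.Agent.Lib.Ram.PropertyPm
import Fermat.Agent.S56x.Local.BddDef
import Fermat.Agent.S56x.Fontaine.LocalPoints
import Fermat.Agent.S56x.Fontaine.PointsField

set_option autoImplicit false

open IntermediateField WithConv
open scoped NNReal
open Fermat.Agent.Lib.Ram Fermat.Agent.Lib.Ram.PropertyPm Fermat.Agent.S56x.Local.BddDef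
  Fermat.Agent.S56x.Fontaine.PointsField Fermat.Agent.S56x.Fontaine.LocalPoints

namespace Fermat.Agent.S56x.Fontaine.ThmA

variable (p : ℕ) [Fact p.Prime]

/-- **(L3)**, the export of `Fontaine/PmOfLift`: for a finite free commutative cocommutative Hopf
algebra `Hp` over `ℤ_p` all of whose `PadicAlgCl p`-points are killed by `p`, the field generated by
the points has Fontaine's property `(P_m)` for every `m > 1 + 1/(p-1)`
(`ρ = p^(-m)`: `0 < ρ`, `ρ^(p-1) < p^(-p)`). -/
def PmOfLiftStatement : Prop :=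
  ∀ (Hp : Type) [CommRing Hp] [HopfAlgebra ℤ_[p] Hp] [Module.Finite ℤ_[p] Hp]
    [Module.Free ℤ_[p] Hp] [Coalgebra.IsCocomm ℤ_[p] Hp],
    (∀ f : WithConv (Hp →ₐ[ℤ_[p]] PadicAlgCl p), f ^ p = 1) →
    ∀ ρ : ℝ≥0, 0 < ρ → (ρ : ℝ) ^ (p - 1) < ((p : ℝ)⁻¹) ^ p →
      PropertyP ℚ_[p] (PadicAlgCl p) (pointsField ℤ_[p] ℚ_[p] (PadicAlgCl p) Hp) ρ

/-- **Fontaine's Prop. 1.5 (ii)**, sharp, Serre's numbering, the export of `Lib/Ram/FontaineBound`:
`(P_m)` for all `m > 1 + 1/(p-1)` forces the upper ramification groups above `1/(p-1)` to vanish. -/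
def FontaineBoundStatement : Prop :=
  ∀ (L : IntermediateField ℚ_[p] (PadicAlgCl p)) [FiniteDimensional ℚ_[p] L] [IsGalois ℚ_[p] L],
    (∀ ρ : ℝ≥0, (ρ : ℝ) ^ (p - 1) < ((p : ℝ)⁻¹) ^ p → PropertyP ℚ_[p] (PadicAlgCl p) L ρ) →
    (ramNum p L).UpperBounded (1 / ((p : ℝ) - 1))

variable {p}

/-- `PropertyP` for `ρ = 0` follows from `PropertyP` for one positive `ρ`. -/
theorem propertyP_of_pos (L : IntermediateField ℚ_[p] (PadicAlgCl p))
    (h : ∀ ρ : ℝ≥0, 0 < ρ → (ρ : ℝ) ^ (p - 1) < ((p : ℝ)⁻¹) ^ p →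
      PropertyP ℚ_[p] (PadicAlgCl p) L ρ) :
    ∀ ρ : ℝ≥0, (ρ : ℝ) ^ (p - 1) < ((p : ℝ)⁻¹) ^ p → PropertyP ℚ_[p] (PadicAlgCl p) L ρ := by
  intro ρ hρ
  by_cases hρ0 : 0 < ρ
  · exact h ρ hρ0 hρ
  · have hρz : ρ = 0 := le_antisymm (not_lt.mp hρ0) zero_le
    have hp := (Fact.out : p.Prime)
    have hp1 : (1 : ℝ) < p := by exact_mod_cast hp.one_lt
    have hp0 : (0 : ℝ) < p := by linarith
    -- the auxiliary radius `p^(-3)`
    let r : ℝ≥0 := ⟨((p : ℝ)⁻¹) ^ 3, by positivity⟩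
    have hr0 : 0 < r := by
      change (0 : ℝ) < ((p : ℝ)⁻¹) ^ 3
      positivity
    have hr : (r : ℝ) ^ (p - 1) < ((p : ℝ)⁻¹) ^ p := by
      change (((p : ℝ)⁻¹) ^ 3) ^ (p - 1) < ((p : ℝ)⁻¹) ^ p
      rw [← pow_mul]
      apply pow_lt_pow_right_of_lt_one₀ (by positivity) (inv_lt_one_of_one_lt₀ hp1)
      have := hp.two_le
      omega
    exact (h r hr0 hr).mono (by rw [hρz]; exact zero_le)

variable {A : Type} [CommRing A] [IsLocalRing A]

/-- **Fontaine's Theorem A** (for `e = 1`, `n = 1`), hypothesis-style: if `ρ` is flat at `p` and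
`I ∋ p` has finite index, the action of the local Galois group on `V/IV` factors through
`Gal(L/ℚ_p)` for a bounded field `L` (upper ramification `≤ 1/(p-1)`). -/
theorem thmA (hPm : PmOfLiftStatement p) (hFB : FontaineBoundStatement p)
    (ρ : GaloisRepAdic A) (hflat : ρ.IsFlatAt p) (I : Ideal A) (hI : Finite (A ⧸ I))
    (hpI : ((p : ℕ) : A) ∈ I) :
    ∃ L : IntermediateField ℚ_[p] (PadicAlgCl p), IsBddField p L ∧
      ∀ τ : PadicAlgCl p ≃ₐ[ℚ_[p]] PadicAlgCl p, τ ∈ L.fixingSubgroup →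
        ∀ x, ρ.levelAction I (localGaloisToGlobal p τ) x = x := by
  obtain ⟨Hp, i1, i2, hfin, hfree, hco, e, hadd, -, hfix⟩ :=
    exists_local_hopf_pointsField_of_isFlatAt ρ hflat I hI
  -- `V/IV` is killed by `p`
  have hkillV : ∀ x : ρ.V ⧸ (I • (⊤ : Submodule A ρ.V)), p • x = 0 := by
    intro x
    obtain ⟨v, rfl⟩ := Submodule.Quotient.mk_surjective _ x
    rw [← Submodule.Quotient.mk_smul, Submodule.Quotient.mk_eq_zero]
    have : p • v = ((p : ℕ) : A) • v := by rw [Nat.cast_smul_eq_nsmul]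
    rw [this]
    exact Submodule.smul_mem_smul hpI Submodule.mem_top
  have hkill : ∀ f : WithConv (Hp →ₐ[ℤ_[p]] PadicAlgCl p), f ^ p = 1 :=
    pow_eq_one_of_additive_equiv e hadd p hkillV
  refine ⟨pointsField ℤ_[p] ℚ_[p] (PadicAlgCl p) Hp, ⟨inferInstance, inferInstance, ?_⟩, ?_⟩
  · exact hFB _ (propertyP_of_pos _ (hPm Hp hkill))
  · intro τ hτ x
    exact (hfix τ).2 hτ x

/-- **Theorem A for finite coefficient rings of characteristic `p`** (e.g. `A = k[ε]`, `I = ⊥`):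
the restriction of a flat `ρ` to the local Galois group factors through `Gal(L/ℚ_p)` for a bounded
field `L`. -/
theorem thmA_finite (hPm : PmOfLiftStatement p) (hFB : FontaineBoundStatement p)
    (ρ : GaloisRepAdic A) (hflat : ρ.IsFlatAt p) [Finite A] (hpA : ((p : ℕ) : A) = 0) :
    ∃ L : IntermediateField ℚ_[p] (PadicAlgCl p), IsBddField p L ∧
      ∀ τ : PadicAlgCl p ≃ₐ[ℚ_[p]] PadicAlgCl p, τ ∈ L.fixingSubgroup →
        ρ.ρ (localGaloisToGlobal p τ) = 1 := by
  have hI : Finite (A ⧸ (⊥ : Ideal A)) :=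
    Finite.of_surjective _ (Ideal.Quotient.mk_surjective (I := (⊥ : Ideal A)))
  obtain ⟨L, hL, htriv⟩ := thmA hPm hFB ρ hflat ⊥ hI (by rw [hpA]; exact Submodule.zero_mem _)
  refine ⟨L, hL, fun τ hτ => ?_⟩
  apply LinearMap.ext
  intro v
  have h1 := htriv τ hτ (Submodule.Quotient.mk v)
  unfold GaloisRepAdic.levelAction at h1
  rw [Submodule.mapQ_apply, Submodule.Quotient.eq] at h1
  have hbot : ((⊥ : Ideal A) • (⊤ : Submodule A ρ.V)) = ⊥ := Submodule.bot_smul _
  rw [hbot, Submodule.mem_bot, sub_eq_zero] at h1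
  exact h1

end Fermat.Agent.S56x.Fontaine.ThmA
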