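/-
P-S56, block (A) LOCAL FLAT (helper17): **Fontaine's Theorem A, UNCONDITIONAL**.

`Fontaine/ThmA.lean` proves Theorem A from the two statements `PmOfLiftStatement p` and
`FontaineBoundStatement p`.  They are discharged here:
* `pmOfLiftStatement`      from `Fontaine/PmOfLift.propertyP_pointsField` (helper30; (L1)-(L3));
* `fontaineBoundStatement` from `Lib/Ram/FontaineBound.upperBounded_of_forall_propertyP`
  (helper6; Fontaine's Prop. 1.5 (ii), sharp) in the model `(ℤ_[p], OE p L)` of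
  `Local/PadicFinite` (helper83).
Hence `thmA`, `thmA_finite`: for `ρ` flat at `p`, the finite level `V/IV` (`p ∈ I`) is cut out by a
bounded field `L` (`BddDef.IsBddField p L`).
-/
import Mathlib
import Fermat.Agent.S56x.Fontaine.ThmA
import Fermat.Agent.S56x.Fontaine.PmOfLift
import Fermat.Agent.Lib.Ram.IntEPadic
import Fermat.Agent.Lib.Ram.FontaineBound

set_option autoImplicit false

open IntermediateField WithConv IsLocalRing
open scoped NNReal
open Fermat.Agent.Lib.Ram Fermat.Agent.Lib.Ram.PropertyPm Fermat.Agent.S56x.Local.BddDef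
  Fermat.Agent.S56x.Fontaine.PointsField Fermat.Agent.S56x.Local.PadicFinite

namespace Fermat.Agent.S56x.Fontaine.ThmAFinal

open Fermat.Agent.S56x.Fontaine.ThmA

variable (p : ℕ) [Fact p.Prime]

/-- `PmOfLiftStatement` is discharged by `Fontaine/PmOfLift` (helper30). -/
theorem pmOfLiftStatement : PmOfLiftStatement p := by
  intro Hp _ _ _ _ _ hkill ρ _ hρ
  refine PmOfLift.propertyP_pointsField p (O := ℤ_[p]) (fun r => r.2) hkill ρ ?_
  rw [Fermat.Agent.Lib.Ram.IntEPadic.norm_natCast_p]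
  exact hρ

/-- `FontaineBoundStatement` is discharged by `Lib/Ram/FontaineBound` (helper6) in the model
`(ℤ_[p], OE p L)` of `Local/PadicFinite` (helper83). -/
theorem fontaineBoundStatement : FontaineBoundStatement p := by
  intro L _ _ h
  have hp := (Fact.out : p.Prime)
  have hp1 : (1 : ℝ) < p := by exact_mod_cast hp.one_lt
  have hpm : (0 : ℝ) < (p : ℝ) - 1 := by linarith
  have hA : ∀ k : ℚ_[p], ‖k‖ ≤ 1 ↔ k ∈ (algebraMap ℤ_[p] ℚ_[p]).range := by
    intro k
    constructor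
    · intro hk
      exact ⟨⟨k, hk⟩, rfl⟩
    · rintro ⟨a, rfl⟩
      exact a.2
  have hnorm : ‖((p : ℕ) : PadicAlgCl p)‖ < 1 := by
    rw [Fermat.Agent.Lib.Ram.IntEPadic.norm_natCast_p]
    exact inv_lt_one_of_one_lt₀ hp1
  have hπ : Irreducible ((p : ℕ) : ℤ_[p]) := PadicInt.irreducible_p
  unfold ramNum
  refine FontaineBound.upperBounded_of_forall_propertyP (A := ℤ_[p]) (B := OE p L) hA p hnorm hπ
    (v₀ := 1 / ((p : ℝ) - 1)) (by have : (0 : ℝ) < 1 / ((p : ℝ) - 1) := by positivity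
                                  linarith) ?_
  intro ρ hρ
  apply h
  have hnp : ‖algebraMap ℤ_[p] ℚ_[p] ((p : ℕ) : ℤ_[p])‖ = (p : ℝ)⁻¹ := by
    have : algebraMap ℤ_[p] ℚ_[p] ((p : ℕ) : ℤ_[p]) = ((p : ℕ) : ℚ_[p]) := by simp
    rw [this, Padic.norm_p]
  rw [hnp] at hρ
  have hpinv0 : (0 : ℝ) < (p : ℝ)⁻¹ := by positivity
  have hpn : p - 1 ≠ 0 := by have := hp.two_le; omega
  have h1 : (ρ : ℝ) ^ (p - 1) < (((p : ℝ)⁻¹) ^ (1 / ((p : ℝ) - 1) + 1)) ^ (p - 1) :=
    pow_lt_pow_left₀ hρ ρ.2 hpn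
  have h2 : (((p : ℝ)⁻¹) ^ (1 / ((p : ℝ) - 1) + 1)) ^ (p - 1) = ((p : ℝ)⁻¹) ^ p := by
    rw [← Real.rpow_natCast, ← Real.rpow_mul hpinv0.le, ← Real.rpow_natCast]
    congr 1
    have hcast : ((p - 1 : ℕ) : ℝ) = (p : ℝ) - 1 := by
      rw [Nat.cast_sub hp.one_le, Nat.cast_one]
    rw [hcast]
    field_simp
    ring
  rw [h2] at h1
  exact h1

variable {p}
variable {A : Type} [CommRing A] [IsLocalRing A]

/-- **Fontaine's Theorem A** (`e = 1`, `n = 1`), unconditional: if `ρ` is flat at `p` and `I ∋ p`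
has finite index, the action of the local Galois group on `V/IV` factors through `Gal(L/ℚ_p)` for
a bounded field `L` (finite Galois, upper ramification groups trivial above `1/(p-1)`). -/
theorem thmA (ρ : GaloisRepAdic A) (hflat : ρ.IsFlatAt p) (I : Ideal A) (hI : Finite (A ⧸ I))
    (hpI : ((p : ℕ) : A) ∈ I) :
    ∃ L : IntermediateField ℚ_[p] (PadicAlgCl p), IsBddField p L ∧
      ∀ τ : PadicAlgCl p ≃ₐ[ℚ_[p]] PadicAlgCl p, τ ∈ L.fixingSubgroup →
        ∀ x, ρ.levelAction I (localGaloisToGlobal p τ) x = x :=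
  ThmA.thmA (pmOfLiftStatement p) (fontaineBoundStatement p) ρ hflat I hI hpI

/-- **Theorem A for finite coefficient rings of characteristic `p`** (e.g. `A = k[ε]`):
the restriction of a flat `ρ` to the local Galois group factors through `Gal(L/ℚ_p)` for a bounded
field `L`. -/
theorem thmA_finite (ρ : GaloisRepAdic A) (hflat : ρ.IsFlatAt p) [Finite A]
    (hpA : ((p : ℕ) : A) = 0) :
    ∃ L : IntermediateField ℚ_[p] (PadicAlgCl p), IsBddField p L ∧
      ∀ τ : PadicAlgCl p ≃ₐ[ℚ_[p]] PadicAlgCl p, τ ∈ L.fixingSubgroup →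
        ρ.ρ (localGaloisToGlobal p τ) = 1 :=
  ThmA.thmA_finite (pmOfLiftStatement p) (fontaineBoundStatement p) ρ hflat hpA

/-- every matrix coefficient / value of a flat `ρ` over a finite ring of characteristic `p`,
restricted to the local Galois group, is a bounded function (`BddDef.IsBddFun`). -/
theorem isBddFun_of_isFlatAt (ρ : GaloisRepAdic A) (hflat : ρ.IsFlatAt p) [Finite A]
    (hpA : ((p : ℕ) : A) = 0) {X : Type*} (φ : Module.End A ρ.V → X) :
    IsBddFun p (fun τ : GQp p => φ (ρ.ρ (localGaloisToGlobal p τ))) := by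
  obtain ⟨L, hL, htriv⟩ := thmA_finite ρ hflat hpA
  refine ⟨L, hL, fun g s hs => ?_⟩
  change φ (ρ.ρ (localGaloisToGlobal p (g * s))) = φ (ρ.ρ (localGaloisToGlobal p g))
  rw [map_mul, map_mul, htriv s hs, mul_one]

end Fermat.Agent.S56x.Fontaine.ThmAFinal
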