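import Mathlib

/-!
helper9 (P-S56, block (A) LOCAL FLAT; Mathlib only).  **Cartier duality without the dual Hopf
algebra**: for a commutative bialgebra `H` over `R` and a commutative `R`-algebra `S`, Mathlib's
convolution ring `WithConv (H →ₗ[R] S)` plays the role of `H^D ⊗ S`, and the `S`-points
`H →ₐ[R] S` are exactly its *group-like* elements.

* `mulPull : C_S →+* C2_S` (= comultiplication `Δ` of `H^D ⊗ S`), precomposition with `H ⊗ H → H`;
* `box f g : a ⊗ b ↦ f a * g b`, `boxL f = box f 1` (= `z ↦ z ⊗ 1`), `boxR f = box 1 f`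
  (= `z ↦ 1 ⊗ z`) ring homs, `box f g = boxL f * boxR g`;
* `evOne : C_S →+* S` (= counit of `H^D ⊗ S`);
* `IsGroupLike f ↔ mulPull f = box f f ∧ f 1 = 1`, `IsGroupLike.toAlgHom`,
  `isGroupLike_of_algHom`;
* `pushRing g : C_S →+* C_S'` for `g : S →ₐ[R] S'`;
* for `H` finite free over `R`: `C_S` is finite free over `S`, and divisibility by a scalar is
  checked pointwise (`algebraMap_dvd_iff`).
-/

set_option autoImplicit false

open TensorProduct WithConv Coalgebra

namespace Fermat.Agent.S56x.Fontaine.ConvRing

section Ring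

variable {R : Type*} [CommRing R] {H : Type*} [CommRing H] [Bialgebra R H]
variable {S : Type*} [CommRing S] [Algebra R S]

/-- `μ^*` : precomposition with the multiplication `H ⊗ H → H` (a coalgebra map), as a ring hom
of convolution rings. -/
noncomputable def mulPull : WithConv (H →ₗ[R] S) →+* WithConv (H ⊗[R] H →ₗ[R] S) where
  toFun f := toConv (f.ofConv ∘ₗ LinearMap.mul' R H)
  map_one' := by
    apply WithConv.ext
    ext a b
    simp [LinearMap.convOne_def, mul_comm]
  map_mul' f g := by
    have := LinearMap.convMul_comp_coalgHom_distrib f g (Bialgebra.mulCoalgHom R H)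
    apply WithConv.ext
    simpa using this
  map_zero' := by apply WithConv.ext; simp
  map_add' f g := by apply WithConv.ext; simp [LinearMap.add_comp]

@[simp] lemma mulPull_apply_tmul (f : WithConv (H →ₗ[R] S)) (a b : H) :
    mulPull f (a ⊗ₜ[R] b) = f (a * b) := rfl

/-- `f ⊠ g : a ⊗ b ↦ f a * g b`. -/
noncomputable def box (f g : WithConv (H →ₗ[R] S)) : WithConv (H ⊗[R] H →ₗ[R] S) :=
  toConv (LinearMap.mul' R S ∘ₗ TensorProduct.map f.ofConv g.ofConv)

@[simp] lemma box_apply_tmul (f g : WithConv (H →ₗ[R] S)) (a b : H) :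
    box f g (a ⊗ₜ[R] b) = f a * g b := rfl

lemma box_one : box (1 : WithConv (H →ₗ[R] S)) 1 = 1 := by
  apply WithConv.ext
  ext a b
  simp [box, LinearMap.convOne_def, mul_comm]

lemma box_mul (f g f' g' : WithConv (H →ₗ[R] S)) :
    box f g * box f' g' = box (f * f') (g * g') := by
  have h1 := TensorProduct.map_convMul_map (R := R) (f := f) (h := f') (g := g) (k := g')
  have h2 := LinearMap.algHom_comp_convMul_distrib (R := R) (C := H ⊗[R] H)
    (Algebra.TensorProduct.lmul' R (S := S))
    (toConv (TensorProduct.map f.ofConv g.ofConv)) (toConv (TensorProduct.map f'.ofConv g'.ofConv))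
  rw [h1] at h2
  apply WithConv.ext
  simpa [box, Algebra.TensorProduct.lmul'_toLinearMap] using h2.symm

lemma box_add_left (f f' g : WithConv (H →ₗ[R] S)) : box (f + f') g = box f g + box f' g := by
  apply WithConv.ext
  ext a b
  simp [box, add_mul]

lemma box_add_right (f g g' : WithConv (H →ₗ[R] S)) : box f (g + g') = box f g + box f g' := by
  apply WithConv.ext
  ext a b
  simp [box, mul_add]

lemma box_zero_left (g : WithConv (H →ₗ[R] S)) : box 0 g = 0 := by
  apply WithConv.ext
  ext a b
  simp [box]

lemma box_zero_right (f : WithConv (H →ₗ[R] S)) : box f 0 = 0 := by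
  apply WithConv.ext
  ext a b
  simp [box]

/-- the diagonal `f ↦ f ⊠ f` is multiplicative. -/
lemma box_self_mul (f g : WithConv (H →ₗ[R] S)) : box (f * g) (f * g) = box f f * box g g :=
  (box_mul f f g g).symm

lemma box_self_pow (f : WithConv (H →ₗ[R] S)) (n : ℕ) : box (f ^ n) (f ^ n) = box f f ^ n := by
  induction n with
  | zero => simp [box_one]
  | succ n ih => rw [pow_succ, pow_succ, box_self_mul, ih]

/-- `z ↦ z ⊗ 1`. -/
noncomputable def boxL : WithConv (H →ₗ[R] S) →+* WithConv (H ⊗[R] H →ₗ[R] S) where
  toFun f := box f 1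
  map_one' := box_one
  map_mul' f g := by rw [box_mul, mul_one]
  map_zero' := box_zero_left 1
  map_add' f g := box_add_left f g 1

/-- `z ↦ 1 ⊗ z`. -/
noncomputable def boxR : WithConv (H →ₗ[R] S) →+* WithConv (H ⊗[R] H →ₗ[R] S) where
  toFun f := box 1 f
  map_one' := box_one
  map_mul' f g := by rw [box_mul, mul_one]
  map_zero' := box_zero_right 1
  map_add' f g := box_add_right 1 f g

lemma boxL_mul_boxR (f g : WithConv (H →ₗ[R] S)) : boxL f * boxR g = box f g := by
  change box f 1 * box 1 g = box f g
  rw [box_mul, mul_one, one_mul]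

/-- evaluation at `1 : H` is a ring hom (the counit of `H^D ⊗ S`). -/
noncomputable def evOne : WithConv (H →ₗ[R] S) →+* S where
  toFun f := f 1
  map_one' := by simp
  map_mul' f g := by simp [Algebra.TensorProduct.one_def]
  map_zero' := rfl
  map_add' f g := rfl

@[simp] lemma evOne_apply (f : WithConv (H →ₗ[R] S)) : evOne f = f 1 := rfl

/-- group-like elements of the convolution ring = points. -/
def IsGroupLike (f : WithConv (H →ₗ[R] S)) : Prop := mulPull f = box f f ∧ f 1 = 1

/-- a group-like element is an algebra hom. -/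
noncomputable def IsGroupLike.toAlgHom {f : WithConv (H →ₗ[R] S)} (hf : IsGroupLike f) :
    H →ₐ[R] S :=
  AlgHom.ofLinearMap f.ofConv hf.2 (fun a b => by
    have := congrArg (fun F : WithConv (H ⊗[R] H →ₗ[R] S) => F (a ⊗ₜ[R] b)) hf.1
    simpa using this)

@[simp] lemma IsGroupLike.toAlgHom_apply {f : WithConv (H →ₗ[R] S)} (hf : IsGroupLike f) (a : H) :
    hf.toAlgHom a = f a := rfl

lemma IsGroupLike.toConv_toAlgHom {f : WithConv (H →ₗ[R] S)} (hf : IsGroupLike f) :
    toConv hf.toAlgHom.toLinearMap = f := rfl

/-- an algebra hom is group-like. -/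
lemma isGroupLike_of_algHom (x : H →ₐ[R] S) : IsGroupLike (toConv x.toLinearMap) := by
  refine ⟨?_, by simp⟩
  apply WithConv.ext
  ext a b
  simp

lemma IsGroupLike.one : IsGroupLike (1 : WithConv (H →ₗ[R] S)) := by
  refine ⟨by rw [map_one, box_one], by simp⟩

lemma IsGroupLike.mul {f g : WithConv (H →ₗ[R] S)} (hf : IsGroupLike f) (hg : IsGroupLike g) :
    IsGroupLike (f * g) := by
  refine ⟨by rw [map_mul, hf.1, hg.1, box_self_mul], ?_⟩
  have := map_mul (evOne (R := R) (H := H) (S := S)) f g
  simp only [evOne_apply] at this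
  rw [this, hf.2, hg.2, mul_one]

lemma IsGroupLike.pow {f : WithConv (H →ₗ[R] S)} (hf : IsGroupLike f) (n : ℕ) :
    IsGroupLike (f ^ n) := by
  induction n with
  | zero => simpa using IsGroupLike.one
  | succ n ih => rw [pow_succ]; exact ih.mul hf

/-- convolution powers of an algebra hom, computed in the monoid `WithConv (H →ₐ[R] S)` or in the
ring `WithConv (H →ₗ[R] S)`, agree. -/
lemma toConv_algHom_pow [IsCocomm R H] (x : H →ₐ[R] S) (n : ℕ) :
    toConv ((toConv x) ^ n).ofConv.toLinearMap = (toConv x.toLinearMap) ^ n :=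
  AlgHom.toLinearMap_convPow (toConv x) n

end Ring

section Push

variable {R : Type*} [CommRing R] {H : Type*} [CommRing H] [Bialgebra R H]
variable {S S' : Type*} [CommRing S] [Algebra R S] [CommRing S'] [Algebra R S']

/-- postcomposition with an algebra hom `S → S'`, as a ring hom of convolution rings. -/
noncomputable def pushRing (g : S →ₐ[R] S') : WithConv (H →ₗ[R] S) →+* WithConv (H →ₗ[R] S') where
  toFun f := toConv (g.toLinearMap ∘ₗ f.ofConv)
  map_one' := by
    apply WithConv.ext
    ext a
    simp [LinearMap.convOne_def]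
  map_mul' f f' := by
    have := LinearMap.algHom_comp_convMul_distrib (R := R) (C := H) g f f'
    apply WithConv.ext
    simpa using this
  map_zero' := by apply WithConv.ext; simp
  map_add' f f' := by apply WithConv.ext; simp [LinearMap.comp_add]

@[simp] lemma pushRing_apply (g : S →ₐ[R] S') (f : WithConv (H →ₗ[R] S)) (a : H) :
    pushRing g f a = g (f a) := rfl

lemma pushRing_toConv_algHom (g : S →ₐ[R] S') (x : H →ₐ[R] S) :
    pushRing g (toConv x.toLinearMap) = toConv (g.comp x).toLinearMap := rfl

end Push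

section Scalar

variable {R : Type*} [CommRing R] {M : Type*} [AddCommGroup M] [Module R M] [Coalgebra R M]
variable {S : Type*} [CommRing S] [Algebra R S]

lemma algebraMap_mul_apply (s : S) (f : WithConv (M →ₗ[R] S)) (a : M) :
    (algebraMap S (WithConv (M →ₗ[R] S)) s * f) a = s * f a := by
  rw [← Algebra.smul_def]
  rfl

/-- finite free modules: `C_S` is finite free over `S`. -/
instance instFreeConv [Module.Free R M] [Module.Finite R M] :
    Module.Free S (WithConv (M →ₗ[R] S)) :=
  Module.Free.of_equiv (WithConv.linearEquiv S (M →ₗ[R] S)).symm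

instance instFiniteConv [Module.Free R M] [Module.Finite R M] :
    Module.Finite S (WithConv (M →ₗ[R] S)) :=
  Module.Finite.equiv (WithConv.linearEquiv S (M →ₗ[R] S)).symm

/-- divisibility by a scalar in the convolution ring is pointwise divisibility (`M` free). -/
theorem algebraMap_dvd_iff [Module.Free R M] (s : S) (f : WithConv (M →ₗ[R] S)) :
    algebraMap S (WithConv (M →ₗ[R] S)) s ∣ f ↔ ∀ a : M, s ∣ f a := by
  constructor
  · rintro ⟨g, rfl⟩ a
    exact ⟨g a, algebraMap_mul_apply s g a⟩
  · intro h
    classical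
    let b := Module.Free.chooseBasis R M
    choose c hc using fun i => h (b i)
    refine ⟨toConv (b.constr S c), ?_⟩
    apply WithConv.ext
    refine b.ext fun i => ?_
    have h1 : (algebraMap S (WithConv (M →ₗ[R] S)) s * toConv (b.constr S c)) (b i)
        = s * (toConv (b.constr S c)) (b i) := algebraMap_mul_apply s _ (b i)
    have h2 : (toConv (b.constr S c) : WithConv (M →ₗ[R] S)) (b i) = c i := by
      change (b.constr S c) (b i) = c i
      exact b.constr_basis S c i
    change f (b i) = (algebraMap S (WithConv (M →ₗ[R] S)) s * toConv (b.constr S c)) (b i)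
    rw [h1, h2, hc i]

end Scalar

section Scalar2

variable {R : Type*} [CommRing R] {H : Type*} [CommRing H] [Bialgebra R H]
variable {S : Type*} [CommRing S] [Algebra R S]

/-- divisibility in `C2_S`, checked on pure tensors. -/
theorem algebraMap_dvd_iff₂ [Module.Free R H] (s : S) (F : WithConv (H ⊗[R] H →ₗ[R] S)) :
    algebraMap S (WithConv (H ⊗[R] H →ₗ[R] S)) s ∣ F ↔ ∀ a b : H, s ∣ F (a ⊗ₜ[R] b) := by
  rw [algebraMap_dvd_iff]
  constructor
  · intro h a b
    exact h _
  · intro h x
    induction x using TensorProduct.induction_on with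
    | zero =>
      have : F (0 : H ⊗[R] H) = 0 := map_zero F.ofConv
      rw [this]; exact dvd_zero s
    | tmul a b => exact h a b
    | add x y hx hy =>
      have : F (x + y) = F x + F y := map_add F.ofConv x y
      rw [this]; exact dvd_add hx hy

lemma mulPull_algebraMap (s : S) :
    mulPull (algebraMap S (WithConv (H →ₗ[R] S)) s) =
      algebraMap S (WithConv (H ⊗[R] H →ₗ[R] S)) s := by
  apply WithConv.ext
  ext a b
  simp [mulPull, mul_comm]

lemma boxL_algebraMap (s : S) :
    boxL (algebraMap S (WithConv (H →ₗ[R] S)) s) =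
      algebraMap S (WithConv (H ⊗[R] H →ₗ[R] S)) s := by
  apply WithConv.ext
  ext a b
  simp [boxL, box]
  ring

lemma boxR_algebraMap (s : S) :
    boxR (algebraMap S (WithConv (H →ₗ[R] S)) s) =
      algebraMap S (WithConv (H ⊗[R] H →ₗ[R] S)) s := by
  apply WithConv.ext
  ext a b
  simp [boxR, box]
  ring

lemma evOne_algebraMap (s : S) :
    evOne (algebraMap S (WithConv (H →ₗ[R] S)) s) = s := by
  rw [evOne_apply]
  simp

lemma pushRing_algebraMap {S' : Type*} [CommRing S'] [Algebra R S'] (g : S →ₐ[R] S') (s : S) :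
    pushRing g (algebraMap S (WithConv (H →ₗ[R] S)) s) =
      algebraMap S' (WithConv (H →ₗ[R] S')) (g s) := by
  apply WithConv.ext
  ext a
  simp [pushRing]

end Scalar2

end Fermat.Agent.S56x.Fontaine.ConvRing
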