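import Mathlib
import Fermat.Agent.S56x.Hopf.PthPowerCore

set_option autoImplicit false
set_option linter.unusedSectionVars false
set_option linter.style.haveILetI false

/-!
# Lifting points of a commutative group scheme killed by `p` (convolution-algebra form)

P-S56 block (A), items (L1), (L2) of the blueprint (note 1366 / note 1373).
-/

noncomputable section

namespace Fermat.Agent.S56x.Fontaine.LiftConv

open TensorProduct Coalgebra WithConv
open Fermat.Agent.S56x.Hopf.PthPowerCore

/-! ### Generalities on the convolution algebra `WithConv (D →ₗ[R] B)` -/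

section Conv

variable {R : Type*} [CommRing R]
variable {D : Type*} [AddCommGroup D] [Module R D] [Coalgebra R D] [IsCocomm R D]
variable {B : Type*} [CommRing B] [Algebra R B]

theorem algebraMap_mul_apply (c : B) (f : WithConv (D →ₗ[R] B)) (x : D) :
    (algebraMap B (WithConv (D →ₗ[R] B)) c * f) x = c * f x := by
  rw [← Algebra.smul_def]
  rfl

theorem algebraMap_pow_mul_apply (c : B) (n : ℕ) (f : WithConv (D →ₗ[R] B)) (x : D) :
    ((algebraMap B (WithConv (D →ₗ[R] B)) c) ^ n * f) x = c ^ n * f x := by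
  rw [← map_pow, algebraMap_mul_apply]

theorem sub_apply' (f g : WithConv (D →ₗ[R] B)) (x : D) : (f - g) x = f x - g x := rfl

theorem add_apply' (f g : WithConv (D →ₗ[R] B)) (x : D) : (f + g) x = f x + g x := rfl

/-- Divisibility in the convolution algebra by a non-zero constant of a domain is pointwise. -/
theorem algebraMap_dvd_iff [IsDomain B] {c : B} (hc : c ≠ 0) (f : WithConv (D →ₗ[R] B)) :
    algebraMap B (WithConv (D →ₗ[R] B)) c ∣ f ↔ ∀ x, c ∣ f x := by
  constructor
  · rintro ⟨g, rfl⟩ x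
    exact ⟨g x, algebraMap_mul_apply c g x⟩
  · intro h
    choose g hg using h
    have hadd : ∀ x y, g (x + y) = g x + g y := by
      intro x y
      apply mul_left_cancel₀ hc
      rw [mul_add, ← hg, ← hg, ← hg, map_add]
    have hsmul : ∀ (r : R) x, g (r • x) = r • g x := by
      intro r x
      apply mul_left_cancel₀ hc
      rw [← hg, mul_smul_comm, ← hg, map_smul]
    refine ⟨toConv { toFun := g, map_add' := hadd, map_smul' := hsmul }, ?_⟩
    apply WithConv.ext
    ext x
    change f x = (algebraMap B (WithConv (D →ₗ[R] B)) c * _) x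
    rw [algebraMap_mul_apply]
    exact hg x

theorem algebraMap_pow_dvd_iff [IsDomain B] {c : B} (hc : c ≠ 0) (n : ℕ)
    (f : WithConv (D →ₗ[R] B)) :
    (algebraMap B (WithConv (D →ₗ[R] B)) c) ^ n ∣ f ↔ ∀ x, c ^ n ∣ f x := by
  rw [← map_pow]
  exact algebraMap_dvd_iff (pow_ne_zero n hc) f

theorem algebraMap_mul_eq_zero [IsDomain B] {c : B} (hc : c ≠ 0) (f : WithConv (D →ₗ[R] B))
    (h : algebraMap B (WithConv (D →ₗ[R] B)) c * f = 0) : f = 0 := by
  apply WithConv.ext
  ext x
  have := congrArg (fun k : WithConv (D →ₗ[R] B) => k x) h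
  simp only [algebraMap_mul_apply] at this
  exact (mul_eq_zero.mp this).resolve_left hc

/-- The convolution algebra with values in a `ϖ`-adically complete domain is complete. -/
theorem isAdicComplete_conv [IsDomain B] {ϖ : B} (hϖ : ϖ ≠ 0)
    [IsAdicComplete (Ideal.span {ϖ}) B] :
    IsAdicComplete (Ideal.span {algebraMap B (WithConv (D →ₗ[R] B)) ϖ})
      (WithConv (D →ₗ[R] B)) := by
  haveI : IsHausdorff (Ideal.span {algebraMap B (WithConv (D →ₗ[R] B)) ϖ})
      (WithConv (D →ₗ[R] B)) := by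
    refine ⟨fun f hf => ?_⟩
    apply WithConv.ext
    ext x
    apply IsHausdorff.haus (I := Ideal.span {ϖ}) (M := B) inferInstance
    intro n
    rw [smodEq_span_pow_iff, sub_zero]
    have := hf n
    rw [smodEq_span_pow_iff, sub_zero] at this
    exact (algebraMap_pow_dvd_iff hϖ n f).mp this x
  haveI : IsPrecomplete (Ideal.span {algebraMap B (WithConv (D →ₗ[R] B)) ϖ})
      (WithConv (D →ₗ[R] B)) := by
    refine ⟨fun f hf => ?_⟩
    have hpt : ∀ x : D, ∃ L : B, ∀ n, ϖ ^ n ∣ f n x - L := by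
      intro x
      obtain ⟨L, hL⟩ := IsPrecomplete.prec (I := Ideal.span {ϖ}) (M := B) inferInstance
        (f := fun n => f n x) (fun {m n} hmn => by
          rw [smodEq_span_pow_iff]
          have := hf hmn
          rw [smodEq_span_pow_iff] at this
          exact (algebraMap_pow_dvd_iff hϖ m _).mp this x)
      exact ⟨L, fun n => (smodEq_span_pow_iff ϖ n _ _).mp (hL n)⟩
    choose L hL using hpt
    have hsep : ∀ b : B, (∀ n, ϖ ^ n ∣ b) → b = 0 := by
      intro b hb
      apply IsHausdorff.haus (I := Ideal.span {ϖ}) (M := B) inferInstance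
      intro n
      rw [smodEq_span_pow_iff, sub_zero]
      exact hb n
    have hadd : ∀ x y, L (x + y) = L x + L y := by
      intro x y
      rw [← sub_eq_zero]
      apply hsep
      intro n
      have e : L (x + y) - (L x + L y)
          = -(f n (x + y) - L (x + y)) + (f n x - L x) + (f n y - L y) := by
        rw [map_add]; ring
      rw [e]
      exact dvd_add (dvd_add ((dvd_neg).mpr (hL _ n)) (hL _ n)) (hL _ n)
    have hsmul : ∀ (r : R) x, L (r • x) = r • L x := by
      intro r x
      rw [← sub_eq_zero]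
      apply hsep
      intro n
      have e : L (r • x) - r • L x = -(f n (r • x) - L (r • x)) + r • (f n x - L x) := by
        rw [map_smul, smul_sub]; ring
      rw [e]
      refine dvd_add ((dvd_neg).mpr (hL _ n)) ?_
      rw [Algebra.smul_def]
      exact Dvd.dvd.mul_left (hL _ n) _
    refine ⟨toConv { toFun := L, map_add' := hadd, map_smul' := hsmul }, fun n => ?_⟩
    rw [smodEq_span_pow_iff, algebraMap_pow_dvd_iff hϖ]
    intro x
    exact hL x n
  exact ⟨⟩

end Conv

/-! ### Pullback along coalgebra homs -/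

section Pull

variable {R : Type*} [CommRing R]
variable {D D' : Type*} [AddCommGroup D] [Module R D] [Coalgebra R D]
  [AddCommGroup D'] [Module R D'] [Coalgebra R D']
variable {B : Type*} [CommRing B] [Algebra R B]

/-- Precomposition with a coalgebra hom is a ring hom of convolution algebras. -/
def convPull (h : D' →ₗc[R] D) : WithConv (D →ₗ[R] B) →+* WithConv (D' →ₗ[R] B) where
  toFun f := toConv (f.ofConv.comp h.toLinearMap)
  map_one' := by
    apply WithConv.ext
    ext x
    change algebraMap R B (counit (R := R) (h x)) = algebraMap R B (counit (R := R) x)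
    rw [CoalgHomClass.counit_comp_apply]
  map_mul' f g := by
    apply WithConv.ext
    exact LinearMap.convMul_comp_coalgHom_distrib f g h
  map_zero' := by
    apply WithConv.ext
    ext x
    rfl
  map_add' f g := by
    apply WithConv.ext
    ext x
    rfl

@[simp] theorem convPull_apply (h : D' →ₗc[R] D) (f : WithConv (D →ₗ[R] B)) (x : D') :
    convPull h f x = f (h x) := rfl

theorem convPull_algebraMap (h : D' →ₗc[R] D) (c : B) :
    convPull h (algebraMap B (WithConv (D →ₗ[R] B)) c)
      = algebraMap B (WithConv (D' →ₗ[R] B)) c := by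
  apply WithConv.ext
  ext x
  change c • algebraMap R B (counit (R := R) (h x)) = c • algebraMap R B (counit (R := R) x)
  rw [CoalgHomClass.counit_comp_apply]

end Pull

/-! ### Algebra homs as group-like elements of the convolution algebra -/

section GroupLike

variable {R : Type*} [CommRing R]
variable {H : Type*} [CommRing H] [Bialgebra R H]
variable {B : Type*} [CommRing B] [Algebra R B]

/-- first projection `x ⊗ y ↦ ε(y) x` as a coalgebra hom. -/
def pr₁ : H ⊗[R] H →ₗc[R] H :=
  (Coalgebra.TensorProduct.rid R R H).toCoalgHom.comp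
    (Coalgebra.TensorProduct.map (CoalgHom.id R H) (counitCoalgHom R H))

/-- second projection `x ⊗ y ↦ ε(x) y` as a coalgebra hom. -/
def pr₂ : H ⊗[R] H →ₗc[R] H :=
  (Coalgebra.TensorProduct.lid R H).toCoalgHom.comp
    (Coalgebra.TensorProduct.map (counitCoalgHom R H) (CoalgHom.id R H))

@[simp] theorem pr₁_tmul (x y : H) : pr₁ (R := R) (x ⊗ₜ[R] y) = counit (R := R) y • x := by
  simp [pr₁]

@[simp] theorem pr₂_tmul (x y : H) : pr₂ (R := R) (x ⊗ₜ[R] y) = counit (R := R) x • y := by
  simp [pr₂]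

theorem sum_counit_right_smul (x : H) {ι : Type*} (𝓡 : Coalgebra.Repr R x ι) :
    ∑ i ∈ 𝓡.index, counit (R := R) (𝓡.right i) • 𝓡.left i = x := by
  have := congrArg (TensorProduct.lift ((LinearMap.lsmul R H).flip))
    (Coalgebra.sum_tmul_counit_eq (R := R) 𝓡)
  simpa only [map_sum, TensorProduct.lift.tmul, LinearMap.flip_apply, LinearMap.lsmul_apply,
    one_smul] using this

/-- `(f ∘ pr₁) * (f ∘ pr₂)` evaluated at a pure tensor. -/
theorem pull_mul_pull_tmul (f : WithConv (H →ₗ[R] B)) (x y : H) :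
    (convPull (pr₁ (R := R) (H := H)) f * convPull (pr₂ (R := R) (H := H)) f) (x ⊗ₜ[R] y)
      = f x * f y := by
  rw [((ℛ R x).tmul (ℛ R y)).convMul_apply]
  simp only [Coalgebra.Repr.tmul_index, Coalgebra.Repr.tmul_left, Coalgebra.Repr.tmul_right,
    convPull_apply, pr₁_tmul, pr₂_tmul, map_smul]
  rw [Finset.sum_product]
  have hx : f x = ∑ i ∈ (ℛ R x).index, counit (R := R) ((ℛ R x).right i) • f ((ℛ R x).left i) := by
    conv_lhs => rw [← sum_counit_right_smul x (ℛ R x)]
    simp [map_sum, map_smul]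
  have hy : f y = ∑ j ∈ (ℛ R y).index, counit (R := R) ((ℛ R y).left j) • f ((ℛ R y).right j) := by
    conv_lhs => rw [← Coalgebra.sum_counit_smul (R := R) (ℛ R y)]
    simp [map_sum, map_smul]
  rw [hx, hy, Finset.sum_mul_sum]
  refine Finset.sum_congr rfl fun i _ => Finset.sum_congr rfl fun j _ => ?_
  simp only [Algebra.smul_def]
  ring

/-- evaluation at `1` is a ring hom on the convolution algebra of a bialgebra. -/
def evalOne : WithConv (H →ₗ[R] B) →+* B where
  toFun f := f 1
  map_one' := by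
    change algebraMap R B (counit (R := R) (1 : H)) = 1
    simp
  map_mul' f g := by
    change (f * g) 1 = f 1 * g 1
    rw [LinearMap.convMul_apply, Bialgebra.comul_one]
    rw [Algebra.TensorProduct.one_def, TensorProduct.map_tmul, LinearMap.mul'_apply]
  map_zero' := rfl
  map_add' f g := rfl

@[simp] theorem evalOne_apply (f : WithConv (H →ₗ[R] B)) : evalOne f = f 1 := rfl

theorem evalOne_algebraMap (c : B) :
    evalOne (algebraMap B (WithConv (H →ₗ[R] B)) c) = c := by
  change c • algebraMap R B (counit (R := R) (1 : H)) = c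
  simp

/-- pullback along multiplication. -/
def convMu : WithConv (H →ₗ[R] B) →+* WithConv (H ⊗[R] H →ₗ[R] B) :=
  convPull (Bialgebra.mulCoalgHom R H)

@[simp] theorem convMu_tmul (f : WithConv (H →ₗ[R] B)) (x y : H) :
    convMu f (x ⊗ₜ[R] y) = f (x * y) := by
  simp [convMu]

/-- the product `(f ∘ pr₁) * (f ∘ pr₂)`, i.e. `x ⊗ y ↦ f x * f y`. -/
def convSq (f : WithConv (H →ₗ[R] B)) : WithConv (H ⊗[R] H →ₗ[R] B) :=
  convPull (pr₁ (R := R) (H := H)) f * convPull (pr₂ (R := R) (H := H)) f

@[simp] theorem convSq_tmul (f : WithConv (H →ₗ[R] B)) (x y : H) :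
    convSq f (x ⊗ₜ[R] y) = f x * f y := pull_mul_pull_tmul f x y

theorem convSq_pow (f : WithConv (H →ₗ[R] B)) [IsCocomm R H] (n : ℕ) :
    convSq (f ^ n) = convSq f ^ n := by
  unfold convSq
  rw [map_pow, map_pow, mul_pow]

/-- a linear map is multiplicative iff `convMu f = convSq f`. -/
theorem map_mul_iff (f : WithConv (H →ₗ[R] B)) :
    (∀ x y, f (x * y) = f x * f y) ↔ convMu f = convSq f := by
  constructor
  · intro h
    apply WithConv.ext
    apply TensorProduct.ext'
    intro x y
    change convMu f (x ⊗ₜ[R] y) = convSq f (x ⊗ₜ[R] y)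
    rw [convMu_tmul, convSq_tmul, h]
  · intro h x y
    rw [← convMu_tmul, h, convSq_tmul]

end GroupLike

/-! ### Push-forward along algebra homs, and killed group schemes -/

section Push

variable {R : Type*} [CommRing R]
variable {D : Type*} [AddCommGroup D] [Module R D] [Coalgebra R D]
variable {B S : Type*} [CommRing B] [Algebra R B] [CommRing S] [Algebra R S]

/-- Postcomposition with an algebra hom is a ring hom of convolution algebras. -/
def convPush (k : B →ₐ[R] S) : WithConv (D →ₗ[R] B) →+* WithConv (D →ₗ[R] S) where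
  toFun f := toConv (k.toLinearMap.comp f.ofConv)
  map_one' := by
    apply WithConv.ext
    ext x
    change k (algebraMap R B (counit (R := R) x)) = algebraMap R S (counit (R := R) x)
    simp
  map_mul' f g := by
    apply WithConv.ext
    exact LinearMap.algHom_comp_convMul_distrib k f g
  map_zero' := by
    apply WithConv.ext
    ext x
    change k 0 = 0
    simp
  map_add' f g := by
    apply WithConv.ext
    ext x
    change k (f x + g x) = k (f x) + k (g x)
    simp

@[simp] theorem convPush_apply (k : B →ₐ[R] S) (f : WithConv (D →ₗ[R] B)) (x : D) :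
    convPush k f x = k (f x) := rfl

end Push

section Kill

variable {R : Type*} [CommRing R]
variable {H : Type*} [CommRing H] [Bialgebra R H]
variable {S : Type*} [CommRing S] [Algebra R S]

theorem algHom_pow_eq (φ : H →ₐ[R] S) (m : ℕ) :
    (toConv φ : WithConv (H →ₐ[R] S)) ^ m
      = toConv (φ.comp ((toConv (AlgHom.id R H) : WithConv (H →ₐ[R] H)) ^ m).ofConv) := by
  induction m with
  | zero =>
    rw [pow_zero, pow_zero]
    apply WithConv.ext
    ext x
    change algebraMap R S (counit (R := R) x) = φ (algebraMap R H (counit (R := R) x))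
    simp
  | succ m ih =>
    rw [pow_succ, pow_succ, ih, AlgHom.comp_convMul_distrib]
    simp

/-- If `[n]` is trivial on `H`, every point of `H` is killed by `n` (linear-map form). -/
theorem pow_eq_one_of_kill {n : ℕ}
    (hkill : (toConv (AlgHom.id R H) : WithConv (H →ₐ[R] H)) ^ n = 1) (φ : H →ₐ[R] S) :
    (toConv φ.toLinearMap : WithConv (H →ₗ[R] S)) ^ n = 1 := by
  have h1 := algHom_pow_eq φ n
  rw [hkill] at h1
  have h2 : (toConv φ : WithConv (H →ₐ[R] S)) ^ n = 1 := by
    rw [h1]
    apply WithConv.ext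
    ext x
    change φ (algebraMap R H (counit (R := R) x)) = algebraMap R S (counit (R := R) x)
    simp
  have h3 := AlgHom.toLinearMap_convPow (toConv φ : WithConv (H →ₐ[R] S)) n
  rw [h2] at h3
  rw [← h3]
  rfl

end Kill

/-! ### (L1) and (L2) -/

section Lift

variable {R : Type*} [CommRing R]
variable {H : Type*} [CommRing H] [Bialgebra R H] [IsCocomm R H]
variable {B : Type*} [CommRing B] [IsDomain B] [Algebra R B]
variable {ϖ : B} {p e a : ℕ}

/-- the abstract core of (L1)/(L2): in a commutative ring `C` satisfying the hypotheses of the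
`p`-th power lemma, two elements with trivial `p`-th powers and congruent mod `ϖ^a` are equal. -/
theorem eq_of_pow_eq_one_of_dvd {C : Type*} [CommRing C] {ϖC : C}
    [IsAdicComplete (Ideal.span {ϖC}) C] (hp : p.Prime) (u : Cˣ) (hpe : (p : C) = u * ϖC ^ e)
    (hea : e < (p - 1) * a) (hreg : ∀ x : C, ϖC * x = 0 → x = 0) {M P : C}
    (hM : M ^ p = 1) (hP : P ^ p = 1) (hd : ϖC ^ a ∣ M - P) : M = P := by
  obtain ⟨q, rfl⟩ : ∃ q, p = q + 1 := ⟨p - 1, by have := hp.pos; omega⟩
  have hP' : P * P ^ q = 1 := by rw [← pow_succ']; exact hP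
  have hz : ϖC ^ a ∣ M * P ^ q - 1 := by
    have : M * P ^ q - 1 = (M - P) * P ^ q := by rw [sub_mul, hP']
    rw [this]
    exact Dvd.dvd.mul_right hd _
  have hz1 : (1 + (M * P ^ q - 1)) ^ (q + 1) = 1 := by
    have : 1 + (M * P ^ q - 1) = M * P ^ q := by ring
    rw [this, mul_pow, hM, one_mul, ← pow_mul, mul_comm, pow_mul, hP, one_pow]
  have h0 := eq_zero_of_one_add_pow_eq_one hp u hpe hea hreg hz hz1
  have h1 : M * P ^ q = 1 := by linear_combination h0
  calc M = M * (P * P ^ q) := by rw [hP', mul_one]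
    _ = P * (M * P ^ q) := by ring
    _ = P := by rw [h1, mul_one]

/-- the hypotheses of the `p`-th power lemma for the convolution algebra. -/
theorem conv_hyps [IsAdicComplete (Ideal.span {ϖ}) B] (hϖ : ϖ ≠ 0) (u : Bˣ)
    (hpe : (p : B) = u * ϖ ^ e) (D : Type*) [AddCommGroup D] [Module R D] [Coalgebra R D]
    [IsCocomm R D] :
    IsAdicComplete (Ideal.span {algebraMap B (WithConv (D →ₗ[R] B)) ϖ}) (WithConv (D →ₗ[R] B)) ∧
    ((p : WithConv (D →ₗ[R] B)) = (Units.map (algebraMap B (WithConv (D →ₗ[R] B))).toMonoidHom u : _)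
        * (algebraMap B (WithConv (D →ₗ[R] B)) ϖ) ^ e) ∧
    (∀ x : WithConv (D →ₗ[R] B), algebraMap B (WithConv (D →ₗ[R] B)) ϖ * x = 0 → x = 0) := by
  refine ⟨isAdicComplete_conv hϖ, ?_, fun x hx => algebraMap_mul_eq_zero hϖ x hx⟩
  rw [← map_natCast (algebraMap B (WithConv (D →ₗ[R] B))), hpe, map_mul, map_pow]
  rfl

/-- **(L1)** two points congruent modulo `ϖ^a`, `(p-1) a > e`, are equal. -/
theorem lift_unique [IsAdicComplete (Ideal.span {ϖ}) B] (hϖ : ϖ ≠ 0)
    (hp : p.Prime) (u : Bˣ) (hpe : (p : B) = u * ϖ ^ e) (hea : e < (p - 1) * a)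
    (hkill : (toConv (AlgHom.id R H) : WithConv (H →ₐ[R] H)) ^ p = 1)
    (φ ψ : H →ₐ[R] B) (h : ∀ x, ϖ ^ a ∣ φ x - ψ x) : φ = ψ := by
  obtain ⟨hc, hpeC, hregC⟩ := conv_hyps (R := R) hϖ u hpe H
  have hΦ := pow_eq_one_of_kill hkill φ
  have hΨ := pow_eq_one_of_kill hkill ψ
  have hd : (algebraMap B (WithConv (H →ₗ[R] B)) ϖ) ^ a
      ∣ (toConv φ.toLinearMap : WithConv (H →ₗ[R] B)) - toConv ψ.toLinearMap := by
    rw [algebraMap_pow_dvd_iff hϖ]
    intro x
    exact h x
  have := eq_of_pow_eq_one_of_dvd hp _ hpeC hea hregC hΦ hΨ hd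
  apply AlgHom.ext
  intro x
  exact congrArg (fun f : WithConv (H →ₗ[R] B) => f x) this

/-- **(L2)** an `R`-linear map which is an algebra hom modulo `ϖ^(a+e)` is congruent modulo `ϖ^a`
to an algebra hom (`(p-1) a > e`, `H` killed by `p`). -/
theorem exists_lift [IsAdicComplete (Ideal.span {ϖ}) B] (hϖ : ϖ ≠ 0)
    (hp : p.Prime) (u : Bˣ) (hpe : (p : B) = u * ϖ ^ e) (hea : e < (p - 1) * a)
    (hkill : (toConv (AlgHom.id R H) : WithConv (H →ₐ[R] H)) ^ p = 1)
    (g₀ : H →ₗ[R] B) (h1 : ϖ ^ (a + e) ∣ g₀ 1 - 1)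
    (hmul : ∀ x y, ϖ ^ (a + e) ∣ g₀ (x * y) - g₀ x * g₀ y) :
    ∃ g : H →ₐ[R] B, ∀ x, ϖ ^ a ∣ g x - g₀ x := by
  classical
  obtain ⟨hc, hpeC, hregC⟩ := conv_hyps (R := R) hϖ u hpe H
  obtain ⟨hc₂, hpeC₂, hregC₂⟩ := conv_hyps (R := R) hϖ u hpe (H ⊗[R] H)
  have ha1 : 1 ≤ a := by
    rcases Nat.eq_zero_or_pos a with h0 | h0
    · subst h0; simp at hea
    · exact h0
  -- the reduction modulo `ϖ^(a+e)`
  let J : Ideal B := Ideal.span {ϖ ^ (a + e)}
  let mk : B →ₐ[R] B ⧸ J := Ideal.Quotient.mkₐ R J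
  have hmk : ∀ b : B, mk b = 0 ↔ ϖ ^ (a + e) ∣ b := by
    intro b
    change Ideal.Quotient.mk J b = 0 ↔ _
    rw [Ideal.Quotient.eq_zero_iff_mem, Ideal.mem_span_singleton]
  let gbar : H →ₐ[R] B ⧸ J := AlgHom.ofLinearMap (mk.toLinearMap.comp g₀)
    (by
      change mk (g₀ 1) = 1
      rw [← sub_eq_zero, ← map_one mk, ← map_sub, hmk]
      exact h1)
    (by
      intro x y
      change mk (g₀ (x * y)) = mk (g₀ x) * mk (g₀ y)
      rw [← sub_eq_zero, ← map_mul, ← map_sub, hmk]
      exact hmul x y)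
  have hgbar := pow_eq_one_of_kill hkill gbar
  set G₀ : WithConv (H →ₗ[R] B) := toConv g₀ with hG₀
  have hred : convPush mk G₀ = toConv gbar.toLinearMap := rfl
  -- `G₀ ^ p = 1 + d` with `ϖ^(a+e) ∣ d`
  have hd : (algebraMap B (WithConv (H →ₗ[R] B)) ϖ) ^ (a + e) ∣ G₀ ^ p - 1 := by
    rw [algebraMap_pow_dvd_iff hϖ]
    intro x
    rw [← hmk]
    have : convPush mk (G₀ ^ p - 1) = 0 := by
      rw [map_sub, map_pow, map_one, hred, hgbar, sub_self]
    exact congrArg (fun f : WithConv (H →ₗ[R] (B ⧸ J)) => f x) this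
  obtain ⟨w, hw1, hwp⟩ := exists_pow_eq_one_add_of_dvd hp _ hpeC hea hd
  have hwp' : w ^ p = G₀ ^ p := by rw [hwp]; ring
  -- `w` is a unit
  have hwu : IsUnit w := by
    obtain ⟨k, hk⟩ := hw1
    have hmem : algebraMap B (WithConv (H →ₗ[R] B)) ϖ ∈ (⊥ : Ideal (WithConv (H →ₗ[R] B))).jacobson :=
      IsAdicComplete.le_jacobson_bot (Ideal.span {algebraMap B (WithConv (H →ₗ[R] B)) ϖ})
        (Ideal.mem_span_singleton_self _)
    obtain ⟨a', rfl⟩ : ∃ a', a = a' + 1 := ⟨a - 1, by omega⟩
    have := (Ideal.mem_jacobson_bot.mp hmem) ((algebraMap B (WithConv (H →ₗ[R] B)) ϖ) ^ a' * k)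
    have e1 : w = algebraMap B (WithConv (H →ₗ[R] B)) ϖ
        * ((algebraMap B (WithConv (H →ₗ[R] B)) ϖ) ^ a' * k) + 1 := by
      have : w = (w - 1) + 1 := by ring
      rw [this, hk]; ring
    rw [e1]
    exact this
  obtain ⟨wi, hwi⟩ := hwu.exists_right_inv
  set g' : WithConv (H →ₗ[R] B) := G₀ * wi with hg'
  have hg'p : g' ^ p = 1 := by
    rw [hg', mul_pow, ← hwp', ← mul_pow, hwi, one_pow]
  have hg'd : (algebraMap B (WithConv (H →ₗ[R] B)) ϖ) ^ a ∣ g' - G₀ := by
    have : g' - G₀ = -(G₀ * wi * (w - 1)) := by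
      rw [hg']
      have : G₀ * wi * (w - 1) = G₀ * (w * wi) - G₀ * wi := by ring
      rw [this, hwi]; ring
    rw [this, dvd_neg]
    exact Dvd.dvd.mul_left hw1 _
  have hg'x : ∀ x, ϖ ^ a ∣ g' x - g₀ x := by
    intro x
    exact (algebraMap_pow_dvd_iff hϖ a _).mp hg'd x
  -- `g' 1 = 1`
  have hone : g' 1 = 1 := by
    have hb : (evalOne g') ^ p = 1 := by rw [← map_pow, hg'p, map_one]
    have hb1 : ϖ ^ a ∣ evalOne g' - 1 := by
      have : evalOne g' - 1 = (g' 1 - g₀ 1) + (g₀ 1 - 1) := by
        rw [evalOne_apply]; ring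
      rw [this]
      exact dvd_add (hg'x 1) (dvd_trans (pow_dvd_pow ϖ (Nat.le_add_right a e)) h1)
    have hregB : ∀ x : B, ϖ * x = 0 → x = 0 := fun x hx => (mul_eq_zero.mp hx).resolve_left hϖ
    have hb2 : (1 + (evalOne g' - 1)) ^ p = 1 := by
      have : 1 + (evalOne g' - 1) = evalOne g' := by ring
      rw [this, hb]
    have := eq_zero_of_one_add_pow_eq_one hp u hpe hea hregB hb1 hb2
    rw [evalOne_apply] at this
    linear_combination this
  -- multiplicativity
  have hmulg : ∀ x y, g' (x * y) = g' x * g' y := by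
    rw [map_mul_iff]
    have hM : (convMu g') ^ p = 1 := by rw [← map_pow, hg'p, map_one]
    have hP : (convSq g') ^ p = 1 := by
      rw [← convSq_pow, hg'p]
      unfold convSq
      rw [map_one, map_one, mul_one]
    apply eq_of_pow_eq_one_of_dvd hp _ hpeC₂ hea hregC₂ hM hP
    rw [algebraMap_pow_dvd_iff hϖ]
    intro t
    induction t using TensorProduct.induction_on with
    | zero =>
      rw [map_zero]
      exact dvd_zero _
    | tmul x y =>
      rw [sub_apply', convMu_tmul, convSq_tmul]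
      obtain ⟨c1, hc1⟩ := hg'x (x * y)
      obtain ⟨c2, hc2⟩ := hg'x x
      obtain ⟨c3, hc3⟩ := hg'x y
      obtain ⟨c4, hc4⟩ := dvd_trans (pow_dvd_pow ϖ (Nat.le_add_right a e)) (hmul x y)
      refine ⟨c1 - c2 * g₀ y - g₀ x * c3 - ϖ ^ a * c2 * c3 + c4, ?_⟩
      have e1 : g' (x * y) = g₀ (x * y) + ϖ ^ a * c1 := by linear_combination hc1
      have e2 : g' x = g₀ x + ϖ ^ a * c2 := by linear_combination hc2
      have e3 : g' y = g₀ y + ϖ ^ a * c3 := by linear_combination hc3
      rw [e1, e2, e3]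
      linear_combination hc4
    | add s t hs ht =>
      rw [map_add]
      exact dvd_add hs ht
  exact ⟨AlgHom.ofLinearMap g'.ofConv hone hmulg, hg'x⟩

end Lift

end Fermat.Agent.S56x.Fontaine.LiftConv
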