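import Fermat.Agent.S56x.Fontaine.LiftConv
import Fermat.Agent.S56x.Hopf.GroupLike

set_option autoImplicit false
set_option linter.unusedSectionVars false

/-!
# (L1), (L2), (UNR-core) in point shape `WithConv (H →ₐ[R] B)`

Corollaries of `S56x/Fontaine/LiftConv` phrased with the convolution monoid of points and
`Hopf.mapPts` (helper97's `Hopf/GroupLike`).
-/

noncomputable section

namespace Fermat.Agent.S56x.Fontaine.LiftConvPts

open WithConv Coalgebra
open Fermat.Agent.S56x.Hopf Fermat.Agent.S56x.Fontaine.LiftConv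

variable {R : Type*} [CommRing R]
variable {H : Type*} [CommRing H] [Bialgebra R H] [IsCocomm R H]
variable {B : Type*} [CommRing B] [IsDomain B] [Algebra R B]
variable {ϖ : B} {p e a : ℕ}

/-- **(L1c)** two points congruent modulo `ϖ^a` are equal. -/
theorem l1c [IsAdicComplete (Ideal.span {ϖ}) B] (hϖ : ϖ ≠ 0)
    (hp : p.Prime) (u : Bˣ) (hpe : (p : B) = u * ϖ ^ e) (hea : e < (p - 1) * a)
    (hkill : (toConv (AlgHom.id R H) : WithConv (H →ₐ[R] H)) ^ p = 1)
    (g g' : WithConv (H →ₐ[R] B)) (h : ∀ x, ϖ ^ a ∣ g x - g' x) : g = g' := by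
  apply WithConv.ext
  exact lift_unique hϖ hp u hpe hea hkill g.ofConv g'.ofConv h

/-- **(L1c)**, injectivity form. -/
theorem mapPts_mk_injective [IsAdicComplete (Ideal.span {ϖ}) B] (hϖ : ϖ ≠ 0)
    (hp : p.Prime) (u : Bˣ) (hpe : (p : B) = u * ϖ ^ e) (hea : e < (p - 1) * a)
    (hkill : (toConv (AlgHom.id R H) : WithConv (H →ₐ[R] H)) ^ p = 1)
    (J : Ideal B) (hJ : J = Ideal.span {ϖ ^ a}) :
    Function.Injective (mapPts (O := R) (H := H) (Ideal.Quotient.mkₐ R J)) := by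
  intro g g' hgg'
  apply l1c hϖ hp u hpe hea hkill
  intro x
  have := congrArg (fun f : WithConv (H →ₐ[R] B ⧸ J) => f x) hgg'
  simp only [mapPts_apply, Ideal.Quotient.mkₐ_eq_mk] at this
  rw [Ideal.Quotient.eq, hJ, Ideal.mem_span_singleton] at this
  exact this

/-- **(UNR-core)** `e = 1`, `p` odd: a point congruent to the unit point modulo `ϖ` is trivial. -/
theorem unrc [IsAdicComplete (Ideal.span {ϖ}) B] (hϖ : ϖ ≠ 0)
    (hp : p.Prime) (hp2 : p ≠ 2) (u : Bˣ) (hpe : (p : B) = u * ϖ)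
    (hkill : (toConv (AlgHom.id R H) : WithConv (H →ₐ[R] H)) ^ p = 1)
    (g : WithConv (H →ₐ[R] B))
    (h : ∀ x, ϖ ∣ g x - algebraMap R B (counit (R := R) x)) : g = 1 := by
  have hea : 1 < (p - 1) * 1 := by
    have := hp.two_le
    omega
  apply l1c (a := 1) (e := 1) hϖ hp u (by simpa using hpe) hea hkill
  intro x
  simpa using h x

/-- **(L2c)** every point modulo `ϖ^(a+e)` is congruent modulo `ϖ^a` to a unique point. -/
theorem l2c [Module.Projective R H] [IsAdicComplete (Ideal.span {ϖ}) B] (hϖ : ϖ ≠ 0)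
    (hp : p.Prime) (u : Bˣ) (hpe : (p : B) = u * ϖ ^ e) (hea : e < (p - 1) * a)
    (hkill : (toConv (AlgHom.id R H) : WithConv (H →ₐ[R] H)) ^ p = 1)
    (I : Ideal B) (hI : I = Ideal.span {ϖ ^ (a + e)}) (x : WithConv (H →ₐ[R] B ⧸ I)) :
    ∃! g : WithConv (H →ₐ[R] B),
      ∀ (h : H) (y : B), Ideal.Quotient.mk I y = x h → ϖ ^ a ∣ g h - y := by
  have hmkI : ∀ b : B, Ideal.Quotient.mk I b = 0 ↔ ϖ ^ (a + e) ∣ b := by
    intro b
    rw [Ideal.Quotient.eq_zero_iff_mem, hI, Ideal.mem_span_singleton]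
  -- lift `x` to a linear map
  obtain ⟨g₀, hg₀⟩ := Module.projective_lifting_property
    ((Ideal.Quotient.mkₐ R I).toLinearMap) (x.ofConv.toLinearMap)
    (by
      intro y
      obtain ⟨b, rfl⟩ := Ideal.Quotient.mk_surjective y
      exact ⟨b, rfl⟩)
  have hg₀' : ∀ h : H, Ideal.Quotient.mk I (g₀ h) = x h := by
    intro h
    exact congrArg (fun f : H →ₗ[R] B ⧸ I => f h) hg₀
  have h1 : ϖ ^ (a + e) ∣ g₀ 1 - 1 := by
    rw [← hmkI, map_sub, hg₀', map_one x.ofConv, map_one (Ideal.Quotient.mk I), sub_self]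
  have hmul : ∀ s t, ϖ ^ (a + e) ∣ g₀ (s * t) - g₀ s * g₀ t := by
    intro s t
    rw [← hmkI, map_sub, map_mul (Ideal.Quotient.mk I), hg₀', hg₀', hg₀', map_mul x.ofConv,
      sub_self]
  obtain ⟨g, hg⟩ := exists_lift hϖ hp u hpe hea hkill g₀ h1 hmul
  have hspec : ∀ (h : H) (y : B), Ideal.Quotient.mk I y = x h → ϖ ^ a ∣ g h - y := by
    intro h y hy
    have h2 : ϖ ^ (a + e) ∣ g₀ h - y := by
      rw [← hmkI, map_sub, hg₀', hy, sub_self]
    have h3 : ϖ ^ a ∣ g₀ h - y := dvd_trans (pow_dvd_pow ϖ (Nat.le_add_right a e)) h2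
    have : g h - y = (g h - g₀ h) + (g₀ h - y) := by ring
    rw [this]
    exact dvd_add (hg h) h3
  refine ⟨toConv g, hspec, ?_⟩
  intro g' hg'
  apply l1c hϖ hp u hpe hea hkill
  intro h
  have e1 := hg' h (g₀ h) (hg₀' h)
  have e2 := hspec h (g₀ h) (hg₀' h)
  have : g' h - (toConv g : WithConv (H →ₐ[R] B)) h = (g' h - g₀ h) - (g h - g₀ h) := by
    change g' h - g h = _
    ring
  rw [this]
  exact dvd_sub e1 e2

/-- **(L2c)**, factor form: `mapPts mk_J g = mapPts factor x`. -/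
theorem l2c_factor [Module.Projective R H] [IsAdicComplete (Ideal.span {ϖ}) B] (hϖ : ϖ ≠ 0)
    (hp : p.Prime) (u : Bˣ) (hpe : (p : B) = u * ϖ ^ e) (hea : e < (p - 1) * a)
    (hkill : (toConv (AlgHom.id R H) : WithConv (H →ₐ[R] H)) ^ p = 1)
    (I J : Ideal B) (hI : I = Ideal.span {ϖ ^ (a + e)}) (hJ : J = Ideal.span {ϖ ^ a})
    (hIJ : I ≤ J) (x : WithConv (H →ₐ[R] B ⧸ I)) :
    ∃! g : WithConv (H →ₐ[R] B),
      mapPts (Ideal.Quotient.mkₐ R J) g = mapPts (Ideal.Quotient.factorₐ R hIJ) x := by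
  have hmkJ : ∀ b c : B, Ideal.Quotient.mk J b = Ideal.Quotient.mk J c ↔ ϖ ^ a ∣ b - c := by
    intro b c
    rw [Ideal.Quotient.eq, hJ, Ideal.mem_span_singleton]
  have key : ∀ g : WithConv (H →ₐ[R] B),
      (mapPts (Ideal.Quotient.mkₐ R J) g = mapPts (Ideal.Quotient.factorₐ R hIJ) x) ↔
      ∀ (h : H) (y : B), Ideal.Quotient.mk I y = x h → ϖ ^ a ∣ g h - y := by
    intro g
    constructor
    · intro hg h y hy
      have := congrArg (fun f : WithConv (H →ₐ[R] B ⧸ J) => f h) hg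
      simp only [mapPts_apply, Ideal.Quotient.mkₐ_eq_mk] at this
      rw [← hy] at this
      rw [← hmkJ, this]
      rfl
    · intro hg
      apply WithConv.ext
      apply AlgHom.ext
      intro h
      obtain ⟨y, hy⟩ := Ideal.Quotient.mk_surjective (x h)
      change Ideal.Quotient.mk J (g h) = Ideal.Quotient.factorₐ R hIJ (x h)
      rw [← hy]
      change Ideal.Quotient.mk J (g h) = Ideal.Quotient.mk J y
      rw [hmkJ]
      exact hg h y hy
  obtain ⟨g, hg, huniq⟩ := l2c hϖ hp u hpe hea hkill I hI x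
  exact ⟨g, (key g).mpr hg, fun g' hg' => huniq g' ((key g').mp hg')⟩

end Fermat.Agent.S56x.Fontaine.LiftConvPts
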