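/-
P-S56, block (A) (helper17): `Local/FlatBdd.ThmAStatement p` (the shape of Fontaine's Theorem A
consumed by the count side, helper35) is discharged by `Fontaine/ThmAFinal.thmA`.
-/
import Mathlib
import Fermat.Agent.S56x.Fontaine.ThmAFinal
import Fermat.Agent.S56x.Local.FlatBdd

set_option autoImplicit false

namespace Fermat.Agent.S56x.Fontaine.ThmAStmt

/-- **Fontaine's Theorem A** in the shape `FlatBdd.ThmAStatement` (unconditional). -/
theorem thmAStatement (p : ℕ) [Fact p.Prime] :
    Fermat.Agent.S56x.Local.FlatBdd.ThmAStatement p :=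
  fun ρ _ hflat I hI hpI => Fermat.Agent.S56x.Fontaine.ThmAFinal.thmA ρ hflat I hI hpI

end Fermat.Agent.S56x.Fontaine.ThmAStmt
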