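import Mathlib
import Fermat.Agent.S56x.Hopf.PthPower
import Fermat.Agent.S56x.Hopf.GroupLike

/-!
helper9 (P-S56, block (A) LOCAL FLAT): lemma **(UNR)** of the blueprint (note 1366), which replaces
the connected-étale sequence for every odd `p`.

`H` is a commutative cocommutative bialgebra over `R₀`, finite free as a module ("`Γ = Spec H`
finite flat commutative"), `B` a complete discrete valuation ring (`O_E`), points are
`WithConv (H →ₐ[R₀] B)` (Mathlib's convolution monoid; `Hopf/GroupLike.ptsHom` embeds it into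
the Cartier ring `CRing R₀ H B`).

* `pts_eq_one_of_dvd` : (L1) for points: a point killed by `p` which is `≡ 1 mod ϖ^t`,
  `t (p - 1) > e = ord_ϖ p`, is trivial.
* `pts_eq_of_dvd_sub` : (L1): two points killed by `p`, congruent mod `ϖ^t`, are equal.
* `unr_unramified` : `p` odd and a uniformizer of `W`: a point of `Γ(W)` killed by `p` and
  trivial modulo `p` is trivial (`Γ(W) → Γ(W/p)` injective on `p`-torsion).
* `unr_inertia` : **(UNR)**: `σ` in inertia, `g` a point killed by `p`; if `Q = σ g - g`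
  (i.e. `Q * g = σ g`) is inertia-invariant, then `σ g = g`.  The only arithmetic input is
  `hunr`: inertia-invariant elements of `𝔪_E` lie in `p O_E` (the inertia field is unramified).
-/

set_option autoImplicit false
set_option linter.unusedSectionVars false

open WithConv IsLocalRing

namespace Fermat.Agent.S56x.Fontaine.Unr

open Fermat.Agent.S56x.Hopf Fermat.Agent.S56x.Hopf.PthPower

variable {R₀ : Type*} [CommRing R₀] {H : Type*} [CommRing H] [Bialgebra R₀ H]
  [Coalgebra.IsCocomm R₀ H] [Module.Free R₀ H] [Module.Finite R₀ H]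
variable {B : Type*} [CommRing B] [IsDomain B] [IsDiscreteValuationRing B]
  [IsAdicComplete (maximalIdeal B) B] [Algebra R₀ B]

/-- pointwise divisibility of `f - 1` gives divisibility in the Cartier ring. -/
theorem dvd_sub_one_of_pointwise {ϖ : B} {t : ℕ} (f : CRing R₀ H B)
    (h : ∀ a : H, ϖ ^ t ∣ f a - algebraMap R₀ B (Coalgebra.counit a)) :
    algebraMap B (CRing R₀ H B) ϖ ^ t ∣ f - 1 := by
  have hmem : f - 1 ∈ levelIdeal (O := R₀) (C := H) (Ideal.span {ϖ ^ t}) := by
    rw [mem_levelIdeal]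
    intro c
    rw [Ideal.mem_span_singleton]
    exact h c
  obtain ⟨g, hg⟩ := mem_levelIdeal_span_singleton.mp hmem
  refine ⟨g, ?_⟩
  rw [hg, Algebra.smul_def, map_pow]

/-- **(L1)** for points, special case: a point killed by `p`, congruent to the trivial point
modulo `ϖ^t` with `t (p - 1) > e`, is trivial. -/
theorem pts_eq_one_of_dvd {p e t : ℕ} (hp : p.Prime) {ϖ : B} (hϖ : Irreducible ϖ) {u : Bˣ}
    (hpe : (p : B) = u * ϖ ^ e) (ht : e < t * (p - 1))
    (Q : WithConv (H →ₐ[R₀] B)) (hQ : Q ^ p = 1)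
    (h : ∀ a : H, ϖ ^ t ∣ Q a - algebraMap R₀ B (Coalgebra.counit a)) : Q = 1 := by
  have hx : algebraMap B (CRing R₀ H B) ϖ ^ t ∣ ptsHom Q - 1 :=
    dvd_sub_one_of_pointwise (ptsHom Q) (fun a => by simpa using h a)
  have hxp : (1 + (ptsHom Q - 1)) ^ p = 1 := by
    rw [add_sub_cancel, ← map_pow, hQ, map_one]
  have h0 := pp1_dvr (R := CRing R₀ H B) hp hϖ hpe ht hx hxp
  apply ptsHom_injective
  rw [map_one]
  exact sub_eq_zero.mp h0

/-- **(L1)** for points: two points killed by `p` and congruent modulo `ϖ^t`,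
`t (p - 1) > e`, are equal. -/
theorem pts_eq_of_dvd_sub {p e t : ℕ} (hp : p.Prime) {ϖ : B} (hϖ : Irreducible ϖ) {u : Bˣ}
    (hpe : (p : B) = u * ϖ ^ e) (ht : e < t * (p - 1))
    (g g' : WithConv (H →ₐ[R₀] B)) (hg : g ^ p = 1) (hg' : g' ^ p = 1)
    (h : ∀ a : H, ϖ ^ t ∣ g a - g' a) : g = g' := by
  have hp0 : p ≠ 0 := hp.ne_zero
  -- `Q := g * g'^(p-1)`
  have hpp : p - 1 + 1 = p := by have := hp.two_le; omega
  have hQp : (g * g' ^ (p - 1)) ^ p = 1 := by
    rw [mul_pow, hg, one_mul, ← pow_mul, mul_comm, pow_mul, hg', one_pow]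
  have hQ1 : g * g' ^ (p - 1) = 1 := by
    refine pts_eq_one_of_dvd hp hϖ hpe ht _ hQp fun a => ?_
    -- in the Cartier ring: `g g'^(p-1) - 1 = (g - g') g'^(p-1)`
    have hmem : ptsHom g - ptsHom g' ∈ levelIdeal (O := R₀) (C := H) (Ideal.span {ϖ ^ t}) := by
      rw [mem_levelIdeal]
      intro c
      rw [Ideal.mem_span_singleton]
      exact h c
    have hmem2 : (ptsHom g - ptsHom g') * ptsHom g' ^ (p - 1)
        ∈ levelIdeal (O := R₀) (C := H) (Ideal.span {ϖ ^ t}) := Ideal.mul_mem_right _ _ hmem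
    have heq : (ptsHom g - ptsHom g') * ptsHom g' ^ (p - 1)
        = ptsHom (g * g' ^ (p - 1)) - 1 := by
      rw [sub_mul, ← pow_succ', hpp, ← map_pow, ← map_pow, hg', map_one, ← map_mul]
    rw [heq, mem_levelIdeal] at hmem2
    have := hmem2 a
    rw [Ideal.mem_span_singleton] at this
    exact this
  calc g = g * g' ^ p := by rw [hg', mul_one]
    _ = (g * g' ^ (p - 1)) * g' := by rw [mul_assoc, ← pow_succ, hpp]
    _ = g' := by rw [hQ1, one_mul]

/-- **(UNR), unramified form**: if `p` is odd and a uniformizer of `W`, a point of `Γ(W)` killed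
by `p` and trivial modulo `p` is trivial. -/
theorem unr_unramified {W : Type*} [CommRing W] [IsDomain W] [IsDiscreteValuationRing W]
    [IsAdicComplete (maximalIdeal W) W] [Algebra R₀ W]
    {p : ℕ} (hp : p.Prime) (hp2 : p ≠ 2) (hpW : Irreducible (p : W))
    (Q : WithConv (H →ₐ[R₀] W)) (hQ : Q ^ p = 1)
    (h : ∀ a : H, (p : W) ∣ Q a - algebraMap R₀ W (Coalgebra.counit a)) : Q = 1 := by
  have hp3 : 3 ≤ p := by have := hp.two_le; omega
  refine pts_eq_one_of_dvd (e := 1) (t := 1) (u := 1) hp hpW (by simp) (by omega) Q hQ ?_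
  intro a
  simpa using h a

/-- **(UNR)**: `σ` in the inertia group `I`, `g` a point killed by `p` (`p` odd).  If the point
`Q = σ g - g` (that is `Q * g = σ g`) is fixed by inertia, then `σ g = g`.
`hI` says `I` acts trivially on the residue field, `hunr` that the inertia-invariant elements of
the maximal ideal are divisible by `p = u ϖ^e` (the inertia field is unramified over `ℚ_p`). -/
theorem unr_inertia {p e : ℕ} (hp : p.Prime) (hp2 : p ≠ 2) {ϖ : B} (hϖ : Irreducible ϖ)
    {u : Bˣ} (hpe : (p : B) = u * ϖ ^ e) (he : 1 ≤ e)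
    (I : Set (B ≃ₐ[R₀] B))
    (hI : ∀ τ ∈ I, ∀ y : B, ϖ ∣ τ y - y)
    (hunr : ∀ y : B, (∀ τ ∈ I, τ y = y) → ϖ ∣ y → ϖ ^ e ∣ y)
    (g Q : WithConv (H →ₐ[R₀] B)) (hg : g ^ p = 1)
    (σ : B ≃ₐ[R₀] B) (hσ : σ ∈ I) (hQg : Q * g = mapPts (σ : B →ₐ[R₀] B) g)
    (hQinv : ∀ τ ∈ I, mapPts (τ : B →ₐ[R₀] B) Q = Q) :
    mapPts (σ : B →ₐ[R₀] B) g = g := by
  have hp3 : 3 ≤ p := by have := hp.two_le; omega
  have hpp : p - 1 + 1 = p := by omega
  -- `Q^p = 1`
  have hQp : Q ^ p = 1 := by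
    calc Q ^ p = (Q * g) ^ p := by rw [mul_pow, hg, mul_one]
      _ = 1 := by rw [hQg, ← map_pow, hg, map_one]
  -- `Q ≡ 1 mod ϖ` pointwise
  have hlev1 : ptsHom Q - 1 ∈ levelIdeal (O := R₀) (C := H) (Ideal.span {ϖ}) := by
    have h1 : mapR (σ : B →ₐ[R₀] B) (ptsHom g) - ptsHom g
        ∈ levelIdeal (O := R₀) (C := H) (Ideal.span {ϖ}) := by
      rw [mem_levelIdeal]
      intro c
      rw [Ideal.mem_span_singleton]
      exact hI σ hσ (g c)
    have h2 : (mapR (σ : B →ₐ[R₀] B) (ptsHom g) - ptsHom g) * ptsHom g ^ (p - 1)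
        ∈ levelIdeal (O := R₀) (C := H) (Ideal.span {ϖ}) := Ideal.mul_mem_right _ _ h1
    have heq : (mapR (σ : B →ₐ[R₀] B) (ptsHom g) - ptsHom g) * ptsHom g ^ (p - 1)
        = ptsHom Q - 1 := by
      rw [← ptsHom_mapPts, ← hQg, map_mul, sub_mul, mul_assoc, ← pow_succ', hpp, ← map_pow, hg,
        map_one, mul_one]
    rwa [heq] at h2
  -- hence mod `ϖ^e` by `hunr`
  have hlev : ∀ a : H, ϖ ^ e ∣ Q a - algebraMap R₀ B (Coalgebra.counit a) := by
    intro a
    refine hunr _ (fun τ hτ => ?_) ?_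
    · have h1 : τ (Q a) = Q a := by
        have := congrArg (fun P : WithConv (H →ₐ[R₀] B) => P a) (hQinv τ hτ)
        simpa using this
      rw [map_sub, h1, AlgEquiv.commutes]
    · have := (mem_levelIdeal.mp hlev1) a
      rw [Ideal.mem_span_singleton] at this
      simpa using this
  have hQ1 : Q = 1 := by
    refine pts_eq_one_of_dvd (t := e) hp hϖ hpe ?_ Q hQp hlev
    have : e * 2 ≤ e * (p - 1) := Nat.mul_le_mul_left _ (by omega)
    omega
  rw [← hQg, hQ1, one_mul]

end Fermat.Agent.S56x.Fontaine.Unr
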