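import Mathlib
import Fermat.Agent.S56x.Fontaine.Unr
import Fermat.Agent.S56x.Local.PadicInertia

/-!
helper9 (P-S56, block (A) LOCAL FLAT): lemma **(UNR)** of the blueprint (note 1366) in the concrete
carrier of `S56x/Local/PadicFinite`: `E / ℚ_[p]` finite Galois inside `PadicAlgCl p`,
`B = OE p E`, Galois group `E ≃ₐ[ℚ_[p]] E` acting on the points
`WithConv (H →ₐ[R₀] OE p E)` of a finite free commutative cocommutative bialgebra `H` over a base
`R₀` on which the Galois group acts trivially (`R₀ = ℤ_[p]`, or `ℤ_(p)`).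

It is `Fontaine/Unr.unr_inertia` with the arithmetic hypothesis `hunr` discharged by
`Local/PadicInertia.uniformizer_pow_dvd_of_inertia_fixed` (helper83: the inertia field is
unramified).

* `smulCommClass_OE` : the Galois action on `OE p E` is `ℤ_[p]`-linear.
* `galPts σ` : the action of `σ` on points, a monoid automorphism.
* `unr_OE` : **(UNR)**: `p` odd, `σ` in the inertia group of `E/ℚ_p`, `g` a point killed by `p`;
  if `Q := σ g · g⁻¹` (that is `Q * g = σ g`) is inertia-invariant, then `σ g = g`.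
-/

set_option autoImplicit false
set_option linter.unusedSectionVars false

open WithConv IsLocalRing

namespace Fermat.Agent.S56x.Fontaine.UnrPadic

open Fermat.Agent.S56x.Hopf Fermat.Agent.S56x.Fontaine.Unr
open Fermat.Agent.S56x.Local.PadicFinite Fermat.Agent.S56x.Local.PadicInertia

variable {p : ℕ} [Fact p.Prime] {E : IntermediateField ℚ_[p] (PadicAlgCl p)}

/-- the Galois action on `OE p E` is `ℤ_[p]`-linear. -/
instance smulCommClass_OE : SMulCommClass (E ≃ₐ[ℚ_[p]] E) ℤ_[p] (OE p E) :=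
  ⟨fun σ a x => by
    have h : σ • (algebraMap ℤ_[p] (OE p E) a) = algebraMap ℤ_[p] (OE p E) a := by
      apply Subtype.ext
      rw [coe_smul_OE, coe_algebraMap_OE, AlgEquiv.commutes]
    rw [Algebra.smul_def, Algebra.smul_def, smul_mul', h]⟩

variable {R₀ : Type*} [CommRing R₀] [Algebra R₀ (OE p E)]
  [SMulCommClass (E ≃ₐ[ℚ_[p]] E) R₀ (OE p E)]
variable {H : Type*} [CommRing H] [Bialgebra R₀ H]

/-- the action of `σ ∈ Gal(E/ℚ_p)` on `OE p E` as an `R₀`-algebra automorphism. -/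
noncomputable def galAlg (σ : E ≃ₐ[ℚ_[p]] E) : OE p E ≃ₐ[R₀] OE p E :=
  MulSemiringAction.toAlgEquiv R₀ (OE p E) σ

@[simp] theorem galAlg_apply (σ : E ≃ₐ[ℚ_[p]] E) (x : OE p E) :
    galAlg (R₀ := R₀) σ x = σ • x := rfl

/-- the action of `σ ∈ Gal(E/ℚ_p)` on the `OE p E`-points of `H`. -/
noncomputable def galPts (σ : E ≃ₐ[ℚ_[p]] E) :
    WithConv (H →ₐ[R₀] OE p E) →* WithConv (H →ₐ[R₀] OE p E) :=
  mapPts ((galAlg (R₀ := R₀) σ : OE p E ≃ₐ[R₀] OE p E) : OE p E →ₐ[R₀] OE p E)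

@[simp] theorem galPts_apply (σ : E ≃ₐ[ℚ_[p]] E) (g : WithConv (H →ₐ[R₀] OE p E)) (h : H) :
    galPts σ g h = σ • g h := rfl

variable [Coalgebra.IsCocomm R₀ H] [Module.Free R₀ H] [Module.Finite R₀ H]
variable [FiniteDimensional ℚ_[p] E] [Normal ℚ_[p] E]

/-- **(UNR)** for the points over `OE p E`: `p` odd, `σ` in the inertia group of `E/ℚ_p`,
`g` a point killed by `p`.  If the point `Q = σ g · g⁻¹` (that is `Q * g = σ g`) is fixed by the
inertia group, then `σ g = g`. -/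
theorem unr_OE (hp2 : p ≠ 2) (g Q : WithConv (H →ₐ[R₀] OE p E)) (hg : g ^ p = 1)
    (σ : E ≃ₐ[ℚ_[p]] E) (hσ : σ ∈ (maximalIdeal (OE p E)).inertia (E ≃ₐ[ℚ_[p]] E))
    (hQg : Q * g = galPts σ g)
    (hQinv : ∀ τ ∈ (maximalIdeal (OE p E)).inertia (E ≃ₐ[ℚ_[p]] E), galPts τ Q = Q) :
    galPts σ g = g := by
  have hp : p.Prime := Fact.out
  obtain ⟨ϖ, hϖ⟩ := IsDiscreteValuationRing.exists_irreducible (OE p E)
  obtain ⟨e, u, hu⟩ := IsDiscreteValuationRing.eq_unit_mul_pow_irreducible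
    (natCast_p_ne_zero (p := p) (E := E)) hϖ
  have he : 1 ≤ e := by
    rcases Nat.eq_zero_or_pos e with h0 | h0
    · exfalso
      subst h0
      have hmem := natCast_p_mem_maximalIdeal (p := p) (E := E)
      rw [hu, pow_zero, mul_one, mem_maximalIdeal, mem_nonunits_iff] at hmem
      exact hmem u.isUnit
    · exact h0
  have hpe : ((p : ℕ) : OE p E) = u * ϖ ^ e := hu
  -- the set of `R₀`-algebra automorphisms coming from the inertia group
  let I : Set (OE p E ≃ₐ[R₀] OE p E) :=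
    {τ' | ∃ τ ∈ (maximalIdeal (OE p E)).inertia (E ≃ₐ[ℚ_[p]] E), galAlg (R₀ := R₀) τ = τ'}
  have hI : ∀ τ' ∈ I, ∀ y : OE p E, ϖ ∣ τ' y - y := by
    rintro τ' ⟨τ, hτ, rfl⟩ y
    have h1 : τ • y - y ∈ maximalIdeal (OE p E) := hτ y
    rw [hϖ.maximalIdeal_eq, Ideal.mem_span_singleton] at h1
    exact h1
  have hunr : ∀ y : OE p E, (∀ τ' ∈ I, τ' y = y) → ϖ ∣ y → ϖ ^ e ∣ y := by
    intro y hy hdvd
    refine uniformizer_pow_dvd_of_inertia_fixed hϖ hpe y (fun τ hτ => ?_) hdvd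
    exact hy _ ⟨τ, hτ, rfl⟩
  refine unr_inertia hp hp2 hϖ hpe he I hI hunr g Q hg (galAlg (R₀ := R₀) σ) ⟨σ, hσ, rfl⟩ hQg ?_
  rintro τ' ⟨τ, hτ, rfl⟩
  exact hQinv τ hτ

end Fermat.Agent.S56x.Fontaine.UnrPadic
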