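/-
P-S56, block (A) LOCAL FLAT, c-slot (helper73): the `p`-adic instantiation of Theorem Q
(`Fontaine/UnrQuot.lean`, `Fontaine/UnrQuotGalois.lean`) at FINITE level.

`H` a finite free commutative cocommutative Hopf algebra over `ℤ_[p]`, `E / ℚ_[p]` a finite normal
subextension of `PadicAlgCl p` containing the coordinates of all points of `H`, `M` a finite
abelian group killed by `p` identified (additively, equivariantly for `Gal(PadicAlgCl p/ℚ_[p])`)
with the points of `H`, `M0 ≤ M` a Galois stable subgroup.  If `s` is inertial on `E` and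
`(τ - 1)(s - 1) x ∈ M0` for all `τ` inertial on `E`, then `(s - 1) x ∈ M0`.

All arithmetic inputs are discharged from `Local/PadicFinite` and `Local/PadicInertia` (helper83):
Theorem Q is run in `B = O_E`.
-/
import Mathlib
import Fermat.Agent.S56x.Fontaine.UnrQuotGalois
import Fermat.Agent.S56x.Local.PadicInertia

set_option autoImplicit false
set_option linter.style.longLine false
set_option linter.unusedSectionVars false
set_option linter.unusedVariables false

noncomputable section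

namespace Fermat.Agent.S56x.Fontaine.UnrQuotPadic

open WithConv IsLocalRing
open Fermat.Agent.S56x.Hopf Fermat.Agent.S56x.Fontaine.UnrQuot
open Fermat.Agent.S56x.Local.PadicFinite Fermat.Agent.S56x.Local.PadicInertia

variable {p : ℕ} [Fact p.Prime] (E : IntermediateField ℚ_[p] (PadicAlgCl p))

/-- the inclusion `O_E → PadicAlgCl p` as a `ℤ_[p]`-algebra homomorphism. -/
def incl : OE p E →ₐ[ℤ_[p]] PadicAlgCl p where
  toFun b := ((b : E) : PadicAlgCl p)
  map_one' := rfl
  map_mul' _ _ := rfl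
  map_zero' := rfl
  map_add' _ _ := rfl
  commutes' _ := rfl

@[simp] theorem incl_apply (b : OE p E) : incl E b = ((b : E) : PadicAlgCl p) := rfl

theorem incl_injective : Function.Injective (incl E) := by
  intro a b hab
  apply Subtype.ext
  apply Subtype.ext
  exact hab

/-- the action of `Gal(E/ℚ_[p])` on `O_E` by `ℤ_[p]`-algebra endomorphisms. -/
def actOE (σ : E ≃ₐ[ℚ_[p]] E) : OE p E →ₐ[ℤ_[p]] OE p E where
  toFun b := σ • b
  map_one' := smul_one σ
  map_mul' := smul_mul' σ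
  map_zero' := smul_zero σ
  map_add' := smul_add σ
  commutes' a := by
    apply Subtype.ext
    rw [coe_smul_OE, coe_algebraMap_OE, AlgEquiv.commutes]

@[simp] theorem actOE_apply (σ : E ≃ₐ[ℚ_[p]] E) (b : OE p E) : actOE E σ b = σ • b := rfl

theorem actOE_injective (σ : E ≃ₐ[ℚ_[p]] E) : Function.Injective (actOE E σ) := by
  intro a b hab
  exact MulAction.injective σ hab

variable [FiniteDimensional ℚ_[p] E]

theorem mem_maximalIdeal_iff_norm_lt_one (y : OE p E) :
    y ∈ maximalIdeal (OE p E) ↔ ‖(y : E)‖ < 1 := by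
  rw [mem_maximalIdeal, mem_nonunits_iff, isUnit_iff_norm_eq_one]
  have := norm_le_one y
  constructor
  · intro h; exact lt_of_le_of_ne this h
  · intro h; exact ne_of_lt h

theorem smul_mem_maximalIdeal (σ : E ≃ₐ[ℚ_[p]] E) {y : OE p E} (hy : y ∈ maximalIdeal (OE p E)) :
    σ • y ∈ maximalIdeal (OE p E) := by
  rw [mem_maximalIdeal_iff_norm_lt_one] at hy ⊢
  rwa [coe_smul_OE, norm_algEquiv]

/-- `τ ∈ Gal(PadicAlgCl p/ℚ_[p])` is *inertial on `E`*: its restriction to `E` acts trivially on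
the residue field of `O_E`. -/
def InertialOn [Normal ℚ_[p] E] (τ : PadicAlgCl p ≃ₐ[ℚ_[p]] PadicAlgCl p) : Prop :=
  ∀ b : OE p E, (AlgEquiv.restrictNormalHom E τ) • b - b ∈ maximalIdeal (OE p E)

theorem incl_restrict [Normal ℚ_[p] E] (τ : PadicAlgCl p ≃ₐ[ℚ_[p]] PadicAlgCl p) (b : OE p E) :
    incl E (actOE E (AlgEquiv.restrictNormalHom E τ) b) = τ (incl E b) := by
  change (((AlgEquiv.restrictNormalHom E τ) (b : E) : E) : PadicAlgCl p) = τ ((b : E) : PadicAlgCl p)
  exact AlgEquiv.restrictNormal_commutes τ E (b : E)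

/-- the elements inertial on `E` form a subgroup. -/
def inertialSubgroup [Normal ℚ_[p] E] :
    Subgroup (PadicAlgCl p ≃ₐ[ℚ_[p]] PadicAlgCl p) :=
  ((maximalIdeal (OE p E)).toAddSubgroup.inertia (E ≃ₐ[ℚ_[p]] E)).comap
    (AlgEquiv.restrictNormalHom E)

theorem mem_inertialSubgroup [Normal ℚ_[p] E]
    (τ : PadicAlgCl p ≃ₐ[ℚ_[p]] PadicAlgCl p) :
    τ ∈ inertialSubgroup E ↔ InertialOn E τ := Iff.rfl

instance inertialSubgroup_normal [Normal ℚ_[p] E] : (inertialSubgroup E).Normal := by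
  refine ⟨fun τ hτ g => ?_⟩
  rw [mem_inertialSubgroup] at hτ ⊢
  intro b
  set σ := AlgEquiv.restrictNormalHom E τ with hσ
  set γ := AlgEquiv.restrictNormalHom E g with hγ
  have h1 : AlgEquiv.restrictNormalHom E (g * τ * g⁻¹) = γ * σ * γ⁻¹ := by
    rw [map_mul, map_mul, map_inv]
  rw [h1]
  have h2 : (γ * σ * γ⁻¹) • b - b = γ • (σ • (γ⁻¹ • b) - γ⁻¹ • b) := by
    rw [smul_sub, mul_smul, mul_smul, smul_inv_smul]
  rw [h2]
  exact smul_mem_maximalIdeal E γ (hτ (γ⁻¹ • b))

/-! ### Points -/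

section Points

variable {H : Type*} [CommRing H] [HopfAlgebra ℤ_[p] H] [Coalgebra.IsCocomm ℤ_[p] H]

theorem mapPts_incl_injective :
    Function.Injective (mapPts (O := ℤ_[p]) (H := H) (incl E)) := by
  intro t t' htt'
  apply WithConv.ext
  apply AlgHom.ext
  intro h
  apply incl_injective E
  exact congrArg (fun z : Pts ℤ_[p] H (PadicAlgCl p) => z h) htt'

omit [FiniteDimensional ℚ_[p] E] in
/-- every `PadicAlgCl p`-point of `H` with coordinates in `E` descends to `O_E`. -/
theorem exists_down [Module.Finite ℤ_[p] H]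
    (hE : ∀ (f : H →ₐ[ℤ_[p]] PadicAlgCl p) (h : H), f h ∈ E)
    (y : Pts ℤ_[p] H (PadicAlgCl p)) :
    ∃ y' : Pts ℤ_[p] H (OE p E), ∀ h, incl E (y' h) = y h := by
  have : IsScalarTower ℤ_[p] E (PadicAlgCl p) := IsScalarTower.of_algebraMap_eq' rfl
  have hint : ∀ h : H, ‖(⟨y h, hE y.ofConv h⟩ : E)‖ ≤ 1 := by
    intro h
    rw [← isIntegral_iff_norm_le_one]
    have h1 : IsIntegral ℤ_[p] (y.ofConv h) :=
      (Algebra.IsIntegral.isIntegral (R := ℤ_[p]) h).map y.ofConv
    have h2 : algebraMap E (PadicAlgCl p) (⟨y h, hE y.ofConv h⟩ : E) = y.ofConv h := rfl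
    rw [← h2] at h1
    exact (isIntegral_algebraMap_iff (algebraMap E (PadicAlgCl p)).injective).mp h1
  let f : H →ₐ[ℤ_[p]] OE p E :=
    { toFun := fun h => ⟨⟨y h, hE y.ofConv h⟩, mem_OE.mpr (hint h)⟩
      map_one' := Subtype.ext (Subtype.ext (map_one y.ofConv))
      map_mul' := fun a b => Subtype.ext (Subtype.ext (map_mul y.ofConv a b))
      map_zero' := Subtype.ext (Subtype.ext (map_zero y.ofConv))
      map_add' := fun a b => Subtype.ext (Subtype.ext (map_add y.ofConv a b))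
      commutes' := fun a => Subtype.ext (Subtype.ext (y.ofConv.commutes a)) }
  exact ⟨toConv f, fun h => rfl⟩

/-- **Theorem Q, `p`-adic form at finite level.**  `E/ℚ_[p]` finite normal containing the
coordinates of all points of `H`; `M` (finite, killed by `p`) the group of points, with its Galois
action; `M0` a Galois stable subgroup.  If `s` is inertial on `E` and `(τ - 1)(s - 1) x ∈ M0` for
every `τ` inertial on `E`, then `(s - 1) x ∈ M0`. -/
theorem sub_mem_of_unr [Normal ℚ_[p] E] [Module.Finite ℤ_[p] H] [Module.Free ℤ_[p] H]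
    (hp2 : p ≠ 2)
    (hE : ∀ (f : H →ₐ[ℤ_[p]] PadicAlgCl p) (h : H), f h ∈ E)
    {M : Type*} [AddCommGroup M] [Finite M]
    (e : WithConv (H →ₐ[ℤ_[p]] PadicAlgCl p) ≃ M)
    (he : ∀ f g : WithConv (H →ₐ[ℤ_[p]] PadicAlgCl p), e (f * g) = e f + e g)
    (hMp : ∀ m : M, p • m = 0)
    (act : (PadicAlgCl p ≃ₐ[ℚ_[p]] PadicAlgCl p) → M → M)
    (hact : ∀ (τ : PadicAlgCl p ≃ₐ[ℚ_[p]] PadicAlgCl p)
      (f g : WithConv (H →ₐ[ℤ_[p]] PadicAlgCl p)), (∀ h : H, g h = τ (f h)) → e g = act τ (e f))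
    (M0 : AddSubgroup M) (hM0 : ∀ τ, ∀ m ∈ M0, act τ m ∈ M0)
    (s : PadicAlgCl p ≃ₐ[ℚ_[p]] PadicAlgCl p) (hs : InertialOn E s) (x : M)
    (hx : ∀ τ, InertialOn E τ → act τ (act s x - x) - (act s x - x) ∈ M0) :
    act s x - x ∈ M0 := by
  classical
  let eB : Pts ℤ_[p] H (OE p E) → M := fun t => e (mapPts (incl E) t)
  have heB_mul : ∀ t t', eB (t * t') = eB t + eB t' := fun t t' => by
    simp only [eB, map_mul, he]
  have he1 : e 1 = 0 := by
    have := he 1 1
    rw [mul_one] at this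
    exact left_eq_add.mp this
  have heB_one : eB 1 = 0 := by simp only [eB, map_one, he1]
  have heB_inj : Function.Injective eB := e.injective.comp (mapPts_incl_injective E)
  have heB_inv : ∀ t, eB (ptsInv t) = - eB t := fun t => by
    have := heB_mul t (ptsInv t)
    rw [mul_ptsInv_cancel, heB_one] at this
    exact eq_neg_of_add_eq_zero_right this.symm
  have heB_pow : ∀ (t : Pts ℤ_[p] H (OE p E)) (k : ℕ), eB (t ^ k) = k • eB t := by
    intro t k
    induction k with
    | zero => simp [heB_one]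
    | succ k ih => rw [pow_succ, heB_mul, ih, succ_nsmul]
  have heB_act : ∀ (τ : PadicAlgCl p ≃ₐ[ℚ_[p]] PadicAlgCl p) (t : Pts ℤ_[p] H (OE p E)),
      eB (mapPts (actOE E (AlgEquiv.restrictNormalHom E τ)) t) = act τ (eB t) := by
    intro τ t
    apply hact τ
    intro h
    exact incl_restrict E τ (t h)
  -- the subgroup `T₂`
  let T₂ : Submonoid (Pts ℤ_[p] H (OE p E)) :=
    { carrier := {t | eB t ∈ M0}
      one_mem' := by
        change eB 1 ∈ M0
        rw [heB_one]
        exact M0.zero_mem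
      mul_mem' := by
        intro a b ha hb
        change eB (a * b) ∈ M0
        rw [heB_mul]
        exact M0.add_mem ha hb }
  have : Finite T₂ :=
    Finite.of_injective (fun t : T₂ => eB t) (heB_inj.comp Subtype.val_injective)
  have : Fintype T₂ := Fintype.ofFinite T₂
  have hinv : ∀ t ∈ T₂, ptsInv t ∈ T₂ := fun t ht => by
    change eB (ptsInv t) ∈ M0
    rw [heB_inv]
    exact M0.neg_mem ht
  -- (Tr): the sums over `T₂` are Galois invariant, hence in `ℤ_[p]`
  have hsum : ∀ h : H, ∃ a : ℤ_[p],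
      ∑ t : T₂, (t : Pts ℤ_[p] H (OE p E)) h = algebraMap ℤ_[p] (OE p E) a := by
    intro h
    have hfix : ∀ σ : E ≃ₐ[ℚ_[p]] E, σ • (∑ t : T₂, (t : Pts ℤ_[p] H (OE p E)) h)
        = ∑ t : T₂, (t : Pts ℤ_[p] H (OE p E)) h := by
      intro σ
      obtain ⟨τ, rfl⟩ := restrict_surjective p E σ
      let φ : T₂ → T₂ := fun t =>
        ⟨mapPts (actOE E (AlgEquiv.restrictNormalHom E τ)) t, by
          change eB _ ∈ M0
          rw [heB_act]
          exact hM0 τ _ t.2⟩
      have hφinj : Function.Injective φ := by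
        intro t t' htt'
        apply Subtype.ext
        have h1 := congrArg Subtype.val htt'
        apply WithConv.ext
        apply AlgHom.ext
        intro h'
        have h2 := congrArg (fun z : Pts ℤ_[p] H (OE p E) => z h') h1
        exact actOE_injective E _ h2
      have hφbij : Function.Bijective φ := Finite.injective_iff_bijective.mp hφinj
      rw [Finset.smul_sum]
      exact Fintype.sum_bijective φ hφbij _ _ (fun t => rfl)
    obtain ⟨a, ha⟩ := (fixed_iff_mem_range _).mp hfix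
    exact ⟨a, ha.symm⟩
  -- inertia
  let I : Set (OE p E →ₐ[ℤ_[p]] OE p E) :=
    {τ' | ∃ σ : E ≃ₐ[ℚ_[p]] E,
      (∀ b : OE p E, σ • b - b ∈ maximalIdeal (OE p E)) ∧ τ' = actOE E σ}
  have hunr : ∀ y : OE p E, (∀ τ' ∈ I, τ' y = y) → y ∈ maximalIdeal (OE p E) →
      ((p : ℕ) : OE p E) ∣ y := by
    intro y hy hym
    exact inertia_fixed_dvd y hym (fun σ hσ => hy (actOE E σ) ⟨σ, hσ, rfl⟩)
  have hreg : ∀ z : OE p E, ((p : ℕ) : OE p E) * z = 0 → z = 0 := by
    intro z hz
    exact (mul_eq_zero.mp hz).resolve_left natCast_p_ne_zero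
  have hsepB : ∀ z : OE p E, (∀ m : ℕ, ((p : ℕ) : OE p E) ^ m ∣ z) → z = 0 := by
    intro z hz
    by_contra hne
    have hpos : 0 < ‖(z : E)‖ := norm_pos_iff.mpr (fun h => hne (Subtype.ext h))
    have hp1 : (1 : ℝ) < p := by exact_mod_cast (Fact.out : p.Prime).one_lt
    obtain ⟨m, hm⟩ := pow_unbounded_of_one_lt (‖(z : E)‖⁻¹) hp1
    obtain ⟨c, hc⟩ := hz m
    have hle : ‖(z : E)‖ ≤ ((p : ℝ) ^ m)⁻¹ := by
      have h1 : (z : E) = ((p : ℕ) : E) ^ m * (c : E) := by
        rw [hc]
        push_cast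
        rfl
      rw [h1, norm_mul, norm_pow, norm_natCast_p, inv_pow]
      calc ((p : ℝ) ^ m)⁻¹ * ‖(c : E)‖ ≤ ((p : ℝ) ^ m)⁻¹ * 1 := by
            gcongr
            exact norm_le_one c
        _ = ((p : ℝ) ^ m)⁻¹ := mul_one _
    have hlt : ((p : ℝ) ^ m)⁻¹ < ‖(z : E)‖ := by
      have hpm : (0 : ℝ) < (p : ℝ) ^ m := by positivity
      rw [inv_lt_comm₀ hpm hpos]
      exact hm
    exact absurd hle (not_le.mpr hlt)
  -- (Sep)
  let b := Module.finBasis ℤ_[p] H
  have hsep := sep_of_forall_exists_lift (incl E) (incl_injective E) b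
    (sep_of_isAlgClosed (L := PadicAlgCl p) b) (exists_down E hE)
  -- the point
  obtain ⟨xB, hxB⟩ := exists_down E hE (e.symm x)
  have hxB' : eB xB = x := by
    have h1 : mapPts (incl E) xB = e.symm x := by
      apply WithConv.ext
      apply AlgHom.ext
      intro h
      exact hxB h
    simp only [eB, h1, Equiv.apply_symm_apply]
  let g : Pts ℤ_[p] H (OE p E) :=
    mapPts (actOE E (AlgEquiv.restrictNormalHom E s)) xB * ptsInv xB
  have hg : eB g = act s x - x := by
    rw [heB_mul, heB_inv, heB_act, hxB', sub_eq_add_neg]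
  have hgp : g ^ p = 1 := heB_inj (by rw [heB_pow, hMp, heB_one])
  have hgm : g ∈ congOne (O := ℤ_[p]) (H := H) (maximalIdeal (OE p E)) :=
    commutator_mem_congOne (actOE E (AlgEquiv.restrictNormalHom E s)) (fun y => hs y) xB
  have hginv : ∀ τ' ∈ I, ∃ t ∈ T₂, mapPts τ' g = g * t := by
    rintro τ' ⟨σ', hσ', rfl⟩
    obtain ⟨τ, hτ⟩ := restrict_surjective p E σ'
    have hτI : InertialOn E τ := by
      intro b
      rw [hτ]
      exact hσ' b
    refine ⟨mapPts (actOE E σ') g * ptsInv g, ?_, ?_⟩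
    · change eB _ ∈ M0
      rw [heB_mul, heB_inv, ← hτ, heB_act, hg, ← sub_eq_add_neg]
      exact hx τ hτI
    · rw [mul_comm (mapPts _ g), ← mul_assoc, mul_ptsInv_cancel, one_mul]
  have key : g ∈ T₂ :=
    mem_of_unr_fixed (algebraMap_OE_injective p E) (Fact.out : p.Prime) hp2 b hsep T₂ hinv hsum I
      (maximalIdeal (OE p E)) hunr hreg hsepB g hgp hgm hginv
  have hfin : eB g ∈ M0 := key
  rwa [hg] at hfin

end Points

end Fermat.Agent.S56x.Fontaine.UnrQuotPadic
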