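/-
P-S56, block (A) LOCAL FLAT, c-slot (helper73): Theorem Q (`Fontaine/UnrQuot*.lean`) for the FULL
local inertia group `LocalInertia.localInertia' p ≤ Gal(PadicAlgCl p/ℚ_[p])` (helper3), with all
arithmetic discharged ((F1) = helper9's `Local/InertiaFixedOmega`).  No auxiliary field appears in
the statement `sub_mem_of_localInertia`.

* `sub_mem_of_unr_of` : the general form, for an arbitrary set `J` of automorphisms such that the
  `J`-invariant elements of `𝔪_E` are divisible by `p` in `O_E`;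
* `sub_mem_of_localInertia` : `J = localInertia' p`, `E = ℚ_p(points)`.
-/
import Mathlib
import Fermat.Agent.S56x.Fontaine.UnrQuotPadic
import Fermat.Agent.S56x.Fontaine.PointsField
import Fermat.Agent.S56x.Local.InertiaFixedOmega

set_option autoImplicit false
set_option linter.style.longLine false
set_option linter.unusedSectionVars false
set_option linter.unusedVariables false

noncomputable section

namespace Fermat.Agent.S56x.Fontaine.UnrQuotLocal

open WithConv IsLocalRing
open Fermat.Agent.S56x.Hopf Fermat.Agent.S56x.Fontaine.UnrQuot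
open Fermat.Agent.S56x.Fontaine.UnrQuotPadic
open Fermat.Agent.S56x.Local.PadicFinite Fermat.Agent.S56x.Local.PadicInertia
open Fermat.Agent.S56x.Local.LocalInertia Fermat.Agent.S56x.Local.InertiaFixedOmega

variable {p : ℕ} [Fact p.Prime] (E : IntermediateField ℚ_[p] (PadicAlgCl p))
  [FiniteDimensional ℚ_[p] E]

variable {H : Type*} [CommRing H] [HopfAlgebra ℤ_[p] H] [Coalgebra.IsCocomm ℤ_[p] H]

/-- **Theorem Q, `p`-adic form at finite level, general inertia set.**  `J` is any set of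
automorphisms such that the `J`-invariant elements of `𝔪_E` are divisible by `p` in `O_E`. -/
theorem sub_mem_of_unr_of [Normal ℚ_[p] E] [Module.Finite ℤ_[p] H] [Module.Free ℤ_[p] H]
    (hp2 : p ≠ 2)
    (hE : ∀ (f : H →ₐ[ℤ_[p]] PadicAlgCl p) (h : H), f h ∈ E)
    (J : Set (PadicAlgCl p ≃ₐ[ℚ_[p]] PadicAlgCl p))
    (hJunr : ∀ y : OE p E, (∀ τ ∈ J, (AlgEquiv.restrictNormalHom E τ) • y = y) →
      y ∈ maximalIdeal (OE p E) → ((p : ℕ) : OE p E) ∣ y)
    {M : Type*} [AddCommGroup M] [Finite M]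
    (e : WithConv (H →ₐ[ℤ_[p]] PadicAlgCl p) ≃ M)
    (he : ∀ f g : WithConv (H →ₐ[ℤ_[p]] PadicAlgCl p), e (f * g) = e f + e g)
    (hMp : ∀ m : M, p • m = 0)
    (act : (PadicAlgCl p ≃ₐ[ℚ_[p]] PadicAlgCl p) → M → M)
    (hact : ∀ (τ : PadicAlgCl p ≃ₐ[ℚ_[p]] PadicAlgCl p)
      (f g : WithConv (H →ₐ[ℤ_[p]] PadicAlgCl p)), (∀ h : H, g h = τ (f h)) → e g = act τ (e f))
    (M0 : AddSubgroup M) (hM0 : ∀ τ, ∀ m ∈ M0, act τ m ∈ M0)
    (s : PadicAlgCl p ≃ₐ[ℚ_[p]] PadicAlgCl p) (hs : InertialOn E s) (x : M)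
    (hx : ∀ τ ∈ J, act τ (act s x - x) - (act s x - x) ∈ M0) :
    act s x - x ∈ M0 := by
  classical
  let eB : Pts ℤ_[p] H (OE p E) → M := fun t => e (mapPts (incl E) t)
  have heB_mul : ∀ t t', eB (t * t') = eB t + eB t' := fun t t' => by
    simp only [eB, map_mul, he]
  have he1 : e 1 = 0 := by
    have := he 1 1
    rw [mul_one] at this
    exact left_eq_add.mp this
  have heB_one : eB 1 = 0 := by simp only [eB, map_one, he1]
  have heB_inj : Function.Injective eB := e.injective.comp (mapPts_incl_injective E)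
  have heB_inv : ∀ t, eB (ptsInv t) = - eB t := fun t => by
    have := heB_mul t (ptsInv t)
    rw [mul_ptsInv_cancel, heB_one] at this
    exact eq_neg_of_add_eq_zero_right this.symm
  have heB_pow : ∀ (t : Pts ℤ_[p] H (OE p E)) (k : ℕ), eB (t ^ k) = k • eB t := by
    intro t k
    induction k with
    | zero => simp [heB_one]
    | succ k ih => rw [pow_succ, heB_mul, ih, succ_nsmul]
  have heB_act : ∀ (τ : PadicAlgCl p ≃ₐ[ℚ_[p]] PadicAlgCl p) (t : Pts ℤ_[p] H (OE p E)),
      eB (mapPts (actOE E (AlgEquiv.restrictNormalHom E τ)) t) = act τ (eB t) := by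
    intro τ t
    apply hact τ
    intro h
    exact incl_restrict E τ (t h)
  -- the subgroup `T₂`
  let T₂ : Submonoid (Pts ℤ_[p] H (OE p E)) :=
    { carrier := {t | eB t ∈ M0}
      one_mem' := by
        change eB 1 ∈ M0
        rw [heB_one]
        exact M0.zero_mem
      mul_mem' := by
        intro a b ha hb
        change eB (a * b) ∈ M0
        rw [heB_mul]
        exact M0.add_mem ha hb }
  have : Finite T₂ :=
    Finite.of_injective (fun t : T₂ => eB t) (heB_inj.comp Subtype.val_injective)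
  have : Fintype T₂ := Fintype.ofFinite T₂
  have hinv : ∀ t ∈ T₂, ptsInv t ∈ T₂ := fun t ht => by
    change eB (ptsInv t) ∈ M0
    rw [heB_inv]
    exact M0.neg_mem ht
  -- (Tr): the sums over `T₂` are Galois invariant, hence in `ℤ_[p]`
  have hsum : ∀ h : H, ∃ a : ℤ_[p],
      ∑ t : T₂, (t : Pts ℤ_[p] H (OE p E)) h = algebraMap ℤ_[p] (OE p E) a := by
    intro h
    have hfix : ∀ σ : E ≃ₐ[ℚ_[p]] E, σ • (∑ t : T₂, (t : Pts ℤ_[p] H (OE p E)) h)
        = ∑ t : T₂, (t : Pts ℤ_[p] H (OE p E)) h := by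
      intro σ
      obtain ⟨τ, rfl⟩ := restrict_surjective p E σ
      let φ : T₂ → T₂ := fun t =>
        ⟨mapPts (actOE E (AlgEquiv.restrictNormalHom E τ)) t, by
          change eB _ ∈ M0
          rw [heB_act]
          exact hM0 τ _ t.2⟩
      have hφinj : Function.Injective φ := by
        intro t t' htt'
        apply Subtype.ext
        have h1 := congrArg Subtype.val htt'
        apply WithConv.ext
        apply AlgHom.ext
        intro h'
        have h2 := congrArg (fun z : Pts ℤ_[p] H (OE p E) => z h') h1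
        exact actOE_injective E _ h2
      have hφbij : Function.Bijective φ := Finite.injective_iff_bijective.mp hφinj
      rw [Finset.smul_sum]
      exact Fintype.sum_bijective φ hφbij _ _ (fun t => rfl)
    obtain ⟨a, ha⟩ := (fixed_iff_mem_range _).mp hfix
    exact ⟨a, ha.symm⟩
  -- inertia
  let I : Set (OE p E →ₐ[ℤ_[p]] OE p E) :=
    {τ' | ∃ τ ∈ J, τ' = actOE E (AlgEquiv.restrictNormalHom E τ)}
  have hunr : ∀ y : OE p E, (∀ τ' ∈ I, τ' y = y) → y ∈ maximalIdeal (OE p E) →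
      ((p : ℕ) : OE p E) ∣ y := by
    intro y hy hym
    exact hJunr y (fun τ hτ => hy _ ⟨τ, hτ, rfl⟩) hym
  have hreg : ∀ z : OE p E, ((p : ℕ) : OE p E) * z = 0 → z = 0 := by
    intro z hz
    exact (mul_eq_zero.mp hz).resolve_left natCast_p_ne_zero
  have hsepB : ∀ z : OE p E, (∀ m : ℕ, ((p : ℕ) : OE p E) ^ m ∣ z) → z = 0 := by
    intro z hz
    by_contra hne
    have hpos : 0 < ‖(z : E)‖ := norm_pos_iff.mpr (fun h => hne (Subtype.ext h))
    have hp1 : (1 : ℝ) < p := by exact_mod_cast (Fact.out : p.Prime).one_lt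
    obtain ⟨m, hm⟩ := pow_unbounded_of_one_lt (‖(z : E)‖⁻¹) hp1
    obtain ⟨c, hc⟩ := hz m
    have hle : ‖(z : E)‖ ≤ ((p : ℝ) ^ m)⁻¹ := by
      have h1 : (z : E) = ((p : ℕ) : E) ^ m * (c : E) := by
        rw [hc]
        push_cast
        rfl
      rw [h1, norm_mul, norm_pow, norm_natCast_p, inv_pow]
      calc ((p : ℝ) ^ m)⁻¹ * ‖(c : E)‖ ≤ ((p : ℝ) ^ m)⁻¹ * 1 := by
            gcongr
            exact norm_le_one c
        _ = ((p : ℝ) ^ m)⁻¹ := mul_one _
    have hlt : ((p : ℝ) ^ m)⁻¹ < ‖(z : E)‖ := by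
      have hpm : (0 : ℝ) < (p : ℝ) ^ m := by positivity
      rw [inv_lt_comm₀ hpm hpos]
      exact hm
    exact absurd hle (not_le.mpr hlt)
  -- (Sep)
  let b := Module.finBasis ℤ_[p] H
  have hsep := sep_of_forall_exists_lift (incl E) (incl_injective E) b
    (sep_of_isAlgClosed (L := PadicAlgCl p) b) (exists_down E hE)
  -- the point
  obtain ⟨xB, hxB⟩ := exists_down E hE (e.symm x)
  have hxB' : eB xB = x := by
    have h1 : mapPts (incl E) xB = e.symm x := by
      apply WithConv.ext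
      apply AlgHom.ext
      intro h
      exact hxB h
    simp only [eB, h1, Equiv.apply_symm_apply]
  let g : Pts ℤ_[p] H (OE p E) :=
    mapPts (actOE E (AlgEquiv.restrictNormalHom E s)) xB * ptsInv xB
  have hg : eB g = act s x - x := by
    rw [heB_mul, heB_inv, heB_act, hxB', sub_eq_add_neg]
  have hgp : g ^ p = 1 := heB_inj (by rw [heB_pow, hMp, heB_one])
  have hgm : g ∈ congOne (O := ℤ_[p]) (H := H) (maximalIdeal (OE p E)) :=
    commutator_mem_congOne (actOE E (AlgEquiv.restrictNormalHom E s)) (fun y => hs y) xB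
  have hginv : ∀ τ' ∈ I, ∃ t ∈ T₂, mapPts τ' g = g * t := by
    rintro τ' ⟨τ, hτ, rfl⟩
    refine ⟨mapPts (actOE E (AlgEquiv.restrictNormalHom E τ)) g * ptsInv g, ?_, ?_⟩
    · change eB _ ∈ M0
      rw [heB_mul, heB_inv, heB_act, hg, ← sub_eq_add_neg]
      exact hx τ hτ
    · rw [mul_comm (mapPts _ g), ← mul_assoc, mul_ptsInv_cancel, one_mul]
  have key : g ∈ T₂ :=
    mem_of_unr_fixed (algebraMap_OE_injective p E) (Fact.out : p.Prime) hp2 b hsep T₂ hinv hsum I
      (maximalIdeal (OE p E)) hunr hreg hsepB g hgp hgm hginv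
  have hfin : eB g ∈ M0 := key
  rwa [hg] at hfin


/-- an element of the full local inertia group is inertial on every finite normal `E`. -/
theorem inertialOn_of_mem_localInertia [Normal ℚ_[p] E]
    {τ : PadicAlgCl p ≃ₐ[ℚ_[p]] PadicAlgCl p} (hτ : τ ∈ localInertia' p) : InertialOn E τ := by
  intro b
  rw [mem_maximalIdeal_iff_norm_lt_one]
  have h1 := (mem_localInertia_iff_forall_norm p τ).mp hτ (incl E b) (norm_le_one b)
  have h2 : incl E ((AlgEquiv.restrictNormalHom E τ) • b - b) = τ (incl E b) - incl E b := by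
    rw [map_sub, ← incl_restrict E τ b]
    rfl
  have h3 : ‖((((AlgEquiv.restrictNormalHom E τ) • b - b : OE p E) : E))‖
      = ‖incl E ((AlgEquiv.restrictNormalHom E τ) • b - b)‖ := rfl
  rw [h3, h2]
  exact h1

/-- **(F1)** in `O_E` for the full local inertia group. -/
theorem dvd_of_fixed_localInertia [Normal ℚ_[p] E] (y : OE p E)
    (hy : ∀ τ ∈ localInertia' p, (AlgEquiv.restrictNormalHom E τ) • y = y)
    (hym : y ∈ maximalIdeal (OE p E)) : ((p : ℕ) : OE p E) ∣ y := by
  have hfix : ∀ τ ∈ localInertia' p, τ (incl E y) = incl E y := by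
    intro τ hτ
    rw [← incl_restrict E τ y]
    exact congrArg (incl E) (hy τ hτ)
  have hlt : ‖incl E y‖ < 1 := (mem_maximalIdeal_iff_norm_lt_one E y).mp hym
  have hle := norm_le_of_fixed (incl E y) hfix hlt
  have hp0 : ((p : ℕ) : E) ≠ 0 := by
    exact_mod_cast (Fact.out : p.Prime).ne_zero
  have hz : ‖(y : E) / ((p : ℕ) : E)‖ ≤ 1 := by
    rw [norm_div, norm_natCast_p]
    have hpos : (0 : ℝ) < (p : ℝ)⁻¹ := by
      have : (0 : ℝ) < p := by exact_mod_cast (Fact.out : p.Prime).pos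
      positivity
    rw [div_le_one hpos]
    exact hle
  refine ⟨⟨(y : E) / ((p : ℕ) : E), mem_OE.mpr hz⟩, ?_⟩
  apply Subtype.ext
  push_cast
  field_simp

/-- **Theorem Q for the full local inertia group, all arithmetic discharged.**
`H` finite free commutative cocommutative Hopf algebra over `ℤ_[p]`, `p` odd; `M` (finite, killed
by `p`) its group of `PadicAlgCl p`-points with the action of `Gal(PadicAlgCl p/ℚ_[p])`; `M0` a
Galois stable subgroup.  If `s` is in the inertia group and `(τ - 1)(s - 1) x ∈ M0` for every `τ`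
in the inertia group, then `(s - 1) x ∈ M0`. -/
theorem sub_mem_of_localInertia [Module.Finite ℤ_[p] H] [Module.Free ℤ_[p] H]
    (hp2 : p ≠ 2)
    {M : Type*} [AddCommGroup M] [Finite M]
    (e : WithConv (H →ₐ[ℤ_[p]] PadicAlgCl p) ≃ M)
    (he : ∀ f g : WithConv (H →ₐ[ℤ_[p]] PadicAlgCl p), e (f * g) = e f + e g)
    (hMp : ∀ m : M, p • m = 0)
    (act : (PadicAlgCl p ≃ₐ[ℚ_[p]] PadicAlgCl p) → M → M)
    (hact : ∀ (τ : PadicAlgCl p ≃ₐ[ℚ_[p]] PadicAlgCl p)
      (f g : WithConv (H →ₐ[ℤ_[p]] PadicAlgCl p)), (∀ h : H, g h = τ (f h)) → e g = act τ (e f))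
    (M0 : AddSubgroup M) (hM0 : ∀ τ, ∀ m ∈ M0, act τ m ∈ M0)
    (s : PadicAlgCl p ≃ₐ[ℚ_[p]] PadicAlgCl p) (hs : s ∈ localInertia' p) (x : M)
    (hx : ∀ τ ∈ localInertia' p, act τ (act s x - x) - (act s x - x) ∈ M0) :
    act s x - x ∈ M0 :=
  sub_mem_of_unr_of (PointsField.pointsField ℤ_[p] ℚ_[p] (PadicAlgCl p) H) hp2
    (fun f h => PointsField.apply_mem_pointsField ℚ_[p] f h)
    (localInertia' p : Set (PadicAlgCl p ≃ₐ[ℚ_[p]] PadicAlgCl p))
    (dvd_of_fixed_localInertia _) e he hMp act hact M0 hM0 s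
    (inertialOn_of_mem_localInertia _ hs) x hx

end Fermat.Agent.S56x.Fontaine.UnrQuotLocal
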