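/-
P-S56, block (A) LOCAL FLAT, c-slot (helper73): `Fontaine/UnrQuotLocal.sub_mem_of_localInertia`
in the consumer shape `LocalKill p` of `Local/CSlotBridge` (helper32, note
'S56-IFACE-Local/CSlotBridge v0'): the statement below has verbatim the binder list of
`CSlotBridge.LocalKill p`, so `localKill_unrQuot hp2 : CSlotBridge.LocalKill p`.
-/
import Mathlib
import Fermat.Agent.S56x.Fontaine.UnrQuotLocal

set_option autoImplicit false
set_option linter.style.longLine false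
set_option linter.unusedVariables false

namespace Fermat.Agent.S56x.Fontaine.UnrQuotKill

open Fermat.Agent.S56x.Local.LocalInertia Fermat.Agent.S56x.Fontaine.UnrQuotLocal

/-- an exponent `a` with `ζ ^ a = ζ` for all `p`-th roots of unity of `PadicAlgCl p` is `≡ 1`
modulo `p`, hence acts as the identity on a group killed by `p`. -/
theorem nsmul_eq_self_of_forall_pow {p : ℕ} [Fact p.Prime] {M : Type*} [AddCommGroup M]
    (hMp : ∀ m : M, p • m = 0) (a : ℕ)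
    (ha : ∀ ζ : PadicAlgCl p, ζ ^ p = 1 → ζ = ζ ^ a) (m : M) : a • m = m := by
  have hp : p.Prime := Fact.out
  have : NeZero ((p : ℕ) : PadicAlgCl p) := ⟨by exact_mod_cast hp.ne_zero⟩
  obtain ⟨ζ, hζ⟩ := HasEnoughRootsOfUnity.exists_primitiveRoot (PadicAlgCl p) p
  have h1 := ha ζ hζ.pow_eq_one
  have hζ0 : ζ ≠ 0 := hζ.ne_zero hp.ne_zero
  have ha0 : a ≠ 0 := by
    rintro rfl
    rw [pow_zero] at h1
    exact hζ.ne_one hp.one_lt h1
  obtain ⟨a', rfl⟩ := Nat.exists_eq_succ_of_ne_zero ha0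
  have h2 : ζ ^ a' = 1 := by
    rw [pow_succ] at h1
    have h3 : ζ ^ a' * ζ = 1 * ζ := by rw [one_mul]; exact h1.symm
    exact mul_right_cancel₀ hζ0 h3
  obtain ⟨c, rfl⟩ := hζ.dvd_of_pow_eq_one a' h2
  rw [Nat.succ_eq_add_one, add_smul, one_smul, mul_comm, mul_smul, hMp, smul_zero, zero_add]

/-- **`LocalKill p`** (the hypothesis Prop of `Local/CSlotBridge`), for every odd `p`, from
Theorem Q. -/
theorem localKill_unrQuot {p : ℕ} [Fact p.Prime] (hp2 : p ≠ 2) :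
    ∀ (Hp : Type) [CommRing Hp] [HopfAlgebra ℤ_[p] Hp] [Module.Finite ℤ_[p] Hp]
      [Module.Free ℤ_[p] Hp] [Coalgebra.IsCocomm ℤ_[p] Hp]
      (M : Type) [AddCommGroup M] [Finite M] (e : WithConv (Hp →ₐ[ℤ_[p]] PadicAlgCl p) ≃ M),
      (∀ f g, e (f * g) = e f + e g) → (∀ m : M, p • m = 0) →
      ∀ (act : (PadicAlgCl p ≃ₐ[ℚ_[p]] PadicAlgCl p) → M → M),
      (∀ τ f g, (∀ h : Hp, g h = τ (f h)) → e g = act τ (e f)) →
      ∀ (a : (PadicAlgCl p ≃ₐ[ℚ_[p]] PadicAlgCl p) → ℕ),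
      (∀ τ (ζ : PadicAlgCl p), ζ ^ p = 1 → τ ζ = ζ ^ a τ) →
      ∀ (M0 Mh M1 : AddSubgroup M), M0 ≤ Mh → Mh ≤ M1 →
      (∀ τ, ∀ m ∈ M0, act τ m ∈ M0) →
      (∀ t ∈ localInertia' p, ∀ m ∈ Mh, act t m - m ∈ M0) →
      (∀ t ∈ localInertia' p, ∀ m ∈ M1, act t m - a t • m ∈ Mh) →
      ∀ s ∈ localInertia' p, (∀ ζ : PadicAlgCl p, ζ ^ p = 1 → s ζ = ζ) →
        ∀ m ∈ M1, act s m - m ∈ M0 := by
  intro Hp _ _ _ _ _ M _ _ e he hMp act hact a ha M0 Mh M1 h01 hh1 hM0 h1 h2 s hs hsζ m hm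
  have has : a s • m = m :=
    nsmul_eq_self_of_forall_pow hMp (a s) (fun ζ hζ => by rw [← ha s ζ hζ, hsζ ζ hζ]) m
  have hmh : act s m - m ∈ Mh := by
    have := h2 s hs m hm
    rwa [has] at this
  exact sub_mem_of_localInertia hp2 e he hMp act hact M0 hM0 s hs m
    (fun τ hτ => h1 τ hτ _ hmh)

end Fermat.Agent.S56x.Fontaine.UnrQuotKill
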